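/-
S58 / EC-Frob project, block [EC-N] (torsion count).

For a Weierstrass curve `W` over an algebraically closed field `K` with `Δ ≠ 0`, and an odd
natural number `m` with `(m : K) ≠ 0`:

* `Φ_m` and `ΨSq_m` have a nonzero Wronskian (its coefficient of degree `2 m² - 2` is `m²`),
  hence for all but finitely many `x₁ : K` the polynomial `Φ_m - x₁ ΨSq_m` has `m²` distinct
  roots;
* multiplication by `m` is surjective on `W(K)`;
* `W(K)[m]` has exactly `m²` elements.

Only Mathlib and the `Tors` project (division polynomial bridge, upper bound `≤ m²`) are used.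
-/
import Fermat.Agent.Tors.Count

set_option autoImplicit false

namespace Fermat.Agent.S58.EC.TorsionCount

open WeierstrassCurve WeierstrassCurve.Affine WeierstrassCurve.Affine.Point Polynomial
open Fermat.Agent.S05 Fermat.Agent.Tors

variable {K : Type*} [Field K]

/-! ### The Wronskian of `Φ_m` and `ΨSq_m` -/

section Wronskian

variable (W : Affine K)

/-- The Wronskian `Φ_m' ΨSq_m - Φ_m ΨSq_m'`. -/
noncomputable def wr (m : ℕ) : K[X] :=
  derivative (W.Φ (m : ℤ)) * W.ΨSq (m : ℤ) - W.Φ (m : ℤ) * derivative (W.ΨSq (m : ℤ))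

lemma natDegree_Φ_nat (m : ℕ) : (W.Φ (m : ℤ)).natDegree = m ^ 2 := by
  rw [W.natDegree_Φ, Int.natAbs_natCast]

lemma coeff_Φ_nat (m : ℕ) : (W.Φ (m : ℤ)).coeff (m ^ 2) = 1 := by
  have := W.coeff_Φ (m : ℤ)
  rwa [Int.natAbs_natCast] at this

lemma natDegree_ΨSq_nat_le (m : ℕ) : (W.ΨSq (m : ℤ)).natDegree ≤ m ^ 2 - 1 := by
  have := W.natDegree_ΨSq_le (m : ℤ)
  rwa [Int.natAbs_natCast] at this

lemma coeff_ΨSq_nat (m : ℕ) : (W.ΨSq (m : ℤ)).coeff (m ^ 2 - 1) = (m : K) ^ 2 := by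
  have := W.coeff_ΨSq (m : ℤ)
  rw [Int.natAbs_natCast] at this
  rw [this]
  push_cast
  rfl

/-- The coefficient of degree `2 (m² - 1)` of the Wronskian is `m²`. -/
lemma coeff_wr {m : ℕ} (hm : 0 < m) :
    (wr W m).coeff ((m ^ 2 - 1) + (m ^ 2 - 1)) = (m : K) ^ 2 := by
  have hpos : 0 < m ^ 2 := by positivity
  obtain ⟨d, hd⟩ : ∃ d, m ^ 2 = d + 1 := ⟨m ^ 2 - 1, by omega⟩
  have hdK : (m : K) ^ 2 = (d : K) + 1 := by
    have : ((m ^ 2 : ℕ) : K) = ((d + 1 : ℕ) : K) := by rw [hd]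
    push_cast at this
    exact this
  have hF : (W.Φ (m : ℤ)).natDegree = d + 1 := by rw [natDegree_Φ_nat, hd]
  have hFc : (W.Φ (m : ℤ)).coeff (d + 1) = 1 := by rw [← hd]; exact coeff_Φ_nat W m
  have hG : (W.ΨSq (m : ℤ)).natDegree ≤ d := by
    have := natDegree_ΨSq_nat_le W m
    rw [hd] at this
    simpa using this
  have hGc : (W.ΨSq (m : ℤ)).coeff d = (d : K) + 1 := by
    have := coeff_ΨSq_nat W m
    rw [hd] at this
    simpa [hdK] using this
  have hF' : (derivative (W.Φ (m : ℤ))).natDegree ≤ d := by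
    refine (natDegree_derivative_le _).trans ?_
    rw [hF]; simp
  rw [hd, Nat.add_sub_cancel, wr, coeff_sub, coeff_mul_add_eq_of_natDegree_le hF' hG, coeff_derivative, hFc,
    hGc, hdK]
  rcases d with _ | e
  · -- `m = 1`: `ΨSq` is constant
    have hG0 : derivative (W.ΨSq (m : ℤ)) = 0 := by
      rw [eq_C_of_natDegree_le_zero hG, derivative_C]
    rw [hG0, mul_zero, coeff_zero]
    simp
  · have hG' : (derivative (W.ΨSq (m : ℤ))).natDegree ≤ e := by
      refine (natDegree_derivative_le _).trans ?_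
      omega
    have hF2 : (W.Φ (m : ℤ)).natDegree ≤ e + 2 := by rw [hF]
    have hsum : e + 1 + (e + 1) = (e + 2) + e := by ring
    rw [hsum, coeff_mul_add_eq_of_natDegree_le hF2 hG', coeff_derivative, hFc, hGc]
    push_cast
    ring

lemma wr_ne_zero {m : ℕ} (hm : 0 < m) (hmK : (m : K) ≠ 0) : wr W m ≠ 0 := by
  intro h
  have := coeff_wr W hm
  rw [h, coeff_zero] at this
  exact pow_ne_zero 2 hmK this.symm

end Wronskian

/-! ### The fibre polynomial `Φ_m - x₁ ΨSq_m` -/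

section Fibre

variable (W : Affine K)

/-- The polynomial `Φ_m - x₁ ΨSq_m`, whose roots are the `x`-coordinates of the points `P`
with `x(m • P) = x₁`. -/
noncomputable def fibrePoly (m : ℕ) (x₁ : K) : K[X] :=
  W.Φ (m : ℤ) - C x₁ * W.ΨSq (m : ℤ)

lemma natDegree_C_mul_ΨSq_lt {m : ℕ} (hm : 0 < m) (x₁ : K) :
    (C x₁ * W.ΨSq (m : ℤ)).natDegree < (W.Φ (m : ℤ)).natDegree := by
  have hpos : 0 < m ^ 2 := by positivity
  calc (C x₁ * W.ΨSq (m : ℤ)).natDegree ≤ (W.ΨSq (m : ℤ)).natDegree := natDegree_C_mul_le _ _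
    _ ≤ m ^ 2 - 1 := natDegree_ΨSq_nat_le W m
    _ < m ^ 2 := by omega
    _ = (W.Φ (m : ℤ)).natDegree := (natDegree_Φ_nat W m).symm

lemma natDegree_fibrePoly {m : ℕ} (hm : 0 < m) (x₁ : K) :
    (fibrePoly W m x₁).natDegree = m ^ 2 := by
  rw [fibrePoly, natDegree_sub_eq_left_of_natDegree_lt (natDegree_C_mul_ΨSq_lt W hm x₁),
    natDegree_Φ_nat]

lemma fibrePoly_ne_zero {m : ℕ} (hm : 0 < m) (x₁ : K) : fibrePoly W m x₁ ≠ 0 := by
  intro h
  have := natDegree_fibrePoly W hm x₁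
  rw [h, natDegree_zero] at this
  have hpos : 0 < m ^ 2 := by positivity
  omega

lemma eval_fibrePoly (m : ℕ) (x₁ x : K) :
    (fibrePoly W m x₁).eval x = (W.Φ (m : ℤ)).eval x - x₁ * (W.ΨSq (m : ℤ)).eval x := by
  rw [fibrePoly, eval_sub, eval_mul, eval_C]

lemma eval_derivative_fibrePoly (m : ℕ) (x₁ x : K) :
    (derivative (fibrePoly W m x₁)).eval x =
      (derivative (W.Φ (m : ℤ))).eval x - x₁ * (derivative (W.ΨSq (m : ℤ))).eval x := by
  rw [fibrePoly, derivative_sub, derivative_C_mul, eval_sub, eval_mul, eval_C]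

/-- The finite set of exceptional values `x₁`. -/
noncomputable def badSet [DecidableEq K] (m : ℕ) : Finset K :=
  (wr W m).roots.toFinset.image
    fun x => (W.Φ (m : ℤ)).eval x / (W.ΨSq (m : ℤ)).eval x

/-- Outside the exceptional set, the fibre polynomial has only simple roots (assuming `Φ_m`,
`ΨSq_m` have no common root). -/
lemma nodup_roots_fibrePoly [DecidableEq K] {m : ℕ} (hm : 0 < m) (hmK : (m : K) ≠ 0)
    (hcop : ∀ x : K, (W.ΨSq (m : ℤ)).eval x = 0 → (W.Φ (m : ℤ)).eval x ≠ 0)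
    {x₁ : K} (hx₁ : x₁ ∉ badSet W m) : (fibrePoly W m x₁).roots.Nodup := by
  rw [Multiset.nodup_iff_count_le_one]
  intro x
  rw [count_roots]
  by_contra hlt
  rw [not_le] at hlt
  obtain ⟨h0, h1⟩ := (one_lt_rootMultiplicity_iff_isRoot (fibrePoly_ne_zero W hm x₁)).mp hlt
  rw [IsRoot.def, eval_fibrePoly] at h0
  rw [IsRoot.def, eval_derivative_fibrePoly] at h1
  have hG : (W.ΨSq (m : ℤ)).eval x ≠ 0 := by
    intro hG
    refine hcop x hG ?_
    rw [hG, mul_zero, sub_zero] at h0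
    exact h0
  have hwr : (wr W m).eval x = 0 := by
    simp only [wr, eval_sub, eval_mul]
    linear_combination (W.ΨSq (m : ℤ)).eval x * h1 - (derivative (W.ΨSq (m : ℤ))).eval x * h0
  apply hx₁
  rw [badSet, Finset.mem_image]
  refine ⟨x, ?_, ?_⟩
  · rw [Multiset.mem_toFinset, mem_roots (wr_ne_zero W hm hmK)]
    exact hwr
  · rw [div_eq_iff hG]
    linear_combination h0

end Fibre

/-! ### Points -/

section Points

variable [DecidableEq K] [IsAlgClosed K] {W : Affine K}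

omit [DecidableEq K] in
/-- Over an algebraically closed field, every `x` is the `x`-coordinate of a point of a curve
with `Δ ≠ 0`. -/
lemma exists_nonsingular (hΔ : W.Δ ≠ 0) (x : K) : ∃ y, W.Nonsingular x y := by
  have hdeg2 : (X ^ 2 + C (W.a₁ * x + W.a₃) * X
      - C (x ^ 3 + W.a₂ * x ^ 2 + W.a₄ * x + W.a₆) : K[X]).degree ≠ 0 := by
    have : (X ^ 2 + C (W.a₁ * x + W.a₃) * X
      - C (x ^ 3 + W.a₂ * x ^ 2 + W.a₄ * x + W.a₆) : K[X]).degree = 2 := by
      compute_degree!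
    rw [this]; norm_num
  obtain ⟨y, hy⟩ := IsAlgClosed.exists_root _ hdeg2
  have he : W.Equation x y := by
    rw [equation_iff]
    simp only [IsRoot.def, eval_sub, eval_add, eval_mul, eval_pow, eval_X, eval_C] at hy
    linear_combination hy
  exact ⟨y, (equation_iff_nonsingular_of_Δ_ne_zero hΔ).mp he⟩

/-- `Φ_m` and `ΨSq_m` have no common root (algebraically closed field, `Δ ≠ 0`). -/
lemma Φ_eval_ne_zero_of_ΨSq_eval_eq_zero (hΔ : W.Δ ≠ 0) (m : ℤ) (x : K)
    (h : (W.ΨSq m).eval x = 0) : (W.Φ m).eval x ≠ 0 := by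
  obtain ⟨y, hy⟩ := exists_nonsingular hΔ x
  exact Φ_ne_zero_of_ΨSq_eq_zero hy m h

/-- **Key lemma**: a root `x` of the fibre polynomial at `x(Q)` is the `x`-coordinate of a point
`P` with `m • P = Q`. -/
lemma exists_point_of_root (hΔ : W.Δ ≠ 0) {m : ℕ} {Q : W.Point} (hQ : Q ≠ 0) {x : K}
    (hx : (fibrePoly W m (xc Q)).eval x = 0) :
    ∃ P : W.Point, P ≠ 0 ∧ xc P = x ∧ m • P = Q := by
  obtain ⟨y, hy⟩ := exists_nonsingular hΔ x
  rw [eval_fibrePoly] at hx
  have hG : (W.ΨSq (m : ℤ)).eval x ≠ 0 := by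
    intro hG
    refine Φ_ne_zero_of_ΨSq_eq_zero hy m hG ?_
    rw [hG, mul_zero, sub_zero] at hx
    exact hx
  have hne : (m : ℤ) • Point.some x y hy ≠ 0 := by
    rw [Ne, zsmul_eq_zero_iff_ΨSq hy]
    exact hG
  have hxc : xc ((m : ℤ) • Point.some x y hy) = xc Q := by
    have := xc_zsmul_mul_ΨSq hy (m : ℤ) hne
    apply mul_right_cancel₀ hG
    rw [this]
    linear_combination hx
  rcases (xc_eq_iff hne hQ).mp hxc with h | h
  · refine ⟨Point.some x y hy, Point.some_ne_zero _, rfl, ?_⟩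
    rw [← natCast_zsmul]
    exact h
  · refine ⟨-Point.some x y hy, ?_, ?_, ?_⟩
    · rw [Ne, neg_eq_zero]
      exact Point.some_ne_zero _
    · rw [xc_neg]
      rfl
    · rw [smul_neg, ← natCast_zsmul, h, neg_neg]

/-- **Divisibility**: over an algebraically closed field, multiplication by `m ≠ 0` is surjective
on the points of a Weierstrass curve with `Δ ≠ 0`. -/
theorem exists_nsmul_eq (hΔ : W.Δ ≠ 0) {m : ℕ} (hm : 0 < m) (Q : W.Point) :
    ∃ P : W.Point, m • P = Q := by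
  by_cases hQ : Q = 0
  · exact ⟨0, by rw [hQ, smul_zero]⟩
  · have hdeg : (fibrePoly W m (xc Q)).degree ≠ 0 := by
      rw [degree_eq_natDegree (fibrePoly_ne_zero W hm _), natDegree_fibrePoly W hm]
      have : 0 < m ^ 2 := by positivity
      exact_mod_cast this.ne'
    obtain ⟨x, hx⟩ := IsAlgClosed.exists_root _ hdeg
    obtain ⟨P, -, -, hP⟩ := exists_point_of_root hΔ hQ hx
    exact ⟨P, hP⟩

/-- Integer version of `exists_nsmul_eq`. -/
theorem exists_zsmul_eq (hΔ : W.Δ ≠ 0) {m : ℤ} (hm : m ≠ 0) (Q : W.Point) :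
    ∃ P : W.Point, m • P = Q := by
  obtain ⟨P, hP⟩ := exists_nsmul_eq hΔ (Int.natAbs_pos.mpr hm) Q
  rcases Int.natAbs_eq m with h | h
  · exact ⟨P, by rw [h, natCast_zsmul]; exact hP⟩
  · exact ⟨-P, by rw [h, neg_smul, smul_neg, neg_neg, natCast_zsmul]; exact hP⟩

/-- **Torsion count**: over an algebraically closed field `K`, a Weierstrass curve with `Δ ≠ 0`
has exactly `m²` points of `m`-torsion, for `m` odd and nonzero in `K`. -/
theorem card_torsionBy (hΔ : W.Δ ≠ 0) {m : ℕ} (hm : Odd m) (hmK : (m : K) ≠ 0) :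
    Nat.card (Submodule.torsionBy ℤ W.Point (m : ℤ)) = m ^ 2 := by
  refine le_antisymm (card_torsionBy_le hm hmK) ?_
  have hpos : 0 < m := hm.pos
  -- a generic value `x₁` and a point `Q` above it
  obtain ⟨x₁, hx₁⟩ := Infinite.exists_notMem_finset (badSet W m)
  obtain ⟨y₁, hy₁⟩ := exists_nonsingular hΔ x₁
  have hQ : Point.some x₁ y₁ hy₁ ≠ 0 := Point.some_ne_zero _
  have hnd := nodup_roots_fibrePoly W hpos hmK
    (fun x => Φ_eval_ne_zero_of_ΨSq_eval_eq_zero hΔ m x) hx₁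
  -- the `m²` roots
  have hR : (fibrePoly W m x₁).roots.toFinset.card = m ^ 2 := by
    rw [Multiset.toFinset_card_of_nodup hnd, IsAlgClosed.card_roots_eq_natDegree,
      natDegree_fibrePoly W hpos]
  -- a point above each root
  have hch : ∀ x ∈ (fibrePoly W m x₁).roots.toFinset,
      ∃ P : W.Point, P ≠ 0 ∧ xc P = x ∧ m • P = Point.some x₁ y₁ hy₁ := by
    intro x hx
    rw [Multiset.mem_toFinset, mem_roots (fibrePoly_ne_zero W hpos _)] at hx
    exact exists_point_of_root hΔ hQ hx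
  choose! f _ hfx hfm using hch
  have hRne : (fibrePoly W m x₁).roots.toFinset.Nonempty := by
    rw [← Finset.card_pos, hR]
    positivity
  obtain ⟨x₀, hx₀⟩ := hRne
  have := finite_torsionBy (W := W) hm hmK
  let g : (fibrePoly W m x₁).roots.toFinset → Submodule.torsionBy ℤ W.Point (m : ℤ) :=
    fun x => ⟨f x - f x₀, by
      rw [Submodule.mem_torsionBy_iff, natCast_zsmul, smul_sub, hfm x x.2, hfm x₀ hx₀, sub_self]⟩
  have hg : Function.Injective g := by
    intro x x' h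
    have h1 : f x - f x₀ = f x' - f x₀ := congrArg Subtype.val h
    have h2 : f x = f x' := sub_left_injective h1
    apply Subtype.ext
    rw [← hfx x x.2, ← hfx x' x'.2, h2]
  calc m ^ 2 = (fibrePoly W m x₁).roots.toFinset.card := hR.symm
    _ = Nat.card (fibrePoly W m x₁).roots.toFinset := by
        rw [Nat.card_eq_fintype_card, Fintype.card_coe]
    _ ≤ Nat.card (Submodule.torsionBy ℤ W.Point (m : ℤ)) := Nat.card_le_card_of_injective g hg

end Points

end Fermat.Agent.S58.EC.TorsionCount
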