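/-
S58 / EC-Frob project, block [EC-N], part (N6): an abelian group `A` whose `p^j`-torsion has
`p^(2j)` elements for all `j ≤ k` has `A[p^k]` free of rank two over `ℤ/p^k`.

Mathlib only.  The elliptic-curve corollary is in `Fermat.Agent.S58.EC.TorsionBasis`.
-/
import Mathlib

set_option autoImplicit false

namespace Fermat.Agent.S58.EC.TorsionFree

variable {A : Type*} [AddCommGroup A]

variable (A) in
/-- The `n`-torsion of an abelian group, as a `ℤ`-submodule (the shape used by the prelude). -/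
abbrev tor (n : ℕ) : Submodule ℤ A := Submodule.torsionBy ℤ A (n : ℤ)

lemma mem_tor {n : ℕ} {x : A} : x ∈ tor A n ↔ (n : ℤ) • x = 0 :=
  Submodule.mem_torsionBy_iff _ _

/-- `P, Q` form a basis of the `n`-torsion of `A` over `ℤ/n` (elementary formulation). -/
structure IsTorsionBasis (n : ℕ) (P Q : A) : Prop where
  left : (n : ℤ) • P = 0
  right : (n : ℤ) • Q = 0
  indep : ∀ a b : ℤ, a • P + b • Q = 0 → (n : ℤ) ∣ a ∧ (n : ℤ) ∣ b
  span : ∀ T : A, (n : ℤ) • T = 0 → ∃ a b : ℤ, T = a • P + b • Q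

/-- A multiple of `n` kills `n`-torsion. -/
lemma zsmul_eq_zero_of_dvd {n : ℤ} {x : A} (hx : n • x = 0) {a : ℤ} (ha : n ∣ a) : a • x = 0 := by
  obtain ⟨c, rfl⟩ := ha
  rw [mul_comm, mul_smul, hx, smul_zero]

/-- On `n`-torsion, `a • x` only depends on `a` modulo `n`. -/
lemma zsmul_emod {n : ℤ} {x : A} (hx : n • x = 0) (a : ℤ) : (a % n) • x = a • x := by
  conv_rhs => rw [← Int.emod_add_mul_ediv a n]
  rw [add_smul, mul_smul, smul_comm, hx, smul_zero, add_zero]

/-- If `a` is prime to `n` and `a • x = 0` for an `n`-torsion element `x`, then `x = 0`. -/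
lemma eq_zero_of_isCoprime {n a : ℤ} {x : A} (hx : n • x = 0) (hax : a • x = 0)
    (h : IsCoprime a n) : x = 0 := by
  obtain ⟨c, d, hcd⟩ := h
  have : (c * a + d * n) • x = 0 := by
    rw [add_smul, mul_smul, mul_smul, hax, hx, smul_zero, smul_zero, add_zero]
  rwa [hcd, one_smul] at this

/-! ### Counting: independence implies spanning -/

/-- If `P, Q` are independent `n`-torsion elements and `A[n]` has `n²` elements, then `P, Q`
span `A[n]`. -/
theorem IsTorsionBasis.of_indep {n : ℕ} (hn : 0 < n) {P Q : A} (hP : (n : ℤ) • P = 0)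
    (hQ : (n : ℤ) • Q = 0)
    (hind : ∀ a b : ℤ, a • P + b • Q = 0 → (n : ℤ) ∣ a ∧ (n : ℤ) ∣ b)
    (hcard : Nat.card (tor A n) = n ^ 2) : IsTorsionBasis n P Q := by
  refine ⟨hP, hQ, hind, ?_⟩
  have hfin : Finite (tor A n) := Nat.finite_of_card_ne_zero (by rw [hcard]; positivity)
  let g : Fin n × Fin n → tor A n := fun ab =>
    ⟨((ab.1 : ℕ) : ℤ) • P + ((ab.2 : ℕ) : ℤ) • Q, by
      rw [mem_tor, smul_add, smul_comm, hP, smul_zero, smul_comm, hQ, smul_zero, add_zero]⟩
  have hg : Function.Injective g := by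
    rintro ⟨a, b⟩ ⟨a', b'⟩ h
    have h1 : ((a : ℕ) : ℤ) • P + ((b : ℕ) : ℤ) • Q = ((a' : ℕ) : ℤ) • P + ((b' : ℕ) : ℤ) • Q :=
      congrArg Subtype.val h
    have h2 : (((a : ℕ) : ℤ) - ((a' : ℕ) : ℤ)) • P + (((b : ℕ) : ℤ) - ((b' : ℕ) : ℤ)) • Q = 0 := by
      rw [sub_smul, sub_smul]
      have := sub_eq_zero.mpr h1
      rw [← this]
      abel
    obtain ⟨ha, hb⟩ := hind _ _ h2
    have ha' : (a : ℕ) = (a' : ℕ) := by
      have h1 := a.2
      have h2 := a'.2
      have := Int.eq_zero_of_abs_lt_dvd ha (by rw [abs_lt]; constructor <;> omega)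
      omega
    have hb' : (b : ℕ) = (b' : ℕ) := by
      have h1 := b.2
      have h2 := b'.2
      have := Int.eq_zero_of_abs_lt_dvd hb (by rw [abs_lt]; constructor <;> omega)
      omega
    exact Prod.ext (Fin.ext ha') (Fin.ext hb')
  have hbij : Function.Bijective g := by
    rw [Nat.bijective_iff_injective_and_card]
    refine ⟨hg, ?_⟩
    rw [hcard, Nat.card_prod, Nat.card_eq_fintype_card, Fintype.card_fin, sq]
  intro T hT
  obtain ⟨⟨a, b⟩, hab⟩ := hbij.2 ⟨T, mem_tor.mpr hT⟩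
  exact ⟨((a : ℕ) : ℤ), ((b : ℕ) : ℤ), (congrArg Subtype.val hab).symm⟩

/-! ### The prime case -/

/-- If `A[p]` has `p²` elements, it contains two independent elements. -/
theorem exists_indep_prime {p : ℕ} (hp : p.Prime) (hcard : Nat.card (tor A p) = p ^ 2) :
    ∃ u v : A, (p : ℤ) • u = 0 ∧ (p : ℤ) • v = 0 ∧
      ∀ a b : ℤ, a • u + b • v = 0 → (p : ℤ) ∣ a ∧ (p : ℤ) ∣ b := by
  have hp2 := hp.two_le
  have hfin : Finite (tor A p) := Nat.finite_of_card_ne_zero (by rw [hcard]; positivity)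
  have hpZ : Prime (p : ℤ) := Nat.prime_iff_prime_int.mp hp
  -- a nonzero element `u`
  have hnt : Nontrivial (tor A p) := by
    rw [← Finite.one_lt_card_iff_nontrivial, hcard]
    nlinarith
  obtain ⟨u, hu⟩ := exists_ne (0 : tor A p)
  have hu0 : (p : ℤ) • (u : A) = 0 := mem_tor.mp u.2
  have hu' : (u : A) ≠ 0 := fun h => hu (Subtype.ext h)
  -- an element `v` outside `⟨u⟩`
  let f : Fin p → tor A p := fun a => ((a : ℕ) : ℤ) • u
  have hf : ¬ Function.Surjective f := by
    intro hf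
    have := Nat.card_le_card_of_surjective f hf
    rw [hcard, Nat.card_eq_fintype_card, Fintype.card_fin] at this
    nlinarith
  rw [Function.Surjective] at hf
  push Not at hf
  obtain ⟨v, hv⟩ := hf
  have hv0 : (p : ℤ) • (v : A) = 0 := mem_tor.mp v.2
  -- `v` is not an integer multiple of `u`
  have hv' : ∀ e : ℤ, e • (u : A) ≠ (v : A) := by
    intro e he
    have hpos : (0 : ℤ) < p := by exact_mod_cast hp.pos
    have h0 : 0 ≤ e % (p : ℤ) := Int.emod_nonneg _ hpos.ne'
    have h1 : e % (p : ℤ) < p := Int.emod_lt_of_pos _ hpos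
    have h2 : (e % (p : ℤ)).toNat < p := by omega
    apply hv ⟨(e % (p : ℤ)).toNat, h2⟩
    apply Subtype.ext
    show (((e % (p : ℤ)).toNat : ℕ) : ℤ) • (u : A) = v
    rw [Int.toNat_of_nonneg h0, zsmul_emod hu0, he]
  refine ⟨u, v, hu0, hv0, ?_⟩
  intro a b hab
  have hb : (p : ℤ) ∣ b := by
    by_contra hb
    have hcop : IsCoprime b (p : ℤ) := (hpZ.coprime_iff_not_dvd.mpr hb).symm
    obtain ⟨c, d, hcd⟩ := hcop
    have hbv : b • (v : A) = -(a • (u : A)) := eq_neg_of_add_eq_zero_right hab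
    have : (v : A) = (-(c * a)) • (u : A) := by
      calc (v : A) = (c * b + d * p) • (v : A) := by rw [hcd, one_smul]
        _ = c • (b • (v : A)) + d • ((p : ℤ) • (v : A)) := by rw [add_smul, mul_smul, mul_smul]
        _ = (-(c * a)) • (u : A) := by
          rw [hv0, smul_zero, add_zero, hbv, neg_smul, mul_smul, smul_neg]
    exact hv' _ this.symm
  refine ⟨?_, hb⟩
  by_contra ha
  have hcop : IsCoprime a (p : ℤ) := (hpZ.coprime_iff_not_dvd.mpr ha).symm
  have hau : a • (u : A) = 0 := by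
    rw [zsmul_eq_zero_of_dvd hv0 hb, add_zero] at hab
    exact hab
  exact hu' (eq_zero_of_isCoprime hu0 hau hcop)

/-! ### The prime power case -/

/-- Multiplication by `p^k`, from `A[p^(k+1)]` to `A[p]`. -/
def mulPow (A : Type*) [AddCommGroup A] (p k : ℕ) : tor A (p ^ (k + 1)) →+ tor A p where
  toFun x := ⟨((p ^ k : ℕ) : ℤ) • (x : A), by
    rw [mem_tor, ← mul_smul]
    have h := mem_tor.mp x.2
    have h2 : ((p ^ (k + 1) : ℕ) : ℤ) = (p : ℤ) * ((p ^ k : ℕ) : ℤ) := by
      rw [pow_succ, Nat.cast_mul, mul_comm]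
    rw [← h2]
    exact h⟩
  map_zero' := by
    apply Subtype.ext
    simp
  map_add' x y := by
    apply Subtype.ext
    simp [smul_add]

lemma coe_mulPow (p k : ℕ) (x : tor A (p ^ (k + 1))) :
    ((mulPow A p k x : tor A p) : A) = ((p ^ k : ℕ) : ℤ) • (x : A) := rfl

/-- The kernel of `mulPow` is `A[p^k]`. -/
def kerEquiv (A : Type*) [AddCommGroup A] (p k : ℕ) : (mulPow A p k).ker ≃ tor A (p ^ k) where
  toFun x := ⟨((x : tor A (p ^ (k + 1))) : A), by
    rw [mem_tor]
    have := x.2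
    rw [AddMonoidHom.mem_ker] at this
    exact congrArg Subtype.val this⟩
  invFun y := ⟨⟨(y : A), by
      have h2 : ((p ^ (k + 1) : ℕ) : ℤ) = (p : ℤ) * ((p ^ k : ℕ) : ℤ) := by
        rw [pow_succ, Nat.cast_mul, mul_comm]
      rw [mem_tor, h2, mul_smul, mem_tor.mp y.2, smul_zero]⟩, by
      rw [AddMonoidHom.mem_ker]
      apply Subtype.ext
      exact mem_tor.mp y.2⟩
  left_inv x := rfl
  right_inv y := rfl

/-- **Freeness**: if `A[p^j]` has `p^(2j)` elements for all `j ≤ k`, then `A[p^k]` has a basis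
of two elements over `ℤ/p^k`. -/
theorem exists_isTorsionBasis {p : ℕ} (hp : p.Prime) (k : ℕ)
    (hcard : ∀ j ≤ k, Nat.card (tor A (p ^ j)) = p ^ (2 * j)) :
    ∃ P Q : A, IsTorsionBasis (p ^ k) P Q := by
  rcases k with _ | k
  · refine ⟨0, 0, by simp, by simp, fun a b _ => by simp, fun T hT => ⟨0, 0, ?_⟩⟩
    simpa using hT
  · have hppos : 0 < p := hp.pos
    have h1 : Nat.card (tor A p) = p ^ 2 := by simpa using hcard 1 (by omega)
    obtain ⟨u, v, hu, hv, huv⟩ := exists_indep_prime hp h1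
    have hfin1 : Finite (tor A p) := Nat.finite_of_card_ne_zero (by rw [h1]; positivity)
    have hfin : Finite (tor A (p ^ (k + 1))) :=
      Nat.finite_of_card_ne_zero (by rw [hcard (k + 1) le_rfl]; positivity)
    have hsurj : Function.Surjective (mulPow A p k) := by
      apply AddMonoidHom.surjective_of_card_ker_le_div
      rw [Nat.card_congr (kerEquiv A p k), hcard k (by omega), hcard (k + 1) le_rfl, h1,
        show 2 * (k + 1) = 2 * k + 2 by ring, pow_add, Nat.mul_div_cancel _ (by positivity)]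
    obtain ⟨P, hP⟩ := hsurj ⟨u, mem_tor.mpr hu⟩
    obtain ⟨Q, hQ⟩ := hsurj ⟨v, mem_tor.mpr hv⟩
    have hPu : ((p ^ k : ℕ) : ℤ) • (P : A) = u := congrArg Subtype.val hP
    have hQv : ((p ^ k : ℕ) : ℤ) • (Q : A) = v := congrArg Subtype.val hQ
    refine ⟨P, Q, IsTorsionBasis.of_indep (by positivity) (mem_tor.mp P.2) (mem_tor.mp Q.2) ?_ ?_⟩
    · intro a b hab
      have key : ∀ j ≤ k + 1, ((p ^ j : ℕ) : ℤ) ∣ a ∧ ((p ^ j : ℕ) : ℤ) ∣ b := by
        intro j
        induction j with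
        | zero => intro _; simp
        | succ j ih =>
          intro hj
          obtain ⟨⟨a', ha'⟩, ⟨b', hb'⟩⟩ := ih (by omega)
          have h1 : ((p ^ j : ℕ) : ℤ) • (a' • (P : A) + b' • (Q : A)) = 0 := by
            rw [smul_add, ← mul_smul, ← mul_smul, ← ha', ← hb']
            exact hab
          have h2 : a' • u + b' • v = 0 := by
            rw [← hPu, ← hQv, smul_comm a', smul_comm b', ← smul_add]
            have : ((p ^ k : ℕ) : ℤ) = ((p ^ (k - j) : ℕ) : ℤ) * ((p ^ j : ℕ) : ℤ) := by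
              rw [← Nat.cast_mul, ← pow_add, Nat.sub_add_cancel (by omega)]
            rw [this, mul_smul, h1, smul_zero]
          obtain ⟨⟨a'', ha''⟩, ⟨b'', hb''⟩⟩ := huv a' b' h2
          constructor
          · exact ⟨a'', by rw [ha', ha'', pow_succ]; push_cast; ring⟩
          · exact ⟨b'', by rw [hb', hb'', pow_succ]; push_cast; ring⟩
      exact key (k + 1) le_rfl
    · rw [hcard (k + 1) le_rfl]
      ring

/-! ### Packaging as a `Module.Basis` -/

/-- For any `ZMod n`-module structure on an abelian group, scalar multiplication by `a` is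
multiplication by the integer `a.cast`. -/
lemma zmod_smul_eq_zsmul {n : ℕ} {M : Type*} [AddCommGroup M] [Module (ZMod n) M]
    (a : ZMod n) (x : M) : a • x = (a.cast : ℤ) • x := by
  rw [← Int.cast_smul_eq_zsmul (ZMod n), ZMod.intCast_zmod_cast]

/-- A torsion basis `P, Q` gives a basis of `A[n]` for any `ZMod n`-module structure on it. -/
noncomputable def IsTorsionBasis.basis {n : ℕ} {P Q : A} (h : IsTorsionBasis n P Q)
    [Module (ZMod n) (tor A n)] : Module.Basis (Fin 2) (ZMod n) (tor A n) :=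
  Module.Basis.mk (v := ![⟨P, mem_tor.mpr h.left⟩, ⟨Q, mem_tor.mpr h.right⟩])
    (by
      rw [LinearIndependent.pair_iff]
      intro s t hst
      rw [zmod_smul_eq_zsmul, zmod_smul_eq_zsmul] at hst
      have hst' : (s.cast : ℤ) • P + (t.cast : ℤ) • Q = 0 := congrArg Subtype.val hst
      obtain ⟨hs, ht⟩ := h.indep _ _ hst'
      rw [← ZMod.intCast_zmod_eq_zero_iff_dvd, ZMod.intCast_zmod_cast] at hs ht
      exact ⟨hs, ht⟩)
    (by
      intro T _
      obtain ⟨a, b, hab⟩ := h.span (T : A) (mem_tor.mp T.2)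
      have : T = (a : ZMod n) • (⟨P, mem_tor.mpr h.left⟩ : tor A n) +
          (b : ZMod n) • (⟨Q, mem_tor.mpr h.right⟩ : tor A n) := by
        rw [Int.cast_smul_eq_zsmul, Int.cast_smul_eq_zsmul]
        exact Subtype.ext hab
      rw [this]
      refine Submodule.add_mem _ (Submodule.smul_mem _ _ (Submodule.subset_span ⟨0, rfl⟩))
        (Submodule.smul_mem _ _ (Submodule.subset_span ⟨1, rfl⟩)))

@[simp] lemma IsTorsionBasis.basis_zero {n : ℕ} {P Q : A} (h : IsTorsionBasis n P Q)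
    [Module (ZMod n) (tor A n)] : ((h.basis 0 : tor A n) : A) = P := by
  simp [IsTorsionBasis.basis]

@[simp] lemma IsTorsionBasis.basis_one {n : ℕ} {P Q : A} (h : IsTorsionBasis n P Q)
    [Module (ZMod n) (tor A n)] : ((h.basis 1 : tor A n) : A) = Q := by
  simp [IsTorsionBasis.basis]

/-- **Freeness**, `Module.Basis` form: if `A[p^j]` has `p^(2j)` elements for all `j ≤ k`, then
`A[p^k]` is free of rank two for any `ZMod (p^k)`-module structure on it. -/
theorem nonempty_basis {p : ℕ} (hp : p.Prime) (k : ℕ)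
    (hcard : ∀ j ≤ k, Nat.card (tor A (p ^ j)) = p ^ (2 * j))
    [Module (ZMod (p ^ k)) (tor A (p ^ k))] :
    Nonempty (Module.Basis (Fin 2) (ZMod (p ^ k)) (tor A (p ^ k))) := by
  obtain ⟨P, Q, h⟩ := exists_isTorsionBasis hp k hcard
  exact ⟨h.basis⟩

end Fermat.Agent.S58.EC.TorsionFree
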