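/-
S58 / EC-Frob project, block [EC-N]: `W(K)[p^k]` is free of rank two over `ℤ/p^k`, for `K`
algebraically closed, `Δ ≠ 0`, `p` an odd prime different from the characteristic.
Combination of `TorsionCount` (`|W(K)[m]| = m²`) and `TorsionFree` (abstract freeness).
-/
import Fermat.Agent.S58.EC.TorsionCount
import Fermat.Agent.S58.EC.TorsionFree
import Fermat.Prelude.Def_FLTPrelim_GaloisRep

set_option autoImplicit false

namespace Fermat.Agent.S58.EC.TorsionBasis

open WeierstrassCurve WeierstrassCurve.Affine WeierstrassCurve.Affine.Point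
open Fermat.Agent.S58.EC.TorsionCount Fermat.Agent.S58.EC.TorsionFree

section Field

variable {K : Type*} [Field K] [DecidableEq K] [IsAlgClosed K] {W : Affine K}

/-- `|W(K)[p^j]| = p^(2j)`. -/
theorem card_torsionBy_prime_pow (hΔ : W.Δ ≠ 0) {p : ℕ} (hp : p.Prime) (hp2 : p ≠ 2)
    (hpK : (p : K) ≠ 0) (j : ℕ) :
    Nat.card (Submodule.torsionBy ℤ W.Point ((p ^ j : ℕ) : ℤ)) = p ^ (2 * j) := by
  have hodd : Odd (p ^ j) := (hp.odd_of_ne_two hp2).pow
  have hK : ((p ^ j : ℕ) : K) ≠ 0 := by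
    rw [Nat.cast_pow]
    exact pow_ne_zero _ hpK
  rw [card_torsionBy hΔ hodd hK, ← pow_mul, mul_comm]

/-- `W(K)[p^k]` has a basis of two elements over `ℤ/p^k` (elementary form). -/
theorem exists_isTorsionBasis (hΔ : W.Δ ≠ 0) {p : ℕ} (hp : p.Prime) (hp2 : p ≠ 2)
    (hpK : (p : K) ≠ 0) (k : ℕ) : ∃ P Q : W.Point, IsTorsionBasis (p ^ k) P Q :=
  TorsionFree.exists_isTorsionBasis hp k fun j _ => card_torsionBy_prime_pow hΔ hp hp2 hpK j

/-- `W(K)[p^k]` is free of rank two for any `ZMod (p^k)`-module structure on it. -/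
theorem nonempty_basis' (hΔ : W.Δ ≠ 0) {p : ℕ} (hp : p.Prime) (hp2 : p ≠ 2)
    (hpK : (p : K) ≠ 0) (k : ℕ)
    [Module (ZMod (p ^ k)) (Submodule.torsionBy ℤ W.Point ((p ^ k : ℕ) : ℤ))] :
    Nonempty (Module.Basis (Fin 2) (ZMod (p ^ k))
      (Submodule.torsionBy ℤ W.Point ((p ^ k : ℕ) : ℤ))) :=
  TorsionFree.nonempty_basis hp k fun j _ => card_torsionBy_prime_pow hΔ hp hp2 hpK j

end Field

section Prelude

variable {R : Type*} [CommRing R] (W' : Affine R) {K : Type*} [Field K] [DecidableEq K]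
  [IsAlgClosed K] [Algebra R K]

/-- `W'(K)[p^k]` is free of rank two over `ZMod (p^k)`, for the module structure of the prelude
(`WeierstrassCurve.Affine.Point.instModuleZModTorsionBy`). -/
theorem nonempty_basis (hΔ : (W'⁄K).Δ ≠ 0) {p : ℕ} (hp : p.Prime) (hp2 : p ≠ 2)
    (hpK : (p : K) ≠ 0) (k : ℕ) :
    Nonempty (Module.Basis (Fin 2) (ZMod (p ^ k))
      (Submodule.torsionBy ℤ (W'⁄K).Point ((p ^ k : ℕ) : ℤ))) :=
  nonempty_basis' hΔ hp hp2 hpK k

/-- Consequently `W'(K)[p^k]` has `p^(2k)` elements, is finite, and is a free module. -/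
theorem finite_torsionBy_prime_pow (hΔ : (W'⁄K).Δ ≠ 0) {p : ℕ} (hp : p.Prime) (hp2 : p ≠ 2)
    (hpK : (p : K) ≠ 0) (k : ℕ) :
    Finite (Submodule.torsionBy ℤ (W'⁄K).Point ((p ^ k : ℕ) : ℤ)) :=
  Nat.finite_of_card_ne_zero (by
    rw [card_torsionBy_prime_pow hΔ hp hp2 hpK k]
    exact pow_ne_zero _ hp.ne_zero)

end Prelude

end Fermat.Agent.S58.EC.TorsionBasis
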