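/-
S58 / EC-Frob project, piece (U4) (helper28): **the determinant of the Galois action on the
torsion of an elliptic curve is the cyclotomic character**, GIVEN its values at Frobenius elements
(block EC-G).

* `eq_of_forall_frobenius` : two monoid-valued maps of `Gal(ℚ̄/ℚ)` which factor through finite
  levels and agree at all Frobenius elements at the primes outside a finite set are equal
  (Frobenius density theorem, `N4/FrobDensity`).
* `detChar E n : Γ →* ZMod n` : the determinant of the action on `E(ℚ̄)[n]`; `detChar_factors`.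
* `det_eq_cycloCharAdic` : `det(σ | E[p^k]) = χ_cyc(σ) mod p^k` for all `σ`;
  `det_inertia_eq_one` : `det(τ | E[p^k]) = 1` for `τ` in an inertia group at `q ≠ p`.
* `det_eq_cycloChar` : `det(σ | E[p]) = χ_cyc(σ) mod p` (the prelude's `ExtCitation.cycloChar`);
  `det_inertia_eq_one'`, `det_involution_eq_neg_one`.
* `transport_pow_one` : transport of statements about level `p ^ 1` to level `p`.
* the instances for `W : WeierstrassCurve ℤ` with `Δ ≠ 0`.
-/
import Mathlib
import Fermat.Prelude.Def_GaloisRep_Residual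
import Fermat.Agent.N4.FrobDensity.CycloFrob
import Fermat.Agent.N4.FrobDensity.CycloAdic
import Fermat.Agent.N4.FrobDensity.CycloConj
import Fermat.Agent.S13.FiniteLevel
import Fermat.Agent.S58.EC.TorsionBasis
import Fermat.Agent.S58.ArtinSchreierLite

set_option autoImplicit false
set_option linter.unusedSectionVars false
set_option linter.style.haveILetI false

namespace Fermat.Agent.S58.EC.DetCyclo

open WeierstrassCurve WeierstrassCurve.Affine WeierstrassCurve.Affine.Point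
open Fermat.Agent.N4.FrobDensity

local notation "Qbar" => AlgebraicClosure ℚ
local notation "Γ" => (AlgebraicClosure ℚ ≃ₐ[ℚ] AlgebraicClosure ℚ)

/-! ### Two finite-level maps agreeing at Frobenius elements agree -/

section Abstract

/-- **Two maps factoring through finite levels which agree at Frobenius elements agree.** -/
theorem eq_of_forall_frobenius {M : Type} [Monoid M] (χ₁ χ₂ : Γ →* M)
    (h₁ : GaloisFactorsThroughFiniteLevel χ₁) (h₂ : GaloisFactorsThroughFiniteLevel χ₂)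
    (T : Finset ℕ)
    (hfrob : ∀ l : ℕ, l.Prime → l ∉ T → ∀ A : ValuationSubring Qbar, A.LiesOverPrime l →
      ∀ φ : Γ, A.IsFrobeniusAt φ l → χ₁ φ = χ₂ φ) (g : Γ) : χ₁ g = χ₂ g := by
  obtain ⟨L₁, hL₁, hχ₁⟩ := h₁
  obtain ⟨L₂, hL₂, hχ₂⟩ := h₂
  haveI := hL₁
  haveI := hL₂
  obtain ⟨l, hl, hlT, A, hA, f, hf, j, hj⟩ :=
    frobeniusPowerDensity (L₁ ⊔ L₂) inferInstance g T
  -- `g⁻¹ * f ^ j` fixes `L₁ ⊔ L₂`
  have hfix : ∀ y ∈ (L₁ ⊔ L₂ : IntermediateField ℚ Qbar), (g⁻¹ * f ^ j) y = y := by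
    intro y hy
    rw [AlgEquiv.mul_apply, ← hj y hy]
    exact g.symm_apply_apply y
  have e₁ : χ₁ (g⁻¹ * f ^ j) = 1 := hχ₁ _ fun y hy => hfix y (le_sup_left (a := L₁) hy)
  have e₂ : χ₂ (g⁻¹ * f ^ j) = 1 := hχ₂ _ fun y hy => hfix y (le_sup_right (b := L₂) hy)
  have k₁ : χ₁ g = χ₁ f ^ j := by
    have : χ₁ (g * (g⁻¹ * f ^ j)) = χ₁ f ^ j := by rw [mul_inv_cancel_left, map_pow]
    rw [map_mul, e₁, mul_one] at this
    exact this
  have k₂ : χ₂ g = χ₂ f ^ j := by
    have : χ₂ (g * (g⁻¹ * f ^ j)) = χ₂ f ^ j := by rw [mul_inv_cancel_left, map_pow]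
    rw [map_mul, e₂, mul_one] at this
    exact this
  rw [k₁, k₂, hfrob l hl hlT A hA f hf]

end Abstract

/-! ### The determinant character -/

section Det

variable (E : WeierstrassCurve ℚ)

/-- The determinant of the Galois action on `E(ℚ̄)[n]`, as a monoid homomorphism to `ZMod n`. -/
noncomputable def detChar (n : ℕ) : Γ →* ZMod n :=
  (LinearMap.det : Module.End (ZMod n) (Submodule.torsionBy ℤ (E⁄Qbar).Point n) →* ZMod n).comp
    (galoisRepModuleEnd (K := Qbar) ℚ E n)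

theorem detChar_apply (n : ℕ) (σ : Γ) :
    detChar E n σ = LinearMap.det (galoisRepModuleEnd (K := Qbar) ℚ E n σ) := rfl

/-- The Galois action on a finite torsion module factors through a finite level. -/
theorem galoisRepModuleEnd_factors (n : ℕ) [Finite (Submodule.torsionBy ℤ (E⁄Qbar).Point n)] :
    GaloisFactorsThroughFiniteLevel (galoisRepModuleEnd (K := Qbar) ℚ E n) := by
  obtain ⟨L, hL, h⟩ := Fermat.Agent.S13.FiniteLevel.exists_finite_level_torsion (W := E) n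
  refine ⟨L, hL, fun σ hσ => ?_⟩
  apply LinearMap.ext
  intro P
  rw [galoisRepModuleEnd_apply, h σ hσ P]
  rfl

theorem detChar_factors (n : ℕ) [Finite (Submodule.torsionBy ℤ (E⁄Qbar).Point n)] :
    GaloisFactorsThroughFiniteLevel (detChar E n) := by
  obtain ⟨L, hL, h⟩ := galoisRepModuleEnd_factors E n
  exact ⟨L, hL, fun σ hσ => by rw [detChar, MonoidHom.comp_apply, h σ hσ, map_one]⟩

/-- General form: if a finite-level character `χ : Γ →* ZMod n` takes the value `l` at the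
Frobenius elements at `l ∉ T`, and so does the determinant on `E[n]`, then `det = χ`. -/
theorem det_eq_of_forall_frobenius (n : ℕ) [Finite (Submodule.torsionBy ℤ (E⁄Qbar).Point n)]
    (χ : Γ →* ZMod n) (hχ : GaloisFactorsThroughFiniteLevel χ) (T : Finset ℕ)
    (hχfrob : ∀ l : ℕ, l.Prime → l ∉ T → ∀ A : ValuationSubring Qbar, A.LiesOverPrime l →
      ∀ φ : Γ, A.IsFrobeniusAt φ l → χ φ = ((l : ℕ) : ZMod n))
    (hfrob : ∀ l : ℕ, l.Prime → l ∉ T → ∀ A : ValuationSubring Qbar, A.LiesOverPrime l →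
      ∀ φ : Γ, A.IsFrobeniusAt φ l →
        LinearMap.det (galoisRepModuleEnd (K := Qbar) ℚ E n φ) = ((l : ℕ) : ZMod n))
    (σ : Γ) : LinearMap.det (galoisRepModuleEnd (K := Qbar) ℚ E n σ) = χ σ := by
  have := eq_of_forall_frobenius (detChar E n) χ (detChar_factors E n) hχ T
    (fun l hl hlT A hA φ hφ => by
      rw [detChar_apply, hfrob l hl hlT A hA φ hφ, hχfrob l hl hlT A hA φ hφ]) σ
  exact this

end Det

/-! ### Level `p ^ k` : the `p`-adic cyclotomic character -/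

section Adic

variable (E : WeierstrassCurve ℚ) (p : ℕ) [hp : Fact p.Prime]

/-- The `p`-adic cyclotomic character modulo `p ^ k`, as a monoid homomorphism to `ZMod (p ^ k)`. -/
noncomputable def cycloCharPow (k : ℕ) : Γ →* ZMod (p ^ k) :=
  ((PadicInt.toZModPow k : ℤ_[p] →+* ZMod (p ^ k)) : ℤ_[p] →* ZMod (p ^ k)).comp
    ((Units.coeHom ℤ_[p]).comp (cycloCharAdic p))

theorem cycloCharPow_apply (k : ℕ) (σ : Γ) :
    cycloCharPow p k σ = PadicInt.toZModPow k ((cycloCharAdic p σ : ℤ_[p]ˣ) : ℤ_[p]) := rfl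

theorem cycloCharPow_factors (k : ℕ) : GaloisFactorsThroughFiniteLevel (cycloCharPow p k) := by
  obtain ⟨L, hL, h⟩ := cycloCharAdic_continuous p k
  refine ⟨L, hL, fun σ hσ => ?_⟩
  have h1 := h σ hσ
  rw [← PadicInt.ker_toZModPow, RingHom.mem_ker, map_sub, map_one, sub_eq_zero] at h1
  rw [cycloCharPow_apply, h1]

theorem cycloCharPow_frob (k : ℕ) {A : ValuationSubring Qbar} {σ : Γ} {l : ℕ} (hl : l.Prime)
    (hlp : l ≠ p) (hlA : A.LiesOverPrime l) (hσ : A.IsFrobeniusAt σ l) :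
    cycloCharPow p k σ = ((l : ℕ) : ZMod (p ^ k)) := by
  rw [cycloCharPow_apply, cycloCharAdic_frob p hl hlp hlA hσ, map_natCast]

theorem cycloCharPow_inertia (k : ℕ) {A : ValuationSubring Qbar} {σ : Γ} {q : ℕ} (hq : q.Prime)
    (hqp : q ≠ p) (hqA : A.LiesOverPrime q) (hσ : σ ∈ A.inertiaSubgroupIn ℚ) :
    cycloCharPow p k σ = 1 := by
  rw [cycloCharPow_apply, cycloCharAdic_inertia p hq hqp hqA hσ, Units.val_one, map_one]

/-- **`det(σ | E[p^k]) = χ_cyc(σ) mod p^k` for all `σ`**, given the value `l` of the determinant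
at the Frobenius elements at the primes `l ∉ T`. -/
theorem det_eq_cycloCharAdic (k : ℕ)
    [Finite (Submodule.torsionBy ℤ (E⁄Qbar).Point ((p ^ k : ℕ)))] (T : Finset ℕ)
    (hfrob : ∀ l : ℕ, l.Prime → l ∉ T → ∀ A : ValuationSubring Qbar, A.LiesOverPrime l →
      ∀ φ : Γ, A.IsFrobeniusAt φ l →
        LinearMap.det (galoisRepModuleEnd (K := Qbar) ℚ E (p ^ k) φ) = ((l : ℕ) : ZMod (p ^ k)))
    (σ : Γ) :
    LinearMap.det (galoisRepModuleEnd (K := Qbar) ℚ E (p ^ k) σ)
      = PadicInt.toZModPow k ((cycloCharAdic p σ : ℤ_[p]ˣ) : ℤ_[p]) := by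
  have h := det_eq_of_forall_frobenius E (p ^ k) (cycloCharPow p k) (cycloCharPow_factors p k)
    (insert p T)
    (fun l hl hlT A hA φ hφ => cycloCharPow_frob p k hl
      (fun h => hlT (h ▸ Finset.mem_insert_self _ _)) hA hφ)
    (fun l hl hlT A hA φ hφ => hfrob l hl (fun h => hlT (Finset.mem_insert_of_mem h)) A hA φ hφ) σ
  rw [h, cycloCharPow_apply]

/-- **`det(τ | E[p^k]) = 1` for `τ` in an inertia group at `q ≠ p`.** -/
theorem det_inertia_eq_one (k : ℕ)
    [Finite (Submodule.torsionBy ℤ (E⁄Qbar).Point ((p ^ k : ℕ)))] (T : Finset ℕ)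
    (hfrob : ∀ l : ℕ, l.Prime → l ∉ T → ∀ A : ValuationSubring Qbar, A.LiesOverPrime l →
      ∀ φ : Γ, A.IsFrobeniusAt φ l →
        LinearMap.det (galoisRepModuleEnd (K := Qbar) ℚ E (p ^ k) φ) = ((l : ℕ) : ZMod (p ^ k)))
    {q : ℕ} (hq : q.Prime) (hqp : q ≠ p) {A : ValuationSubring Qbar} (hA : A.LiesOverPrime q)
    {τ : Γ} (hτ : τ ∈ A.inertiaSubgroupIn ℚ) :
    LinearMap.det (galoisRepModuleEnd (K := Qbar) ℚ E (p ^ k) τ) = 1 := by
  rw [det_eq_cycloCharAdic E p k T hfrob τ, cycloCharAdic_inertia p hq hqp hA hτ, Units.val_one,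
    map_one]

end Adic

/-! ### Level `p` : the prelude's mod `p` cyclotomic character -/

section ModP

open ExtCitation

variable (E : WeierstrassCurve ℚ) (p : ℕ) [hp : Fact p.Prime]

/-- The mod `p` cyclotomic character as a monoid homomorphism to `ZMod p`. -/
noncomputable def cycloCharZ : Γ →* ZMod p := (Units.coeHom (ZMod p)).comp (cycloChar p)

theorem cycloCharZ_apply (σ : Γ) :
    cycloCharZ p σ = ((cycloChar p σ : (ZMod p)ˣ) : ZMod p) := rfl

theorem cycloCharZ_factors : GaloisFactorsThroughFiniteLevel (cycloCharZ p) := by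
  obtain ⟨L, hL, h⟩ := cycloChar_factors p
  exact ⟨L, hL, fun σ hσ => by rw [cycloCharZ_apply, h σ hσ, Units.val_one]⟩

/-- **`det(σ | E[p]) = χ_cyc(σ)` for all `σ`**, given the value `l` of the determinant at the
Frobenius elements at the primes `l ∉ T`. -/
theorem det_eq_cycloChar [Finite (Submodule.torsionBy ℤ (E⁄Qbar).Point p)] (T : Finset ℕ)
    (hfrob : ∀ l : ℕ, l.Prime → l ∉ T → ∀ A : ValuationSubring Qbar, A.LiesOverPrime l →
      ∀ φ : Γ, A.IsFrobeniusAt φ l →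
        LinearMap.det (galoisRepModuleEnd (K := Qbar) ℚ E p φ) = ((l : ℕ) : ZMod p))
    (σ : Γ) :
    LinearMap.det (galoisRepModuleEnd (K := Qbar) ℚ E p σ)
      = ((cycloChar p σ : (ZMod p)ˣ) : ZMod p) := by
  have h := det_eq_of_forall_frobenius E p (cycloCharZ p) (cycloCharZ_factors p)
    (insert p T)
    (fun l hl hlT A hA φ hφ => by
      rw [cycloCharZ_apply]
      exact cycloChar_frob p hl (fun h => hlT (h ▸ Finset.mem_insert_self _ _)) hA hφ)
    (fun l hl hlT A hA φ hφ => hfrob l hl (fun h => hlT (Finset.mem_insert_of_mem h)) A hA φ hφ) σ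
  rw [h, cycloCharZ_apply]

/-- `det(τ | E[p]) = 1` for `τ` in an inertia group at `q ≠ p`. -/
theorem det_inertia_eq_one' [Finite (Submodule.torsionBy ℤ (E⁄Qbar).Point p)] (T : Finset ℕ)
    (hfrob : ∀ l : ℕ, l.Prime → l ∉ T → ∀ A : ValuationSubring Qbar, A.LiesOverPrime l →
      ∀ φ : Γ, A.IsFrobeniusAt φ l →
        LinearMap.det (galoisRepModuleEnd (K := Qbar) ℚ E p φ) = ((l : ℕ) : ZMod p))
    {q : ℕ} (hq : q.Prime) (hqp : q ≠ p) {A : ValuationSubring Qbar} (hA : A.LiesOverPrime q)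
    {τ : Γ} (hτ : τ ∈ A.inertiaSubgroupIn ℚ) :
    LinearMap.det (galoisRepModuleEnd (K := Qbar) ℚ E p τ) = 1 := by
  rw [det_eq_cycloChar E p T hfrob τ, cycloChar_inertia p hq hqp hA hτ, Units.val_one]

end ModP

/-! ### Involutions -/

section Involution

open ExtCitation

variable (p : ℕ) [hp : Fact p.Prime]

/-- **The `p`-adic cyclotomic character of an involution `c ≠ 1` is `-1`** (`p` odd; Artin–Schreier
lite: no embedding into `ℂ`). -/
theorem cycloCharAdic_involution (hp2 : p ≠ 2) (c : Γ) (hc2 : c * c = 1) (hc1 : c ≠ 1) :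
    cycloCharAdic p c = -1 := by
  apply Units.ext
  rw [Units.val_neg, Units.val_one]
  refine cycloCharAdic_eq_of_forall p c (-1) fun n t ht => ?_
  have hm : p ^ n ≠ 0 := pow_ne_zero _ hp.out.ne_zero
  rw [map_neg, map_one, pow_val_neg_one_eq_inv hm ht]
  exact Fermat.Agent.S58.ArtinSchreierLite.apply_of_pow_eq_one_of_odd_algEquiv c hc2 hc1 ht
    (hp.out.odd_of_ne_two hp2).pow

/-- **The mod `p` cyclotomic character (prelude) of an involution `c ≠ 1` is `-1`** (`p` odd). -/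
theorem cycloChar_involution (hp2 : p ≠ 2) (c : Γ) (hc2 : c * c = 1) (hc1 : c ≠ 1) :
    cycloChar p c = -1 := by
  apply Units.ext
  rw [Units.val_neg, Units.val_one]
  refine cycloChar_eq_of_forall p c (-1) fun t ht => ?_
  rw [pow_val_neg_one_eq_inv hp.out.ne_zero ht]
  exact Fermat.Agent.S58.ArtinSchreierLite.apply_of_pow_eq_one_of_odd_algEquiv c hc2 hc1 ht
    (hp.out.odd_of_ne_two hp2)

variable (E : WeierstrassCurve ℚ)

/-- `det(c | E[p^k]) = -1` for every involution `c ≠ 1`. -/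
theorem det_involution_pow (hp2 : p ≠ 2) (k : ℕ)
    [Finite (Submodule.torsionBy ℤ (E⁄Qbar).Point ((p ^ k : ℕ)))] (T : Finset ℕ)
    (hfrob : ∀ l : ℕ, l.Prime → l ∉ T → ∀ A : ValuationSubring Qbar, A.LiesOverPrime l →
      ∀ φ : Γ, A.IsFrobeniusAt φ l →
        LinearMap.det (galoisRepModuleEnd (K := Qbar) ℚ E (p ^ k) φ) = ((l : ℕ) : ZMod (p ^ k)))
    (c : Γ) (hc2 : c * c = 1) (hc1 : c ≠ 1) :
    LinearMap.det (galoisRepModuleEnd (K := Qbar) ℚ E (p ^ k) c) = -1 := by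
  rw [det_eq_cycloCharAdic E p k T hfrob c, cycloCharAdic_involution p hp2 c hc2 hc1,
    Units.val_neg, Units.val_one, map_neg, map_one]

/-- `det(c | E[p]) = -1` for every involution `c ≠ 1`: the oddness of the mod `p`
representation. -/
theorem det_involution_eq_neg_one (hp2 : p ≠ 2)
    [Finite (Submodule.torsionBy ℤ (E⁄Qbar).Point p)] (T : Finset ℕ)
    (hfrob : ∀ l : ℕ, l.Prime → l ∉ T → ∀ A : ValuationSubring Qbar, A.LiesOverPrime l →
      ∀ φ : Γ, A.IsFrobeniusAt φ l →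
        LinearMap.det (galoisRepModuleEnd (K := Qbar) ℚ E p φ) = ((l : ℕ) : ZMod p))
    (c : Γ) (hc2 : c * c = 1) (hc1 : c ≠ 1) :
    LinearMap.det (galoisRepModuleEnd (K := Qbar) ℚ E p c) = -1 := by
  rw [det_eq_cycloChar E p T hfrob c, cycloChar_involution p hp2 c hc2 hc1,
    Units.val_neg, Units.val_one]

end Involution

/-! ### Changing the name of the level (`p ^ 1` versus `p`) -/

section Congr

variable (E : WeierstrassCurve ℚ)

/-- The determinant only depends on the value of the level. -/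
theorem det_congr {n m : ℕ} (h : n = m) (σ : Γ) :
    ZMod.ringEquivCongr h (LinearMap.det (galoisRepModuleEnd (K := Qbar) ℚ E n σ))
      = LinearMap.det (galoisRepModuleEnd (K := Qbar) ℚ E m σ) := by
  subst h
  rw [ZMod.ringEquivCongr_refl]
  rfl

/-- The trace only depends on the value of the level. -/
theorem trace_congr {n m : ℕ} (h : n = m) (σ : Γ) :
    ZMod.ringEquivCongr h (galoisTrace (K := Qbar) ℚ E n σ)
      = galoisTrace (K := Qbar) ℚ E m σ := by
  subst h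
  rw [ZMod.ringEquivCongr_refl]
  rfl

/-- The characteristic polynomial only depends on the value of the level. -/
theorem charpoly_congr {n m : ℕ} (h : n = m) (σ : Γ)
    [Module.Free (ZMod n) (Submodule.torsionBy ℤ (E⁄Qbar).Point n)]
    [Module.Finite (ZMod n) (Submodule.torsionBy ℤ (E⁄Qbar).Point n)]
    [Module.Free (ZMod m) (Submodule.torsionBy ℤ (E⁄Qbar).Point m)]
    [Module.Finite (ZMod m) (Submodule.torsionBy ℤ (E⁄Qbar).Point m)] :
    (LinearMap.charpoly (galoisRepModuleEnd (K := Qbar) ℚ E n σ)).map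
        (ZMod.ringEquivCongr h : ZMod n →+* ZMod m)
      = LinearMap.charpoly (galoisRepModuleEnd (K := Qbar) ℚ E m σ) := by
  subst h
  rw [ZMod.ringEquivCongr_refl]
  exact Polynomial.map_id

theorem finite_torsionBy_congr {n m : ℕ} (h : n = m)
    (hfin : Finite (Submodule.torsionBy ℤ (E⁄Qbar).Point n)) :
    Finite (Submodule.torsionBy ℤ (E⁄Qbar).Point m) := by
  subst h
  exact hfin

end Congr

/-! ### The instances for an integral model -/

section Model

open ExtCitation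

variable (W : WeierstrassCurve ℤ) (p : ℕ) [hp : Fact p.Prime]

theorem map_map_Δ_ne_zero (hΔ : W.Δ ≠ 0) : ((W.map (Int.castRingHom ℚ))⁄Qbar).Δ ≠ 0 := by
  rw [show ((W.map (Int.castRingHom ℚ))⁄Qbar).Δ
      = algebraMap ℚ Qbar (W.map (Int.castRingHom ℚ)).Δ from WeierstrassCurve.map_Δ _ _,
    WeierstrassCurve.map_Δ]
  intro h
  have h1 : ((Int.castRingHom ℚ) W.Δ : ℚ) = 0 :=
    (algebraMap ℚ Qbar).injective (by rw [h, _root_.map_zero])
  have h2 : ((W.Δ : ℤ) : ℚ) = 0 := h1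
  exact hΔ (by exact_mod_cast h2)

/-- Finiteness of `W(ℚ̄)[p^k]`. -/
theorem finite_torsionBy_pow (hΔ : W.Δ ≠ 0) (hp2 : p ≠ 2) (k : ℕ) :
    Finite (Submodule.torsionBy ℤ ((W.map (Int.castRingHom ℚ))⁄Qbar).Point ((p ^ k : ℕ))) :=
  Fermat.Agent.S58.EC.TorsionBasis.finite_torsionBy_prime_pow (K := Qbar)
    (W.map (Int.castRingHom ℚ)) (map_map_Δ_ne_zero W hΔ) hp.out hp2
    (by exact_mod_cast hp.out.ne_zero) k

/-- Finiteness of `W(ℚ̄)[p]`. -/
theorem finite_torsionBy_prime (hΔ : W.Δ ≠ 0) (hp2 : p ≠ 2) :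
    Finite (Submodule.torsionBy ℤ ((W.map (Int.castRingHom ℚ))⁄Qbar).Point p) :=
  finite_torsionBy_congr _ (pow_one p) (finite_torsionBy_pow W p hΔ hp2 1)

/-- The finite set of primes to avoid. -/
noncomputable def badSet : Finset ℕ := insert p W.Δ.natAbs.primeFactors

theorem not_dvd_of_notMem_badSet (hΔ : W.Δ ≠ 0) {l : ℕ} (hl : l.Prime) (h : l ∉ badSet W p) :
    l ≠ p ∧ ¬ (l : ℤ) ∣ W.Δ := by
  rw [badSet, Finset.mem_insert, not_or] at h
  refine ⟨h.1, fun hdvd => h.2 ?_⟩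
  rw [Nat.mem_primeFactors]
  exact ⟨hl, Int.natCast_dvd.mp hdvd, Int.natAbs_ne_zero.mpr hΔ⟩

/-- The shape of the input from block EC-G: the determinant of the Frobenius elements at the good
primes `l ≠ p` on `W[n]` is `l`. -/
def DetFrobHyp (n : ℕ) : Prop :=
  ∀ l : ℕ, l.Prime → l ≠ p → ¬ (l : ℤ) ∣ W.Δ →
    ∀ A : ValuationSubring Qbar, A.LiesOverPrime l → ∀ φ : Γ, A.IsFrobeniusAt φ l →
      LinearMap.det (galoisRepModuleEnd (K := Qbar) ℚ (W.map (Int.castRingHom ℚ)) n φ)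
        = ((l : ℕ) : ZMod n)

theorem detFrobHyp_congr {n m : ℕ} (h : n = m) (hG : DetFrobHyp W p n) : DetFrobHyp W p m := by
  subst h
  exact hG

/-- **`det(σ | W[p^k]) = χ_cyc(σ) mod p^k`** for an integral model `W` with `Δ ≠ 0`. -/
theorem det_eq_cycloCharAdic_of_model (hΔ : W.Δ ≠ 0) (hp2 : p ≠ 2) (k : ℕ)
    (hG : DetFrobHyp W p (p ^ k)) (σ : Γ) :
    LinearMap.det (galoisRepModuleEnd (K := Qbar) ℚ (W.map (Int.castRingHom ℚ)) (p ^ k) σ)
      = PadicInt.toZModPow k ((cycloCharAdic p σ : ℤ_[p]ˣ) : ℤ_[p]) := by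
  haveI := finite_torsionBy_pow W p hΔ hp2 k
  exact det_eq_cycloCharAdic _ p k (badSet W p) (fun l hl hlT A hA φ hφ =>
    hG l hl (not_dvd_of_notMem_badSet W p hΔ hl hlT).1
      (not_dvd_of_notMem_badSet W p hΔ hl hlT).2 A hA φ hφ) σ

/-- **`det(τ | W[p^k]) = 1` on inertia at `q ≠ p`** for an integral model `W` with `Δ ≠ 0`. -/
theorem det_inertia_eq_one_of_model (hΔ : W.Δ ≠ 0) (hp2 : p ≠ 2) (k : ℕ)
    (hG : DetFrobHyp W p (p ^ k)) {q : ℕ} (hq : q.Prime) (hqp : q ≠ p)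
    {A : ValuationSubring Qbar} (hA : A.LiesOverPrime q) {τ : Γ}
    (hτ : τ ∈ A.inertiaSubgroupIn ℚ) :
    LinearMap.det (galoisRepModuleEnd (K := Qbar) ℚ (W.map (Int.castRingHom ℚ)) (p ^ k) τ)
      = 1 := by
  rw [det_eq_cycloCharAdic_of_model W p hΔ hp2 k hG τ, cycloCharAdic_inertia p hq hqp hA hτ,
    Units.val_one, map_one]

/-- `det(c | W[p^k]) = -1` for every involution `c ≠ 1`. -/
theorem det_involution_pow_of_model (hΔ : W.Δ ≠ 0) (hp2 : p ≠ 2) (k : ℕ)
    (hG : DetFrobHyp W p (p ^ k)) (c : Γ) (hc2 : c * c = 1) (hc1 : c ≠ 1) :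
    LinearMap.det (galoisRepModuleEnd (K := Qbar) ℚ (W.map (Int.castRingHom ℚ)) (p ^ k) c)
      = -1 := by
  rw [det_eq_cycloCharAdic_of_model W p hΔ hp2 k hG c, cycloCharAdic_involution p hp2 c hc2 hc1,
    Units.val_neg, Units.val_one, map_neg, map_one]

/-- **`det(σ | W[p]) = χ_cyc(σ)`** (the prelude's mod `p` cyclotomic character) for an integral
model `W` with `Δ ≠ 0`; the input may be given at level `p` or (see `detFrobHyp_congr`) `p ^ 1`. -/
theorem det_eq_cycloChar_of_model (hΔ : W.Δ ≠ 0) (hp2 : p ≠ 2) (hG : DetFrobHyp W p p) (σ : Γ) :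
    LinearMap.det (galoisRepModuleEnd (K := Qbar) ℚ (W.map (Int.castRingHom ℚ)) p σ)
      = ((cycloChar p σ : (ZMod p)ˣ) : ZMod p) := by
  haveI := finite_torsionBy_prime W p hΔ hp2
  exact det_eq_cycloChar _ p (badSet W p) (fun l hl hlT A hA φ hφ =>
    hG l hl (not_dvd_of_notMem_badSet W p hΔ hl hlT).1
      (not_dvd_of_notMem_badSet W p hΔ hl hlT).2 A hA φ hφ) σ

/-- The same with the input at level `p ^ 1` (the `k = 1` instance of block EC-G). -/
theorem det_eq_cycloChar_of_model' (hΔ : W.Δ ≠ 0) (hp2 : p ≠ 2) (hG : DetFrobHyp W p (p ^ 1))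
    (σ : Γ) :
    LinearMap.det (galoisRepModuleEnd (K := Qbar) ℚ (W.map (Int.castRingHom ℚ)) p σ)
      = ((cycloChar p σ : (ZMod p)ˣ) : ZMod p) :=
  det_eq_cycloChar_of_model W p hΔ hp2 (detFrobHyp_congr W p (pow_one p) hG) σ

/-- `det(c | W[p]) = -1` for every involution `c ≠ 1` (oddness). -/
theorem det_involution_of_model (hΔ : W.Δ ≠ 0) (hp2 : p ≠ 2) (hG : DetFrobHyp W p p)
    (c : Γ) (hc2 : c * c = 1) (hc1 : c ≠ 1) :
    LinearMap.det (galoisRepModuleEnd (K := Qbar) ℚ (W.map (Int.castRingHom ℚ)) p c) = -1 := by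
  rw [det_eq_cycloChar_of_model W p hΔ hp2 hG c, cycloChar_involution p hp2 c hc2 hc1,
    Units.val_neg, Units.val_one]

/-- `det(τ | W[p]) = 1` on inertia at `q ≠ p`. -/
theorem det_inertia_eq_one_of_model' (hΔ : W.Δ ≠ 0) (hp2 : p ≠ 2) (hG : DetFrobHyp W p p)
    {q : ℕ} (hq : q.Prime) (hqp : q ≠ p) {A : ValuationSubring Qbar} (hA : A.LiesOverPrime q)
    {τ : Γ} (hτ : τ ∈ A.inertiaSubgroupIn ℚ) :
    LinearMap.det (galoisRepModuleEnd (K := Qbar) ℚ (W.map (Int.castRingHom ℚ)) p τ) = 1 := by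
  rw [det_eq_cycloChar_of_model W p hΔ hp2 hG τ, cycloChar_inertia p hq hqp hA hτ, Units.val_one]

end Model

end Fermat.Agent.S58.EC.DetCyclo
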