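/-
S58 block [EC-K] (helper18): **the function field `K = κ(E)` of an elliptic curve as a home for
the generic point.**

`W₀ : WeierstrassCurve R` (in the application `R = ZMod ℓ`), `κ` a field over `R`, `E = W₀⁄κ`,
`K = E.FunctionField`, `G = (W₀⁄K).Point` (Mathlib's group law over the function field).
-/
import Mathlib
import Fermat.Agent.S05.Basic

set_option autoImplicit false
set_option linter.unusedSectionVars false
set_option linter.style.haveILetI false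

open WeierstrassCurve WeierstrassCurve.Affine Polynomial
open scoped Polynomial.Bivariate

noncomputable section

namespace Fermat.Agent.S58.EC.FunctionFieldK

/-! ### Generalities on bivariate evaluation -/

section Biv

variable {A B : Type*} [CommRing A] [CommRing B]

/-- `evalEval` of a coefficientwise mapped bivariate polynomial as an iterated `eval₂`. -/
theorem evalEval_map_mapRingHom (φ : A →+* B) (x y : B) (p : A[X][Y]) :
    (p.map (mapRingHom φ)).evalEval x y = p.eval₂ (eval₂RingHom φ x) y := by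
  induction p using Polynomial.induction_on' with
  | add p q hp hq => rw [Polynomial.map_add, evalEval_add, hp, hq, eval₂_add]
  | monomial n a =>
    rw [Polynomial.map_monomial, eval₂_monomial, ← C_mul_X_pow_eq_monomial, evalEval, eval_mul,
      eval_C, eval_pow, eval_X, eval_mul, eval_pow, eval_C, coe_mapRingHom, eval_map,
      coe_eval₂RingHom]

end Biv

variable {R : Type*} [CommRing R] (W₀ : WeierstrassCurve R)
variable (κ : Type*) [Field κ] [Algebra R κ]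

/-- The function field `κ(E)`, `E = W₀⁄κ`. -/
abbrev KE : Type _ := (W₀⁄κ).FunctionField

/-- The group `E(κ(E))`. -/
abbrev GE : Type _ := (W₀⁄(KE W₀ κ)).Point

/-! ### (K6a) points with values in an extension `F` = algebra maps out of the coordinate ring -/

section Lift

variable {W₀ κ}
variable {F : Type*} [Field F] [Algebra R F] [Algebra κ F] [IsScalarTower R κ F]

theorem polynomial_eval₂_eq (x y : F) :
    (W₀⁄κ).polynomial.eval₂ ((aeval x : κ[X] →ₐ[κ] F) : κ[X] →+* F) y =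
      (W₀⁄F).polynomial.evalEval x y := by
  rw [baseChange_polynomial (W := W₀) (Algebra.ofId κ F), evalEval_map_mapRingHom]
  congr 1

/-- The `κ`-algebra map `κ[E] → F` attached to a point `(x, y) ∈ E(F)`. -/
def coordLift (x y : F) (h : (W₀⁄F).Equation x y) : (W₀⁄κ).CoordinateRing →ₐ[κ] F :=
  AdjoinRoot.liftAlgHom (W₀⁄κ).polynomial (aeval x : κ[X] →ₐ[κ] F) y
    (by rw [polynomial_eval₂_eq]; exact h)

variable {x y : F} (h : (W₀⁄F).Equation x y)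

theorem coordLift_mk (p : κ[X][Y]) :
    coordLift x y h (CoordinateRing.mk (W₀⁄κ) p) =
      p.eval₂ ((aeval x : κ[X] →ₐ[κ] F) : κ[X] →+* F) y := rfl

@[simp] theorem coordLift_C (p : κ[X]) :
    coordLift x y h (CoordinateRing.mk (W₀⁄κ) (C p)) = aeval x p := by
  rw [coordLift_mk, eval₂_C]; rfl

@[simp] theorem coordLift_algebraMap (p : κ[X]) :
    coordLift x y h (algebraMap κ[X] (W₀⁄κ).CoordinateRing p) = aeval x p :=
  coordLift_C h p

@[simp] theorem coordLift_X :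
    coordLift x y h (CoordinateRing.mk (W₀⁄κ) (C X)) = x := by
  rw [coordLift_C, aeval_X]

@[simp] theorem coordLift_Y :
    coordLift x y h (CoordinateRing.mk (W₀⁄κ) Y) = y := by
  rw [coordLift_mk, eval₂_X]

/-- Two `κ`-algebra maps out of the coordinate ring agreeing on `X` and `Y` are equal. -/
theorem coordRing_algHom_ext {φ ψ : (W₀⁄κ).CoordinateRing →ₐ[κ] F}
    (hX : φ (CoordinateRing.mk (W₀⁄κ) (C X)) = ψ (CoordinateRing.mk (W₀⁄κ) (C X)))
    (hY : φ (CoordinateRing.mk (W₀⁄κ) Y) = ψ (CoordinateRing.mk (W₀⁄κ) Y)) : φ = ψ := by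
  have key : (φ : (W₀⁄κ).CoordinateRing →+* F).comp (CoordinateRing.mk (W₀⁄κ)) =
      (ψ : (W₀⁄κ).CoordinateRing →+* F).comp (CoordinateRing.mk (W₀⁄κ)) := by
    refine Polynomial.ringHom_ext (fun p => ?_) (by simpa using hY)
    have : ((φ : (W₀⁄κ).CoordinateRing →+* F).comp (CoordinateRing.mk (W₀⁄κ))).comp C =
        ((ψ : (W₀⁄κ).CoordinateRing →+* F).comp (CoordinateRing.mk (W₀⁄κ))).comp C := by
      refine Polynomial.ringHom_ext (fun a => ?_) (by simpa using hX)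
      have e : CoordinateRing.mk (W₀⁄κ) (C (C a)) = algebraMap κ (W₀⁄κ).CoordinateRing a := rfl
      simp only [RingHom.comp_apply, RingHom.coe_coe, e, AlgHom.commutes]
    exact RingHom.congr_fun this p
  refine AlgHom.ext fun z => ?_
  obtain ⟨p, rfl⟩ := AdjoinRoot.mk_surjective z
  exact RingHom.congr_fun key p

/-- Every `κ`-algebra map out of the coordinate ring is a `coordLift`. -/
theorem equation_of_algHom (φ : (W₀⁄κ).CoordinateRing →ₐ[κ] F) :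
    (W₀⁄F).Equation (φ (CoordinateRing.mk (W₀⁄κ) (C X))) (φ (CoordinateRing.mk (W₀⁄κ) Y)) := by
  rw [Equation, ← polynomial_eval₂_eq (κ := κ)]
  have h1 : ((φ : (W₀⁄κ).CoordinateRing →+* F).comp (CoordinateRing.mk (W₀⁄κ))) =
      eval₂RingHom ((aeval (φ (CoordinateRing.mk (W₀⁄κ) (C X))) : κ[X] →ₐ[κ] F) : κ[X] →+* F)
        (φ (CoordinateRing.mk (W₀⁄κ) Y)) := by
    refine Polynomial.ringHom_ext (fun p => ?_) (by simp)
    have : ((φ : (W₀⁄κ).CoordinateRing →+* F).comp (CoordinateRing.mk (W₀⁄κ))).comp C =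
        ((aeval (φ (CoordinateRing.mk (W₀⁄κ) (C X))) : κ[X] →ₐ[κ] F) : κ[X] →+* F) := by
      refine Polynomial.ringHom_ext (fun a => ?_) (by simp)
      have e : CoordinateRing.mk (W₀⁄κ) (C (C a)) = algebraMap κ (W₀⁄κ).CoordinateRing a := rfl
      simp only [RingHom.comp_apply, RingHom.coe_coe, e, AlgHom.commutes, aeval_C]
    rw [coe_eval₂RingHom, eval₂_C]
    exact RingHom.congr_fun this p
  have h2 := RingHom.congr_fun h1 (W₀⁄κ).polynomial
  rw [coe_eval₂RingHom] at h2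
  rw [← h2, RingHom.comp_apply, AdjoinRoot.mk_self, map_zero]

theorem coordLift_eq_of_algHom (φ : (W₀⁄κ).CoordinateRing →ₐ[κ] F) :
    coordLift _ _ (equation_of_algHom φ) = φ :=
  coordRing_algHom_ext (coordLift_X _) (coordLift_Y _)

/-- `coordLift` is injective as soon as the `x`-coordinate is transcendental over `κ`. -/
theorem coordLift_injective (hx : Transcendental κ x) :
    Function.Injective (coordLift (κ := κ) x y h) := by
  rw [← RingHom.coe_coe, RingHom.injective_iff_ker_eq_bot]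
  haveI : Module.Finite κ[X] (W₀⁄κ).CoordinateRing :=
    Module.Finite.of_basis (CoordinateRing.basis (W₀⁄κ))
  haveI : Algebra.IsIntegral κ[X] (W₀⁄κ).CoordinateRing := Algebra.IsIntegral.of_finite _ _
  apply Ideal.eq_bot_of_comap_eq_bot (R := κ[X])
  rw [eq_bot_iff]
  intro p hp
  rw [Ideal.mem_comap, RingHom.mem_ker, RingHom.coe_coe, coordLift_algebraMap] at hp
  rw [Ideal.mem_bot]
  by_contra hp0
  exact hx ⟨p, hp0, hp⟩

end Lift

/-! ### (K1) the generic point -/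

section Generic

/-- The coordinate function `X ∈ κ(E)`. -/
def xK : KE W₀ κ :=
  algebraMap (W₀⁄κ).CoordinateRing (KE W₀ κ) (CoordinateRing.mk (W₀⁄κ) (C X))

/-- The coordinate function `Y ∈ κ(E)`. -/
def yK : KE W₀ κ :=
  algebraMap (W₀⁄κ).CoordinateRing (KE W₀ κ) (CoordinateRing.mk (W₀⁄κ) Y)

theorem algebraMap_polynomial_eq_aeval (p : κ[X]) :
    algebraMap κ[X] (KE W₀ κ) p = aeval (xK W₀ κ) p := by
  have h : (algebraMap κ[X] (KE W₀ κ)) =
      ((aeval (xK W₀ κ) : κ[X] →ₐ[κ] KE W₀ κ) : κ[X] →+* KE W₀ κ) := by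
    refine Polynomial.ringHom_ext (fun a => ?_) ?_
    · rw [RingHom.coe_coe, aeval_C, ← algebraMap_eq, ← IsScalarTower.algebraMap_apply]
    · rw [RingHom.coe_coe, aeval_X, IsScalarTower.algebraMap_apply κ[X] (W₀⁄κ).CoordinateRing]
      rfl
  exact RingHom.congr_fun h p

/-- `X` is transcendental over `κ`. -/
theorem transcendental_xK : Transcendental κ (xK W₀ κ) := by
  rintro ⟨p, hp0, hp⟩
  rw [← algebraMap_polynomial_eq_aeval] at hp
  exact hp0 ((FaithfulSMul.algebraMap_injective κ[X] (KE W₀ κ)) (by rw [hp, map_zero]))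

theorem equation_xK_yK : (W₀⁄(KE W₀ κ)).Equation (xK W₀ κ) (yK W₀ κ) :=
  equation_of_algHom (IsScalarTower.toAlgHom κ (W₀⁄κ).CoordinateRing (KE W₀ κ))

/-- `E` elliptic over `κ` implies elliptic over any extension field. -/
theorem isElliptic_baseChange [(W₀⁄κ).IsElliptic] (F : Type*) [Field F] [Algebra R F]
    [Algebra κ F] [IsScalarTower R κ F] : (W₀⁄F).IsElliptic := by
  have h : (W₀⁄κ).map ((Algebra.ofId κ F : κ →ₐ[κ] F) : κ →+* F) = W₀⁄F :=
    Affine.map_baseChange W₀ (Algebra.ofId κ F)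
  rw [← h]
  infer_instance

variable [(W₀⁄κ).IsElliptic]

theorem nonsingular_xK_yK : (W₀⁄(KE W₀ κ)).Nonsingular (xK W₀ κ) (yK W₀ κ) := by
  haveI := isElliptic_baseChange W₀ κ (KE W₀ κ)
  exact (equation_iff_nonsingular (W := W₀⁄(KE W₀ κ))).mp (equation_xK_yK W₀ κ)

/-- The generic point `e₀ = (X, Y) ∈ E(κ(E))`. -/
def e0 : GE W₀ κ := Point.some _ _ (nonsingular_xK_yK W₀ κ)

@[simp] theorem xc_e0 : Fermat.Agent.S05.xc (e0 W₀ κ) = xK W₀ κ := rfl

theorem e0_ne_zero : e0 W₀ κ ≠ 0 := Point.some_ne_zero _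

end Generic

/-! ### (K6) substitution: `κ`-algebra maps `κ(E) → F` = points of `E(F)` with transcendental `x` -/

section FieldLift

variable {W₀ κ}
variable {F : Type*} [Field F] [Algebra R F] [Algebra κ F] [IsScalarTower R κ F]

/-- The `κ`-algebra map `κ(E) → F`, `X ↦ x`, `Y ↦ y`, attached to a point `(x, y) ∈ E(F)` with
`x` transcendental over `κ`. -/
def fieldLift (x y : F) (h : (W₀⁄F).Equation x y) (hx : Transcendental κ x) :
    KE W₀ κ →ₐ[κ] F :=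
  IsFractionRing.liftAlgHom (g := coordLift x y h) (coordLift_injective h hx)

variable {x y : F} (h : (W₀⁄F).Equation x y) (hx : Transcendental κ x)

theorem fieldLift_algebraMap (z : (W₀⁄κ).CoordinateRing) :
    fieldLift x y h hx (algebraMap (W₀⁄κ).CoordinateRing (KE W₀ κ) z) = coordLift x y h z := by
  rw [fieldLift, IsFractionRing.liftAlgHom_apply, IsFractionRing.lift_algebraMap]
  rfl

@[simp] theorem fieldLift_xK : fieldLift x y h hx (xK W₀ κ) = x := by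
  rw [xK, fieldLift_algebraMap, coordLift_X]

@[simp] theorem fieldLift_yK : fieldLift x y h hx (yK W₀ κ) = y := by
  rw [yK, fieldLift_algebraMap, coordLift_Y]

/-- Two `κ`-algebra maps out of `κ(E)` agreeing on `X` and `Y` are equal. -/
theorem algHom_ext_KE {φ ψ : KE W₀ κ →ₐ[κ] F} (hX : φ (xK W₀ κ) = ψ (xK W₀ κ))
    (hY : φ (yK W₀ κ) = ψ (yK W₀ κ)) : φ = ψ := by
  have h1 : φ.comp (IsScalarTower.toAlgHom κ (W₀⁄κ).CoordinateRing (KE W₀ κ)) =
      ψ.comp (IsScalarTower.toAlgHom κ (W₀⁄κ).CoordinateRing (KE W₀ κ)) :=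
    coordRing_algHom_ext hX hY
  have h2 : (φ : KE W₀ κ →+* F) = (ψ : KE W₀ κ →+* F) :=
    IsFractionRing.ringHom_ext (A := (W₀⁄κ).CoordinateRing) fun z => AlgHom.congr_fun h1 z
  exact AlgHom.ext fun z => RingHom.congr_fun h2 z

theorem equation_of_algHom_KE (φ : KE W₀ κ →ₐ[κ] F) :
    (W₀⁄F).Equation (φ (xK W₀ κ)) (φ (yK W₀ κ)) :=
  equation_of_algHom (φ.comp (IsScalarTower.toAlgHom κ (W₀⁄κ).CoordinateRing (KE W₀ κ)))

theorem transcendental_of_algHom_KE (φ : KE W₀ κ →ₐ[κ] F) :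
    Transcendental κ (φ (xK W₀ κ)) := by
  rintro ⟨p, hp0, hp⟩
  rw [aeval_algHom_apply] at hp
  exact transcendental_xK W₀ κ ⟨p, hp0, (φ : KE W₀ κ →+* F).injective (by
    rw [RingHom.coe_coe, hp, map_zero])⟩

theorem fieldLift_eq_of_algHom (φ : KE W₀ κ →ₐ[κ] F) :
    fieldLift _ _ (equation_of_algHom_KE φ) (transcendental_of_algHom_KE φ) = φ :=
  algHom_ext_KE (fieldLift_xK _ _) (fieldLift_yK _ _)

/-- A `κ`-algebra endomorphism-type map of `κ(E)` sends the generic point to the point it is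
attached to. -/
theorem map_e0 [(W₀⁄κ).IsElliptic] [DecidableEq (KE W₀ κ)] [DecidableEq F]
    (φ : KE W₀ κ →ₐ[κ] F) :
    Point.map (W' := W₀) φ (e0 W₀ κ) = Point.some (φ (xK W₀ κ)) (φ (yK W₀ κ))
      ((Affine.baseChange_nonsingular W₀ (f := φ) φ.injective ..).mpr
        (nonsingular_xK_yK W₀ κ)) := rfl

end FieldLift

/-! ### (K2) the rational subfield `L = κ(X)` -/

section Rat

variable {κ}
variable {F : Type*} [Field F] [Algebra κ F]

/-- The `κ`-algebra map `κ(X) → F`, `X ↦ x`, for `x` transcendental over `κ`. -/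
def ratEval (x : F) (hx : Transcendental κ x) : RatFunc κ →ₐ[κ] F :=
  IsFractionRing.liftAlgHom (g := (aeval x : κ[X] →ₐ[κ] F))
    (transcendental_iff_injective.mp hx)

theorem ratEval_algebraMap (x : F) (hx : Transcendental κ x) (p : κ[X]) :
    ratEval x hx (algebraMap κ[X] (RatFunc κ) p) = aeval x p := by
  rw [ratEval, IsFractionRing.liftAlgHom_apply, IsFractionRing.lift_algebraMap]
  rfl

@[simp] theorem ratEval_X (x : F) (hx : Transcendental κ x) : ratEval x hx RatFunc.X = x := by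
  rw [← RatFunc.algebraMap_X, ratEval_algebraMap, aeval_X]

/-- Two `κ`-algebra maps out of `κ(X)` agreeing on `X` are equal. -/
theorem ratFunc_algHom_ext {φ ψ : RatFunc κ →ₐ[κ] F} (h : φ RatFunc.X = ψ RatFunc.X) :
    φ = ψ := by
  have h1 : φ.comp (IsScalarTower.toAlgHom κ κ[X] (RatFunc κ)) =
      ψ.comp (IsScalarTower.toAlgHom κ κ[X] (RatFunc κ)) :=
    Polynomial.algHom_ext (by simpa [RatFunc.algebraMap_X] using h)
  have h2 : (φ : RatFunc κ →+* F) = (ψ : RatFunc κ →+* F) :=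
    IsFractionRing.ringHom_ext (A := κ[X]) fun z => AlgHom.congr_fun h1 z
  exact AlgHom.ext fun z => RingHom.congr_fun h2 z

theorem transcendental_ratFunc_algHom (φ : RatFunc κ →ₐ[κ] F) :
    Transcendental κ (φ RatFunc.X) := by
  rintro ⟨p, hp0, hp⟩
  rw [aeval_algHom_apply] at hp
  have h0 : aeval (RatFunc.X : RatFunc κ) p = 0 :=
    (φ : RatFunc κ →+* F).injective (by rw [RingHom.coe_coe, hp, map_zero])
  rw [← RatFunc.algebraMap_X, aeval_algebraMap_apply, aeval_X_left_apply] at h0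
  exact hp0 (RatFunc.algebraMap_injective κ (by rw [h0, map_zero]))

theorem ratEval_eq_of_algHom (φ : RatFunc κ →ₐ[κ] F) :
    ratEval (φ RatFunc.X) (transcendental_ratFunc_algHom φ) = φ :=
  ratFunc_algHom_ext (ratEval_X _ _)

end Rat

section RatK

/-- The inclusion `κ(X) → κ(E)`. -/
def ratToK : RatFunc κ →ₐ[κ] KE W₀ κ := ratEval (xK W₀ κ) (transcendental_xK W₀ κ)

@[simp] theorem ratToK_X : ratToK W₀ κ RatFunc.X = xK W₀ κ := ratEval_X _ _

theorem ratToK_algebraMap (p : κ[X]) :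
    ratToK W₀ κ (algebraMap κ[X] (RatFunc κ) p) = algebraMap κ[X] (KE W₀ κ) p := by
  rw [ratToK, ratEval_algebraMap, algebraMap_polynomial_eq_aeval]

theorem ratToK_C (a : κ) : ratToK W₀ κ (RatFunc.C a) = algebraMap κ (KE W₀ κ) a := by
  rw [← RatFunc.algebraMap_eq_C, AlgHom.commutes]

theorem ratToK_injective : Function.Injective (ratToK W₀ κ) :=
  (ratToK W₀ κ : RatFunc κ →+* KE W₀ κ).injective

/-- The subfield `L = κ(X)` of `κ(E)`. -/
def Lx : IntermediateField κ (KE W₀ κ) := (ratToK W₀ κ).fieldRange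

theorem mem_Lx_iff {z : KE W₀ κ} : z ∈ Lx W₀ κ ↔ ∃ u : RatFunc κ, ratToK W₀ κ u = z :=
  Iff.rfl

/-- For every `κ`-algebra map `φ : κ(E) → F`, the restriction of `φ` to `κ(X)` is `X ↦ φ X`. -/
theorem comp_ratToK {F : Type*} [Field F] [Algebra κ F] (φ : KE W₀ κ →ₐ[κ] F)
    (hx : Transcendental κ (φ (xK W₀ κ))) :
    φ.comp (ratToK W₀ κ) = ratEval (φ (xK W₀ κ)) hx :=
  ratFunc_algHom_ext (by simp)

/-- Variant of `comp_ratToK` with a free value of `φ X`. -/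
theorem comp_ratToK' {F : Type*} [Field F] [Algebra κ F] (φ : KE W₀ κ →ₐ[κ] F) {x : F}
    (hx : Transcendental κ x) (hφ : φ (xK W₀ κ) = x) :
    φ.comp (ratToK W₀ κ) = ratEval x hx :=
  ratFunc_algHom_ext (by simp [hφ])

end RatK

/-! ### (K3) the hyperelliptic involution `ι` of `κ(E)` over `κ(X)` -/

section Iota

/-- The involution as an algebra endomorphism: `X ↦ X`, `Y ↦ -Y - a₁X - a₃`. -/
def iotaHom : KE W₀ κ →ₐ[κ] KE W₀ κ :=
  fieldLift (xK W₀ κ) ((W₀⁄(KE W₀ κ)).negY (xK W₀ κ) (yK W₀ κ))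
    ((equation_neg ..).mpr (equation_xK_yK W₀ κ)) (transcendental_xK W₀ κ)

@[simp] theorem iotaHom_xK : iotaHom W₀ κ (xK W₀ κ) = xK W₀ κ := fieldLift_xK _ _

@[simp] theorem iotaHom_yK :
    iotaHom W₀ κ (yK W₀ κ) = (W₀⁄(KE W₀ κ)).negY (xK W₀ κ) (yK W₀ κ) := fieldLift_yK _ _

/-- `κ`-algebra maps commute with `negY`. -/
theorem map_negY {F F' : Type*} [Field F] [Algebra R F] [Algebra κ F] [IsScalarTower R κ F]
    [Field F'] [Algebra R F'] [Algebra κ F'] [IsScalarTower R κ F'] (φ : F →ₐ[κ] F') (x y : F) :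
    φ ((W₀⁄F).negY x y) = (W₀⁄F').negY (φ x) (φ y) :=
  (Affine.baseChange_negY (W' := W₀) φ x y).symm

theorem iotaHom_comp_iotaHom : (iotaHom W₀ κ).comp (iotaHom W₀ κ) = AlgHom.id κ (KE W₀ κ) := by
  refine algHom_ext_KE ?_ ?_
  · simp
  · rw [AlgHom.comp_apply, iotaHom_yK, map_negY, iotaHom_xK, iotaHom_yK, negY_negY]
    rfl

/-- **The hyperelliptic involution** of `κ(E)`. -/
def iotaK : KE W₀ κ ≃ₐ[κ] KE W₀ κ :=
  AlgEquiv.ofAlgHom (iotaHom W₀ κ) (iotaHom W₀ κ) (iotaHom_comp_iotaHom W₀ κ)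
    (iotaHom_comp_iotaHom W₀ κ)

@[simp] theorem iotaK_xK : iotaK W₀ κ (xK W₀ κ) = xK W₀ κ := iotaHom_xK W₀ κ

@[simp] theorem iotaK_yK :
    iotaK W₀ κ (yK W₀ κ) = (W₀⁄(KE W₀ κ)).negY (xK W₀ κ) (yK W₀ κ) := iotaHom_yK W₀ κ

@[simp] theorem iotaK_iotaK (z : KE W₀ κ) : iotaK W₀ κ (iotaK W₀ κ z) = z :=
  AlgHom.congr_fun (iotaHom_comp_iotaHom W₀ κ) z

theorem iotaK_ratToK (u : RatFunc κ) : iotaK W₀ κ (ratToK W₀ κ u) = ratToK W₀ κ u := by
  have h : ((iotaK W₀ κ : KE W₀ κ ≃ₐ[κ] KE W₀ κ) : KE W₀ κ →ₐ[κ] KE W₀ κ).comp (ratToK W₀ κ) =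
      ratToK W₀ κ := ratFunc_algHom_ext (by simp)
  exact AlgHom.congr_fun h u

end Iota

/-! ### `κ(E) = κ(X) ⊕ κ(X)·Y` and the fixed field of `ι` -/

section LinY

theorem baseChange_a₁ : (W₀⁄(KE W₀ κ)).a₁ = algebraMap κ (KE W₀ κ) (W₀⁄κ).a₁ :=
  IsScalarTower.algebraMap_apply R κ (KE W₀ κ) W₀.a₁

theorem baseChange_a₂ : (W₀⁄(KE W₀ κ)).a₂ = algebraMap κ (KE W₀ κ) (W₀⁄κ).a₂ :=
  IsScalarTower.algebraMap_apply R κ (KE W₀ κ) W₀.a₂

theorem baseChange_a₃ : (W₀⁄(KE W₀ κ)).a₃ = algebraMap κ (KE W₀ κ) (W₀⁄κ).a₃ :=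
  IsScalarTower.algebraMap_apply R κ (KE W₀ κ) W₀.a₃

theorem baseChange_a₄ : (W₀⁄(KE W₀ κ)).a₄ = algebraMap κ (KE W₀ κ) (W₀⁄κ).a₄ :=
  IsScalarTower.algebraMap_apply R κ (KE W₀ κ) W₀.a₄

theorem baseChange_a₆ : (W₀⁄(KE W₀ κ)).a₆ = algebraMap κ (KE W₀ κ) (W₀⁄κ).a₆ :=
  IsScalarTower.algebraMap_apply R κ (KE W₀ κ) W₀.a₆

/-- `a₁ X + a₃ ∈ κ(X)`. -/
def lR : RatFunc κ := RatFunc.C (W₀⁄κ).a₁ * RatFunc.X + RatFunc.C (W₀⁄κ).a₃

/-- `X³ + a₂ X² + a₄ X + a₆ ∈ κ(X)`. -/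
def cR : RatFunc κ :=
  RatFunc.X ^ 3 + RatFunc.C (W₀⁄κ).a₂ * RatFunc.X ^ 2 + RatFunc.C (W₀⁄κ).a₄ * RatFunc.X +
    RatFunc.C (W₀⁄κ).a₆

theorem ratToK_lR : ratToK W₀ κ (lR W₀ κ) =
    (W₀⁄(KE W₀ κ)).a₁ * xK W₀ κ + (W₀⁄(KE W₀ κ)).a₃ := by
  simp only [lR, map_add, map_mul, ratToK_C, ratToK_X, baseChange_a₁, baseChange_a₃]

theorem ratToK_cR : ratToK W₀ κ (cR W₀ κ) =
    xK W₀ κ ^ 3 + (W₀⁄(KE W₀ κ)).a₂ * xK W₀ κ ^ 2 + (W₀⁄(KE W₀ κ)).a₄ * xK W₀ κ +
      (W₀⁄(KE W₀ κ)).a₆ := by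
  simp only [cR, map_add, map_mul, map_pow, ratToK_C, ratToK_X, baseChange_a₂, baseChange_a₄,
    baseChange_a₆]

/-- The Weierstrass equation in `κ(E)`: `Y² = c(X) - l(X) Y`. -/
theorem yK_sq : yK W₀ κ ^ 2 =
    ratToK W₀ κ (cR W₀ κ) - ratToK W₀ κ (lR W₀ κ) * yK W₀ κ := by
  have h := (equation_iff ..).mp (equation_xK_yK W₀ κ)
  rw [ratToK_lR, ratToK_cR]
  linear_combination h

theorem iotaK_yK' : iotaK W₀ κ (yK W₀ κ) = -yK W₀ κ - ratToK W₀ κ (lR W₀ κ) := by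
  rw [iotaK_yK, negY, ratToK_lR]
  ring

/-- `z ∈ κ(X) + κ(X)·Y`. -/
def IsLinY (z : KE W₀ κ) : Prop :=
  ∃ u v : RatFunc κ, z = ratToK W₀ κ u + ratToK W₀ κ v * yK W₀ κ

variable {W₀ κ}

theorem isLinY_ratToK (u : RatFunc κ) : IsLinY W₀ κ (ratToK W₀ κ u) :=
  ⟨u, 0, by rw [map_zero, zero_mul, add_zero]⟩

theorem isLinY_yK : IsLinY W₀ κ (yK W₀ κ) :=
  ⟨0, 1, by rw [map_zero, map_one, one_mul, zero_add]⟩

theorem IsLinY.add {z w : KE W₀ κ} (hz : IsLinY W₀ κ z) (hw : IsLinY W₀ κ w) :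
    IsLinY W₀ κ (z + w) := by
  obtain ⟨u, v, rfl⟩ := hz
  obtain ⟨u', v', rfl⟩ := hw
  exact ⟨u + u', v + v', by rw [map_add, map_add]; ring⟩

theorem IsLinY.mul {z w : KE W₀ κ} (hz : IsLinY W₀ κ z) (hw : IsLinY W₀ κ w) :
    IsLinY W₀ κ (z * w) := by
  obtain ⟨u, v, rfl⟩ := hz
  obtain ⟨u', v', rfl⟩ := hw
  refine ⟨u * u' + v * v' * cR W₀ κ, u * v' + v * u' - v * v' * lR W₀ κ, ?_⟩
  simp only [map_add, map_sub, map_mul]
  linear_combination (ratToK W₀ κ v * ratToK W₀ κ v') * yK_sq W₀ κ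

theorem IsLinY.iota {z : KE W₀ κ} (hz : IsLinY W₀ κ z) : IsLinY W₀ κ (iotaK W₀ κ z) := by
  obtain ⟨u, v, rfl⟩ := hz
  refine ⟨u - v * lR W₀ κ, -v, ?_⟩
  simp only [map_add, map_sub, map_mul, map_neg, iotaK_ratToK, iotaK_yK']
  ring

/-- The norm `z · ι z` lies in `κ(X)`. -/
theorem exists_ratToK_eq_mul_iotaK {z : KE W₀ κ} (hz : IsLinY W₀ κ z) :
    ∃ n : RatFunc κ, ratToK W₀ κ n = z * iotaK W₀ κ z := by
  obtain ⟨u, v, rfl⟩ := hz
  refine ⟨u ^ 2 - u * v * lR W₀ κ - v ^ 2 * cR W₀ κ, ?_⟩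
  simp only [map_add, map_sub, map_mul, map_pow, iotaK_ratToK, iotaK_yK']
  linear_combination (ratToK W₀ κ v) ^ 2 * yK_sq W₀ κ

theorem IsLinY.inv {z : KE W₀ κ} (hz : IsLinY W₀ κ z) : IsLinY W₀ κ z⁻¹ := by
  by_cases hz0 : z = 0
  · rw [hz0, inv_zero]
    exact ⟨0, 0, by simp⟩
  obtain ⟨n, hn⟩ := exists_ratToK_eq_mul_iotaK hz
  have hι0 : iotaK W₀ κ z ≠ 0 := (map_ne_zero_iff _ (iotaK W₀ κ).injective).mpr hz0
  have e : z⁻¹ = iotaK W₀ κ z * ratToK W₀ κ n⁻¹ := by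
    rw [map_inv₀, hn]
    field_simp
  rw [e]
  exact hz.iota.mul (isLinY_ratToK _)

theorem isLinY_coord (a : (W₀⁄κ).CoordinateRing) :
    IsLinY W₀ κ (algebraMap (W₀⁄κ).CoordinateRing (KE W₀ κ) a) := by
  obtain ⟨p, q, rfl⟩ := CoordinateRing.exists_smul_basis_eq a
  refine ⟨algebraMap κ[X] (RatFunc κ) p, algebraMap κ[X] (RatFunc κ) q, ?_⟩
  rw [ratToK_algebraMap, ratToK_algebraMap, map_add, Algebra.smul_def, Algebra.smul_def,
    map_mul, map_mul, map_one, mul_one, ← IsScalarTower.algebraMap_apply,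
    ← IsScalarTower.algebraMap_apply]
  rfl

/-- **Every element of `κ(E)` is `u + v·Y` with `u, v ∈ κ(X)`.** -/
theorem isLinY_all (z : KE W₀ κ) : IsLinY W₀ κ z := by
  obtain ⟨a, b, _, rfl⟩ := IsFractionRing.div_surjective (A := (W₀⁄κ).CoordinateRing) z
  rw [div_eq_mul_inv]
  exact (isLinY_coord a).mul (isLinY_coord b).inv

theorem mul_iotaK_mem_Lx (z : KE W₀ κ) : z * iotaK W₀ κ z ∈ Lx W₀ κ :=
  (mem_Lx_iff W₀ κ).mpr (exists_ratToK_eq_mul_iotaK (isLinY_all z))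

theorem add_iotaK_mem_Lx (z : KE W₀ κ) : z + iotaK W₀ κ z ∈ Lx W₀ κ := by
  obtain ⟨u, v, rfl⟩ := isLinY_all z
  refine (mem_Lx_iff W₀ κ).mpr ⟨2 * u - v * lR W₀ κ, ?_⟩
  simp only [map_add, map_sub, map_mul, map_ofNat, iotaK_ratToK, iotaK_yK']
  ring

variable [(W₀⁄κ).IsElliptic]

/-- `2Y + a₁X + a₃ ≠ 0` in `κ(E)` (all characteristics: uses `Δ ≠ 0`). -/
theorem two_yK_add_ne_zero : 2 * yK W₀ κ + ratToK W₀ κ (lR W₀ κ) ≠ 0 := by
  intro h0
  have h1 : algebraMap (W₀⁄κ).CoordinateRing (KE W₀ κ)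
      ((C (W₀⁄κ).a₁ * X + C (W₀⁄κ).a₃ : κ[X]) • (1 : (W₀⁄κ).CoordinateRing) +
        (2 : κ[X]) • CoordinateRing.mk (W₀⁄κ) Y) = 0 := by
    rw [map_add, Algebra.smul_def, Algebra.smul_def, map_mul, map_mul, map_one, mul_one,
      ← IsScalarTower.algebraMap_apply, ← IsScalarTower.algebraMap_apply, ← h0, map_ofNat]
    have e : ratToK W₀ κ (lR W₀ κ) =
        algebraMap κ[X] (KE W₀ κ) (C (W₀⁄κ).a₁ * X + C (W₀⁄κ).a₃) := by
      rw [← ratToK_algebraMap, lR]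
      simp only [map_add, map_mul, RatFunc.algebraMap_C, RatFunc.algebraMap_X]
    rw [e]
    have e2 : yK W₀ κ = algebraMap (W₀⁄κ).CoordinateRing (KE W₀ κ)
      (CoordinateRing.mk (W₀⁄κ) Y) := rfl
    rw [e2]
    ring
  have h2 := (IsFractionRing.injective (W₀⁄κ).CoordinateRing (KE W₀ κ)) (h1.trans (map_zero _).symm)
  obtain ⟨hp, hq⟩ := CoordinateRing.smul_basis_eq_zero h2
  have h2κ : (2 : κ) = 0 := by
    have := congrArg (coeff · 0) hq
    simpa using this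
  have ha₁ : (W₀⁄κ).a₁ = 0 := by
    have := congrArg (coeff · 1) hp
    simpa using this
  have ha₃ : (W₀⁄κ).a₃ = 0 := by
    have := congrArg (coeff · 0) hp
    simpa using this
  have hΔ : (W₀⁄κ).Δ = 0 := by
    have h4 : (4 : κ) = 0 := by linear_combination 2 * h2κ
    simp only [WeierstrassCurve.Δ, WeierstrassCurve.b₂, WeierstrassCurve.b₄, WeierstrassCurve.b₆,
      WeierstrassCurve.b₈, ha₁, ha₃]
    linear_combination (-(4 * (W₀⁄κ).a₂ ^ 2 * (4 * (W₀⁄κ).a₂ * (W₀⁄κ).a₆ - (W₀⁄κ).a₄ ^ 2))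
      - 108 * (W₀⁄κ).a₆ ^ 2 + 18 * (W₀⁄κ).a₂ * (W₀⁄κ).a₄ * (W₀⁄κ).a₆ * 4) * h4
      - 32 * (W₀⁄κ).a₄ ^ 3 * h2κ
  exact (W₀⁄κ).isUnit_Δ.ne_zero hΔ

/-- **The fixed field of `ι` is `κ(X)`.** -/
theorem iotaK_eq_self_iff {z : KE W₀ κ} : iotaK W₀ κ z = z ↔ z ∈ Lx W₀ κ := by
  constructor
  · intro h
    obtain ⟨u, v, rfl⟩ := isLinY_all z
    rw [map_add, map_mul, iotaK_ratToK, iotaK_ratToK, iotaK_yK'] at h
    have h3 : ratToK W₀ κ v * (2 * yK W₀ κ + ratToK W₀ κ (lR W₀ κ)) = 0 := by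
      linear_combination -h
    rcases mul_eq_zero.mp h3 with hv | h4
    · exact (mem_Lx_iff W₀ κ).mpr ⟨u, by rw [hv, zero_mul, add_zero]⟩
    · exact absurd h4 two_yK_add_ne_zero
  · intro hz
    obtain ⟨u, rfl⟩ := (mem_Lx_iff W₀ κ).mp hz
    exact iotaK_ratToK W₀ κ u

/-- `1, Y` are linearly independent over `κ(X)`. -/
theorem eq_zero_of_linY_eq_zero {u v : RatFunc κ}
    (h : ratToK W₀ κ u + ratToK W₀ κ v * yK W₀ κ = 0) : u = 0 ∧ v = 0 := by
  have hv : v = 0 := by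
    by_contra hv
    have hv' : ratToK W₀ κ v ≠ 0 := (map_ne_zero_iff _ (ratToK_injective W₀ κ)).mpr hv
    have hy : yK W₀ κ = ratToK W₀ κ (-u / v) := by
      rw [map_div₀, map_neg]
      field_simp
      linear_combination h
    have h5 : iotaK W₀ κ (yK W₀ κ) = yK W₀ κ := by
      rw [hy]
      exact iotaK_ratToK W₀ κ _
    rw [iotaK_yK'] at h5
    exact two_yK_add_ne_zero (W₀ := W₀) (κ := κ) (by linear_combination -h5)
  subst hv
  rw [map_zero, zero_mul, add_zero] at h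
  exact ⟨(map_eq_zero_iff _ (ratToK_injective W₀ κ)).mp h, rfl⟩

end LinY

/-! ### (K4) the odd part `G⁻ = {γ : ι γ = -γ}` of `E(κ(E))` and the rational `x`-coordinate -/

section Gminus

open Fermat.Agent.S05 (xc xc_zero xc_some xc_neg)

variable [DecidableEq (KE W₀ κ)]

/-- `ι` acting on `E(κ(E))`. -/
def iotaG : GE W₀ κ →+ GE W₀ κ :=
  Point.map (W' := W₀) ((iotaK W₀ κ : KE W₀ κ ≃ₐ[κ] KE W₀ κ) : KE W₀ κ →ₐ[κ] KE W₀ κ)

/-- `G⁻ := {γ ∈ E(κ(E)) : ι γ = -γ}`. -/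
def Gminus : AddSubgroup (GE W₀ κ) where
  carrier := {γ | iotaG W₀ κ γ = -γ}
  zero_mem' := by simp
  add_mem' := by
    intro a b ha hb
    change iotaG W₀ κ (a + b) = -(a + b)
    rw [map_add, show iotaG W₀ κ a = -a from ha, show iotaG W₀ κ b = -b from hb, neg_add]
  neg_mem' := by
    intro a ha
    change iotaG W₀ κ (-a) = - -a
    rw [map_neg, show iotaG W₀ κ a = -a from ha]

variable {W₀ κ}

theorem mem_Gminus_iff {γ : GE W₀ κ} : γ ∈ Gminus W₀ κ ↔ iotaG W₀ κ γ = -γ := Iff.rfl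

theorem iotaG_some {x y : KE W₀ κ} (h : (W₀⁄(KE W₀ κ)).Nonsingular x y) :
    iotaG W₀ κ (Point.some x y h) = Point.some (iotaK W₀ κ x) (iotaK W₀ κ y)
      ((Affine.baseChange_nonsingular W₀
        (f := ((iotaK W₀ κ : KE W₀ κ ≃ₐ[κ] KE W₀ κ) : KE W₀ κ →ₐ[κ] KE W₀ κ))
        (iotaK W₀ κ).injective ..).mpr h) := rfl

theorem xc_iotaG (γ : GE W₀ κ) : xc (iotaG W₀ κ γ) = iotaK W₀ κ (xc γ) := by
  rcases γ with _ | ⟨x, y, h⟩
  · exact (map_zero _).symm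
  · rfl

/-- For `γ ∈ G⁻` the `x`-coordinate is fixed by `ι`. -/
theorem iotaK_xc_of_mem {γ : GE W₀ κ} (hγ : γ ∈ Gminus W₀ κ) :
    iotaK W₀ κ (xc γ) = xc γ := by
  rw [← xc_iotaG, mem_Gminus_iff.mp hγ, xc_neg]

variable [(W₀⁄κ).IsElliptic]

/-- **For `γ ∈ G⁻` the `x`-coordinate lies in `κ(X)`.** -/
theorem xc_mem_Lx_of_mem {γ : GE W₀ κ} (hγ : γ ∈ Gminus W₀ κ) : xc γ ∈ Lx W₀ κ :=
  iotaK_eq_self_iff.mp (iotaK_xc_of_mem hγ)

theorem e0_mem_Gminus : e0 W₀ κ ∈ Gminus W₀ κ := by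
  rw [mem_Gminus_iff, e0, iotaG_some, Point.neg_some]
  congr 1
  · exact iotaK_xK W₀ κ
  · exact iotaK_yK W₀ κ

variable (W₀ κ) in
/-- The `x`-coordinate as a rational function of `X` (junk value `0` outside `G⁻`). -/
def xr (γ : GE W₀ κ) : RatFunc κ :=
  open Classical in
  if h : ∃ u : RatFunc κ, ratToK W₀ κ u = xc γ then h.choose else 0

theorem ratToK_xr_of_exists {γ : GE W₀ κ} (h : ∃ u : RatFunc κ, ratToK W₀ κ u = xc γ) :
    ratToK W₀ κ (xr W₀ κ γ) = xc γ := by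
  rw [xr, dif_pos h]
  exact h.choose_spec

theorem ratToK_xr {γ : GE W₀ κ} (hγ : γ ∈ Gminus W₀ κ) : ratToK W₀ κ (xr W₀ κ γ) = xc γ :=
  ratToK_xr_of_exists ((mem_Lx_iff W₀ κ).mp (xc_mem_Lx_of_mem hγ))

theorem xr_eq_iff {γ : GE W₀ κ} (hγ : γ ∈ Gminus W₀ κ) {u : RatFunc κ} :
    xr W₀ κ γ = u ↔ ratToK W₀ κ u = xc γ := by
  rw [← ratToK_xr hγ]
  exact ⟨fun h => by rw [h], fun h => (ratToK_injective W₀ κ h).symm⟩

@[simp] theorem xr_zero : xr W₀ κ (0 : GE W₀ κ) = 0 :=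
  (xr_eq_iff (zero_mem _)).mpr (by rw [map_zero]; rfl)

@[simp] theorem xr_e0 : xr W₀ κ (e0 W₀ κ) = RatFunc.X :=
  (xr_eq_iff e0_mem_Gminus).mpr (by rw [ratToK_X]; rfl)

theorem xr_neg {γ : GE W₀ κ} (hγ : γ ∈ Gminus W₀ κ) : xr W₀ κ (-γ) = xr W₀ κ γ :=
  (xr_eq_iff (neg_mem hγ)).mpr (by rw [ratToK_xr hγ, xc_neg])

end Gminus

/-! ### (K5) Frobenius -/

section Frobenius

open Fermat.Agent.S05 (xc xc_zero xc_some xc_neg)

variable (ℓ : ℕ) [Fact ℓ.Prime] [CharP κ ℓ]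

instance charP_KE : CharP (KE W₀ κ) ℓ :=
  charP_of_injective_algebraMap (algebraMap κ (KE W₀ κ)).injective ℓ

variable {W₀ κ}

/-- The `ℓ`-power Frobenius of a field `F ⊇ κ` of characteristic `ℓ` as an `R`-algebra map, when the
image of `R` in `κ` is fixed by Frobenius (`R = ZMod ℓ`, or `R = ℤ`). -/
def frobAlg (hR : ∀ r : R, algebraMap R κ r ^ ℓ = algebraMap R κ r)
    (F : Type*) [Field F] [Algebra R F] [Algebra κ F] [IsScalarTower R κ F] [CharP F ℓ] :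
    F →ₐ[R] F :=
  { frobenius F ℓ with
    commutes' := fun r => by
      change frobenius F ℓ (algebraMap R F r) = algebraMap R F r
      rw [frobenius_def, IsScalarTower.algebraMap_apply R κ F, ← map_pow, hR] }

@[simp] theorem frobAlg_apply (hR : ∀ r : R, algebraMap R κ r ^ ℓ = algebraMap R κ r)
    (F : Type*) [Field F] [Algebra R F] [Algebra κ F] [IsScalarTower R κ F] [CharP F ℓ] (z : F) :
    frobAlg ℓ hR F z = z ^ ℓ := rfl

variable (hR : ∀ r : R, algebraMap R κ r ^ ℓ = algebraMap R κ r)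

theorem some_congr {F : Type*} [Field F] {W : Affine F} {x y x' y' : F}
    {h : W.Nonsingular x y} {h' : W.Nonsingular x' y'} (hx : x = x') (hy : y = y') :
    Point.some x y h = Point.some x' y' h' := by
  subst hx hy
  rfl

/-- Frobenius commutes with every `κ`-algebra map (on points). -/
theorem map_frobAlg_comm {F F' : Type*} [Field F] [Algebra R F] [Algebra κ F]
    [IsScalarTower R κ F] [CharP F ℓ] [Field F'] [Algebra R F'] [Algebra κ F']
    [IsScalarTower R κ F'] [CharP F' ℓ] [DecidableEq F] [DecidableEq F']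
    (φ : F →ₐ[κ] F') (γ : (W₀⁄F).Point) :
    Point.map (W' := W₀) φ (Point.map (W' := W₀) (frobAlg ℓ hR F) γ) =
      Point.map (W' := W₀) (frobAlg ℓ hR F') (Point.map (W' := W₀) φ γ) := by
  rcases γ with _ | ⟨x, y, h⟩
  · rfl
  · change Point.some (φ (x ^ ℓ)) (φ (y ^ ℓ)) _ = Point.some ((φ x) ^ ℓ) ((φ y) ^ ℓ) _
    exact some_congr (map_pow φ x ℓ) (map_pow φ y ℓ)

variable [DecidableEq (KE W₀ κ)]

variable (W₀ κ) in
/-- **Frobenius on `E(κ(E))`**, induced by `z ↦ z ^ ℓ` on `κ(E)`. -/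
def Fr : GE W₀ κ →+ GE W₀ κ := Point.map (W' := W₀) (frobAlg ℓ hR (KE W₀ κ))

theorem Fr_some {x y : KE W₀ κ} (h : (W₀⁄(KE W₀ κ)).Nonsingular x y) :
    Fr W₀ κ ℓ hR (Point.some x y h) = Point.some (x ^ ℓ) (y ^ ℓ)
      ((Affine.baseChange_nonsingular W₀ (f := frobAlg ℓ hR (KE W₀ κ))
        (frobAlg ℓ hR (KE W₀ κ)).injective ..).mpr h) := rfl

theorem xc_Fr (γ : GE W₀ κ) : xc (Fr W₀ κ ℓ hR γ) = xc γ ^ ℓ := by
  rcases γ with _ | ⟨x, y, h⟩
  · exact (zero_pow (Fact.out : ℓ.Prime).ne_zero).symm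
  · rfl

theorem Fr_injective : Function.Injective (Fr W₀ κ ℓ hR) := Point.map_injective _

/-- `Fr` commutes with `Point.map φ` for every `κ`-algebra endomorphism `φ` of `κ(E)`. -/
theorem map_Fr (φ : KE W₀ κ →ₐ[κ] KE W₀ κ) (γ : GE W₀ κ) :
    Point.map (W' := W₀) φ (Fr W₀ κ ℓ hR γ) = Fr W₀ κ ℓ hR (Point.map (W' := W₀) φ γ) :=
  map_frobAlg_comm ℓ hR φ γ

theorem iotaG_Fr (γ : GE W₀ κ) : iotaG W₀ κ (Fr W₀ κ ℓ hR γ) = Fr W₀ κ ℓ hR (iotaG W₀ κ γ) :=
  map_Fr ℓ hR _ γ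

theorem Fr_mem_Gminus {γ : GE W₀ κ} (hγ : γ ∈ Gminus W₀ κ) : Fr W₀ κ ℓ hR γ ∈ Gminus W₀ κ := by
  rw [mem_Gminus_iff, iotaG_Fr, mem_Gminus_iff.mp hγ, map_neg]

variable [(W₀⁄κ).IsElliptic]

variable (W₀ κ) in
/-- `e i = Fr^i e₀`. -/
def e (i : ℕ) : GE W₀ κ := (Fr W₀ κ ℓ hR)^[i] (e0 W₀ κ)

@[simp] theorem e_zero : e W₀ κ ℓ hR 0 = e0 W₀ κ := rfl

theorem e_succ (i : ℕ) : e W₀ κ ℓ hR (i + 1) = Fr W₀ κ ℓ hR (e W₀ κ ℓ hR i) :=
  Function.iterate_succ_apply' _ _ _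

theorem e_mem_Gminus (i : ℕ) : e W₀ κ ℓ hR i ∈ Gminus W₀ κ := by
  induction i with
  | zero => exact e0_mem_Gminus
  | succ i ih => rw [e_succ]; exact Fr_mem_Gminus ℓ hR ih

theorem xr_Fr {γ : GE W₀ κ} (hγ : γ ∈ Gminus W₀ κ) :
    xr W₀ κ (Fr W₀ κ ℓ hR γ) = xr W₀ κ γ ^ ℓ :=
  (xr_eq_iff (Fr_mem_Gminus ℓ hR hγ)).mpr (by rw [map_pow, ratToK_xr hγ, xc_Fr])

theorem xr_e (i : ℕ) : xr W₀ κ (e W₀ κ ℓ hR i) = RatFunc.X ^ ℓ ^ i := by
  induction i with
  | zero => simp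
  | succ i ih => rw [e_succ, xr_Fr ℓ hR (e_mem_Gminus ℓ hR i), ih, ← pow_mul, pow_succ]

end Frobenius

/-! ### (K6) substitution `β^*` for a nonconstant point `β`, and constant points -/

section Subst

open Fermat.Agent.S05 (xc xc_zero xc_some xc_neg)

variable {W₀ κ}
variable [DecidableEq (KE W₀ κ)]

/-- **Substitution**: for `β ∈ E(κ(E))` with transcendental `x`-coordinate, the `κ`-algebra
endomorphism `β^* : κ(E) → κ(E)`, `X ↦ x(β)`, `Y ↦ y(β)`. -/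
def star : (β : GE W₀ κ) → Transcendental κ (xc β) → (KE W₀ κ →ₐ[κ] KE W₀ κ)
  | .zero, hβ => absurd (isAlgebraic_zero : IsAlgebraic κ (0 : KE W₀ κ)) hβ
  | .some x y h, hβ => fieldLift x y h.1 hβ

theorem star_some {x y : KE W₀ κ} (h : (W₀⁄(KE W₀ κ)).Nonsingular x y)
    (hβ : Transcendental κ (xc (Point.some x y h))) :
    star (Point.some x y h) hβ = fieldLift x y h.1 hβ := rfl

theorem star_xK (β : GE W₀ κ) (hβ : Transcendental κ (xc β)) :
    star β hβ (xK W₀ κ) = xc β := by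
  rcases β with _ | ⟨x, y, h⟩
  · exact absurd (isAlgebraic_zero : IsAlgebraic κ (0 : KE W₀ κ)) hβ
  · exact fieldLift_xK (W₀ := W₀) (κ := κ) h.1 hβ

/-- `β^*` restricted to `κ(X)` is `X ↦ x(β)`. -/
theorem star_ratToK (β : GE W₀ κ) (hβ : Transcendental κ (xc β)) (u : RatFunc κ) :
    star β hβ (ratToK W₀ κ u) = ratEval (xc β) hβ u :=
  AlgHom.congr_fun (comp_ratToK' W₀ κ (star β hβ) hβ (star_xK β hβ)) u

variable [(W₀⁄κ).IsElliptic]

/-- `β^*` sends the generic point to `β`. -/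
theorem map_star_e0 (β : GE W₀ κ) (hβ : Transcendental κ (xc β)) :
    Point.map (W' := W₀) (star β hβ) (e0 W₀ κ) = β := by
  rcases β with _ | ⟨x, y, h⟩
  · exact absurd (isAlgebraic_zero : IsAlgebraic κ (0 : KE W₀ κ)) hβ
  · rw [map_e0, star_some]
    exact some_congr (fieldLift_xK _ _) (fieldLift_yK _ _)

/-- Two `κ`-algebra endomorphisms of `κ(E)` with the same image of the generic point agree. -/
theorem algHom_eq_of_map_e0_eq {φ ψ : KE W₀ κ →ₐ[κ] KE W₀ κ}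
    (h : Point.map (W' := W₀) φ (e0 W₀ κ) = Point.map (W' := W₀) ψ (e0 W₀ κ)) : φ = ψ := by
  rw [map_e0, map_e0, Point.some.injEq] at h
  exact algHom_ext_KE h.1 h.2

/-- Every `κ`-algebra endomorphism of `κ(E)` is `β^*` for `β` the image of the generic point. -/
theorem eq_star (φ : KE W₀ κ →ₐ[κ] KE W₀ κ) :
    ∃ hβ : Transcendental κ (xc (Point.map (W' := W₀) φ (e0 W₀ κ))),
      star (Point.map (W' := W₀) φ (e0 W₀ κ)) hβ = φ := by
  have hβ : Transcendental κ (xc (Point.map (W' := W₀) φ (e0 W₀ κ))) := by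
    rw [map_e0]; exact transcendental_of_algHom_KE φ
  exact ⟨hβ, algHom_eq_of_map_e0_eq (map_star_e0 _ hβ)⟩

end Subst

section Const

open Fermat.Agent.S05 (xc xc_zero xc_some xc_neg)

variable {W₀ κ}

/-- Over an algebraically closed `κ`, elements of an extension field algebraic over `κ` lie in
`κ`. -/
theorem mem_range_of_isAlgebraic [IsAlgClosed κ] {F : Type*} [Field F] [Algebra κ F] {z : F}
    (hz : IsAlgebraic κ z) : z ∈ Set.range (algebraMap κ F) := by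
  have hi : IsIntegral κ z := hz.isIntegral
  exact minpoly.mem_range_of_degree_eq_one κ z
    (IsAlgClosed.degree_eq_one_of_irreducible κ (minpoly.irreducible hi))

theorem transcendental_of_notMem_range [IsAlgClosed κ] {F : Type*} [Field F] [Algebra κ F]
    {z : F} (hz : z ∉ Set.range (algebraMap κ F)) : Transcendental κ z :=
  fun h => hz (mem_range_of_isAlgebraic h)

variable [DecidableEq κ] [DecidableEq (KE W₀ κ)]

variable (W₀ κ) in
/-- Constant points: `E(κ) → E(κ(E))`. -/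
def constPt : (W₀⁄κ).Point →+ GE W₀ κ := Point.baseChange (W' := W₀) κ (KE W₀ κ)

theorem constPt_some {a b : κ} (h : (W₀⁄κ).Nonsingular a b) :
    constPt W₀ κ (Point.some a b h) =
      Point.some (algebraMap κ (KE W₀ κ) a) (algebraMap κ (KE W₀ κ) b)
        ((Affine.baseChange_nonsingular W₀ (f := Algebra.ofId κ (KE W₀ κ))
          (Algebra.ofId κ (KE W₀ κ)).injective ..).mpr h) := rfl

theorem constPt_injective : Function.Injective (constPt W₀ κ) := Point.map_injective _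

/-- Constant points are fixed by every `κ`-algebra endomorphism of `κ(E)`. -/
theorem map_constPt (φ : KE W₀ κ →ₐ[κ] KE W₀ κ) (P : (W₀⁄κ).Point) :
    Point.map (W' := W₀) φ (constPt W₀ κ P) = constPt W₀ κ P :=
  Point.map_baseChange (W' := W₀) φ P

theorem xc_constPt (P : (W₀⁄κ).Point) :
    xc (constPt W₀ κ P) = algebraMap κ (KE W₀ κ) (xc P) := by
  rcases P with _ | ⟨a, b, h⟩
  · exact (map_zero _).symm
  · rfl

/-- **A point whose `x`-coordinate is constant is a constant point** (`κ` algebraically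
closed). -/
theorem exists_constPt_eq [IsAlgClosed κ] (γ : GE W₀ κ)
    (hx : xc γ ∈ Set.range (algebraMap κ (KE W₀ κ))) : ∃ P, constPt W₀ κ P = γ := by
  rcases γ with _ | ⟨x, y, h⟩
  · exact ⟨0, rfl⟩
  obtain ⟨a, ha⟩ := hx
  have ha' : algebraMap κ (KE W₀ κ) a = x := ha
  subst ha'
  have hy : IsIntegral κ y := by
    refine ⟨X ^ 2 + C ((W₀⁄κ).a₁ * a + (W₀⁄κ).a₃) * X -
      C (a ^ 3 + (W₀⁄κ).a₂ * a ^ 2 + (W₀⁄κ).a₄ * a + (W₀⁄κ).a₆), ?_, ?_⟩
    · rw [add_sub_assoc]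
      refine monic_X_pow_add ?_
      refine lt_of_le_of_lt (degree_sub_le _ _) (max_lt ?_ ?_)
      · exact lt_of_le_of_lt (degree_C_mul_X_le _) (by norm_num)
      · exact lt_of_le_of_lt degree_C_le (by norm_num)
    · have he := (equation_iff ..).mp h.1
      rw [baseChange_a₁, baseChange_a₂, baseChange_a₃, baseChange_a₄, baseChange_a₆] at he
      simp only [eval₂_sub, eval₂_add, eval₂_mul, eval₂_pow, eval₂_X, eval₂_C, map_add, map_mul,
        map_pow]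
      linear_combination he
  obtain ⟨b, hb⟩ := mem_range_of_isAlgebraic hy.isAlgebraic
  subst hb
  have hns : (W₀⁄κ).Nonsingular a b :=
    (Affine.baseChange_nonsingular W₀ (f := Algebra.ofId κ (KE W₀ κ))
      (Algebra.ofId κ (KE W₀ κ)).injective a b).mp h
  exact ⟨Point.some a b hns, rfl⟩

/-- A point is nonconstant iff its `x`-coordinate is transcendental over `κ`. -/
theorem transcendental_xc_of_forall_ne [IsAlgClosed κ] {γ : GE W₀ κ}
    (h : ∀ P, constPt W₀ κ P ≠ γ) : Transcendental κ (xc γ) :=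
  transcendental_of_notMem_range fun hx => by
    obtain ⟨P, hP⟩ := exists_constPt_eq γ hx
    exact h P hP

theorem not_transcendental_xc_constPt (P : (W₀⁄κ).Point) :
    ¬ Transcendental κ (xc (constPt W₀ κ P)) := by
  rw [xc_constPt]
  exact fun h => h (isAlgebraic_algebraMap _)

variable [(W₀⁄κ).IsElliptic]

/-- The generic point is not constant. -/
theorem constPt_ne_e0 (P : (W₀⁄κ).Point) : constPt W₀ κ P ≠ e0 W₀ κ := by
  intro h
  apply not_transcendental_xc_constPt P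
  rw [h, xc_e0]
  exact transcendental_xK W₀ κ

/-- Translates of the generic point by constant points are nonconstant: the `x`-coordinate of
`±e₀ + P₀` is transcendental, so `(±e₀ + P₀)^*` exists. -/
theorem transcendental_xc_e0_add_constPt [IsAlgClosed κ] (P₀ : (W₀⁄κ).Point) :
    Transcendental κ (xc (e0 W₀ κ + constPt W₀ κ P₀)) :=
  transcendental_xc_of_forall_ne fun P h =>
    constPt_ne_e0 (P - P₀) (by rw [map_sub, h, add_sub_cancel_right])

theorem transcendental_xc_neg_e0_add_constPt [IsAlgClosed κ] (P₀ : (W₀⁄κ).Point) :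
    Transcendental κ (xc (-e0 W₀ κ + constPt W₀ κ P₀)) :=
  transcendental_xc_of_forall_ne fun P h =>
    constPt_ne_e0 (P₀ - P) (by rw [map_sub, h]; abel)

/-- For `γ ∈ G⁻`: constant rational `x`-coordinate means constant point. -/
theorem exists_constPt_eq_of_xr [IsAlgClosed κ] {γ : GE W₀ κ} (hγ : γ ∈ Gminus W₀ κ)
    (h : xr W₀ κ γ ∈ Set.range (RatFunc.C : κ → RatFunc κ)) : ∃ P, constPt W₀ κ P = γ := by
  obtain ⟨a, ha⟩ := h
  refine exists_constPt_eq γ ⟨a, ?_⟩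
  rw [← ratToK_xr hγ, ← ha, ratToK_C]

end Const

/-! ### compatibilities of `β^*` with `ι`, `Fr` and the rational `x`-coordinate -/

section StarCompat

open Fermat.Agent.S05 (xc xc_zero xc_some xc_neg)

variable {W₀ κ}
variable [DecidableEq (KE W₀ κ)]

theorem xc_map {F F' : Type*} [Field F] [Algebra R F] [Algebra κ F] [IsScalarTower R κ F]
    [Field F'] [Algebra R F'] [Algebra κ F'] [IsScalarTower R κ F'] [DecidableEq F]
    [DecidableEq F'] (φ : F →ₐ[κ] F') (γ : (W₀⁄F).Point) :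
    xc (Point.map (W' := W₀) φ γ) = φ (xc γ) := by
  rcases γ with _ | ⟨x, y, h⟩
  · exact (map_zero _).symm
  · rfl

variable [(W₀⁄κ).IsElliptic]

/-- For `β ∈ G⁻`, `β^*` commutes with `ι`. -/
theorem iotaK_comp_star {β : GE W₀ κ} (hβm : β ∈ Gminus W₀ κ) (hβ : Transcendental κ (xc β)) :
    ((iotaK W₀ κ : KE W₀ κ ≃ₐ[κ] KE W₀ κ) : KE W₀ κ →ₐ[κ] KE W₀ κ).comp (star β hβ) =
      (star β hβ).comp ((iotaK W₀ κ : KE W₀ κ ≃ₐ[κ] KE W₀ κ) : KE W₀ κ →ₐ[κ] KE W₀ κ) := by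
  apply algHom_eq_of_map_e0_eq
  rw [← Point.map_map, ← Point.map_map, map_star_e0]
  change iotaG W₀ κ β = Point.map (W' := W₀) (star β hβ) (iotaG W₀ κ (e0 W₀ κ))
  rw [mem_Gminus_iff.mp hβm, mem_Gminus_iff.mp e0_mem_Gminus, map_neg, map_star_e0]

theorem iotaG_map_star {β : GE W₀ κ} (hβm : β ∈ Gminus W₀ κ) (hβ : Transcendental κ (xc β))
    (γ : GE W₀ κ) :
    iotaG W₀ κ (Point.map (W' := W₀) (star β hβ) γ) =
      Point.map (W' := W₀) (star β hβ) (iotaG W₀ κ γ) := by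
  change Point.map (W' := W₀) _ (Point.map (W' := W₀) (star β hβ) γ) =
    Point.map (W' := W₀) (star β hβ) (Point.map (W' := W₀) _ γ)
  rw [Point.map_map, Point.map_map, iotaK_comp_star hβm hβ]

/-- For `β ∈ G⁻`, `β^*` preserves `G⁻`. -/
theorem map_star_mem_Gminus {β : GE W₀ κ} (hβm : β ∈ Gminus W₀ κ)
    (hβ : Transcendental κ (xc β)) {γ : GE W₀ κ} (hγ : γ ∈ Gminus W₀ κ) :
    Point.map (W' := W₀) (star β hβ) γ ∈ Gminus W₀ κ := by
  rw [mem_Gminus_iff, iotaG_map_star hβm hβ, mem_Gminus_iff.mp hγ, map_neg]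

theorem transcendental_xr {β : GE W₀ κ} (hβm : β ∈ Gminus W₀ κ)
    (hβ : Transcendental κ (xc β)) : Transcendental κ (xr W₀ κ β) := by
  rintro ⟨p, hp0, hp⟩
  refine hβ ⟨p, hp0, ?_⟩
  rw [← ratToK_xr hβm, aeval_algHom_apply, hp, map_zero]

/-- **The rational `x`-coordinate of `β^* γ` is the composite `x(γ) ∘ x(β)`**
(`β, γ ∈ G⁻`, `β` nonconstant). -/
theorem xr_map_star {β : GE W₀ κ} (hβm : β ∈ Gminus W₀ κ) (hβ : Transcendental κ (xc β))
    {γ : GE W₀ κ} (hγ : γ ∈ Gminus W₀ κ) :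
    xr W₀ κ (Point.map (W' := W₀) (star β hβ) γ) =
      ratEval (xr W₀ κ β) (transcendental_xr hβm hβ) (xr W₀ κ γ) := by
  rw [xr_eq_iff (map_star_mem_Gminus hβm hβ hγ), xc_map, ← ratToK_xr hγ, star_ratToK]
  have h : (ratToK W₀ κ).comp (ratEval (xr W₀ κ β) (transcendental_xr hβm hβ)) =
      ratEval (xc β) hβ :=
    ratFunc_algHom_ext (by simp [ratToK_xr hβm])
  exact AlgHom.congr_fun h _

end StarCompat

/-! ### Frobenius on constant points -/

section FrConst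

variable {W₀ κ}
variable (ℓ : ℕ) [Fact ℓ.Prime] [CharP κ ℓ]
  (hR : ∀ r : R, algebraMap R κ r ^ ℓ = algebraMap R κ r)
variable [DecidableEq κ] [DecidableEq (KE W₀ κ)]

variable (W₀ κ) in
/-- Frobenius `φ` on `E(κ)`. -/
def frPt : (W₀⁄κ).Point →+ (W₀⁄κ).Point := Point.map (W' := W₀) (frobAlg ℓ hR κ)

theorem frPt_some {a b : κ} (h : (W₀⁄κ).Nonsingular a b) :
    frPt W₀ κ ℓ hR (Point.some a b h) = Point.some (a ^ ℓ) (b ^ ℓ)
      ((Affine.baseChange_nonsingular W₀ (f := frobAlg ℓ hR κ)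
        (frobAlg ℓ hR κ).injective ..).mpr h) := rfl

/-- On constant points, `Fr` is the Frobenius `φ` of `E(κ)`. -/
theorem Fr_constPt (P : (W₀⁄κ).Point) :
    Fr W₀ κ ℓ hR (constPt W₀ κ P) = constPt W₀ κ (frPt W₀ κ ℓ hR P) := by
  rcases P with _ | ⟨a, b, h⟩
  · rfl
  · change Point.some (algebraMap κ (KE W₀ κ) a ^ ℓ) (algebraMap κ (KE W₀ κ) b ^ ℓ) _ =
      Point.some (algebraMap κ (KE W₀ κ) (a ^ ℓ)) (algebraMap κ (KE W₀ κ) (b ^ ℓ)) _
    exact some_congr (map_pow _ _ _).symm (map_pow _ _ _).symm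

end FrConst

end Fermat.Agent.S58.EC.FunctionFieldK
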