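/-
S58 / EC-Frob, block EC-H (helper10): heights (degrees) of rational functions, in the form needed
for the quadratic-form argument on `E(κ(E))`.

`L` is any field containing `κ[X]` (e.g. `κ(X)` or the function field of a curve).  An element
`F : L` of the fraction field of `κ[X]` has a reduced representation `F = p / q`
(`IsRep F p q`), and `ht κ F = max (deg p) (deg q)`.

Main results (Mathlib only):
* `IsRep.natDegree_eq`, `ht_eq`: well-definedness;
* `ht_add_ht_of_sum_prod` (Gauss' lemma for two linear factors): if `u + w = B / A`,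
  `u w = C / A` with `(A, B, C)` generating the unit ideal, then
  `ht u + ht w = max (deg A) (deg B) (deg C)`;
* `hEval`, `isRep_hEval`, `ht_of_aeval`: `ht (P(G) / Q(G)) = max (deg P) (deg Q) * ht G`;
* `IsRep.pow`, `ht_pow`.
-/
import Mathlib

set_option autoImplicit false
set_option linter.unusedSectionVars false

namespace Fermat.Agent.S58.EC.HtRep

open Polynomial

variable {κ : Type*} [Field κ] {L : Type*} [Field L] [Algebra κ[X] L] [FaithfulSMul κ[X] L]

theorem ι_injective : Function.Injective (algebraMap κ[X] L) :=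
  FaithfulSMul.algebraMap_injective κ[X] L

theorem ι_ne_zero {q : κ[X]} (hq : q ≠ 0) : (algebraMap κ[X] L) q ≠ 0 := by
  intro h
  exact hq (ι_injective (L := L) (by rw [h, map_zero]))

/-- `(p, q)` is a reduced fraction representing `F`. -/
structure IsRep (F : L) (p q : κ[X]) : Prop where
  coprime : IsCoprime p q
  ne_zero : q ≠ 0
  eq : F * (algebraMap κ[X] L) q = (algebraMap κ[X] L) p

variable (κ) in
/-- `F` lies in the fraction field of `κ[X]`. -/
def IsRat (F : L) : Prop :=
  ∃ p q : κ[X], q ≠ 0 ∧ F * (algebraMap κ[X] L) q = (algebraMap κ[X] L) p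

omit [FaithfulSMul κ[X] L] in
theorem IsRep.isRat {F : L} {p q : κ[X]} (h : IsRep F p q) : IsRat κ F :=
  ⟨p, q, h.ne_zero, h.eq⟩

theorem IsRep.eq_div {F : L} {p q : κ[X]} (h : IsRep F p q) :
    F = (algebraMap κ[X] L) p / (algebraMap κ[X] L) q := by
  rw [eq_div_iff (ι_ne_zero h.ne_zero), h.eq]

/-- Every element of the fraction field has a reduced representation. -/
theorem IsRat.exists_isRep {F : L} (h : IsRat κ F) : ∃ p q : κ[X], IsRep F p q := by
  classical
  obtain ⟨p, q, hq, he⟩ := h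
  set g := EuclideanDomain.gcd p q with hg
  have hg0 : g ≠ 0 := fun h0 => hq (EuclideanDomain.gcd_eq_zero_iff.mp h0).2
  obtain ⟨p', hp'⟩ := EuclideanDomain.gcd_dvd_left p q
  obtain ⟨q', hq'⟩ := EuclideanDomain.gcd_dvd_right p q
  rw [← hg] at hp' hq'
  refine ⟨p', q', ⟨?_, ?_, ?_⟩⟩
  · refine ⟨EuclideanDomain.gcdA p q, EuclideanDomain.gcdB p q, ?_⟩
    have h1 := EuclideanDomain.gcd_eq_gcd_ab p q
    rw [← hg] at h1
    apply mul_left_cancel₀ hg0
    calc g * (EuclideanDomain.gcdA p q * p' + EuclideanDomain.gcdB p q * q')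
        = (g * p') * EuclideanDomain.gcdA p q + (g * q') * EuclideanDomain.gcdB p q := by ring
      _ = g * 1 := by rw [← hp', ← hq', ← h1, mul_one]
  · rintro rfl
    exact hq (by rw [hq', mul_zero])
  · have hι : (algebraMap κ[X] L) g ≠ 0 := ι_ne_zero hg0
    apply mul_left_cancel₀ hι
    calc (algebraMap κ[X] L) g * (F * (algebraMap κ[X] L) q')
        = F * (algebraMap κ[X] L) (g * q') := by rw [map_mul]; ring
      _ = (algebraMap κ[X] L) (g * p') := by rw [← hq', ← hp', he]
      _ = (algebraMap κ[X] L) g * (algebraMap κ[X] L) p' := by rw [map_mul]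

/-- Cross-multiplication for two representations of the same element. -/
theorem IsRep.cross {F : L} {p q p' q' : κ[X]} (h : IsRep F p q) (h' : IsRep F p' q') :
    p * q' = p' * q := by
  apply ι_injective (L := L)
  rw [map_mul, map_mul, ← h.eq, ← h'.eq]
  ring

theorem IsRep.associated_num {F : L} {p q p' q' : κ[X]} (h : IsRep F p q) (h' : IsRep F p' q') :
    Associated p p' := by
  have hc := h.cross h'
  apply associated_of_dvd_dvd
  · exact h.coprime.dvd_of_dvd_mul_right ⟨q', hc.symm⟩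
  · exact h'.coprime.dvd_of_dvd_mul_right ⟨q, hc⟩

theorem IsRep.associated_den {F : L} {p q p' q' : κ[X]} (h : IsRep F p q) (h' : IsRep F p' q') :
    Associated q q' := by
  have hc := h.cross h'
  apply associated_of_dvd_dvd
  · exact h.coprime.symm.dvd_of_dvd_mul_left ⟨p', by rw [hc]; ring⟩
  · exact h'.coprime.symm.dvd_of_dvd_mul_left ⟨p, by rw [← hc]; ring⟩


theorem IsRep.natDegree_num_eq {F : L} {p q p' q' : κ[X]} (h : IsRep F p q)
    (h' : IsRep F p' q') : p.natDegree = p'.natDegree :=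
  natDegree_eq_of_degree_eq (degree_eq_degree_of_associated (h.associated_num h'))

theorem IsRep.natDegree_den_eq {F : L} {p q p' q' : κ[X]} (h : IsRep F p q)
    (h' : IsRep F p' q') : q.natDegree = q'.natDegree :=
  natDegree_eq_of_degree_eq (degree_eq_degree_of_associated (h.associated_den h'))

variable (κ) in
open Classical in
/-- The height (degree) of an element of the fraction field of `κ[X]` inside `L`;
junk value `0` outside the fraction field. -/
noncomputable def ht (F : L) : ℕ :=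
  if h : ∃ p q : κ[X], IsRep F p q then
    max h.choose.natDegree h.choose_spec.choose.natDegree
  else 0

theorem ht_eq {F : L} {p q : κ[X]} (h : IsRep F p q) :
    ht κ F = max p.natDegree q.natDegree := by
  have hex : ∃ p q : κ[X], IsRep F p q := ⟨p, q, h⟩
  rw [ht, dif_pos hex]
  have h' := hex.choose_spec.choose_spec
  rw [h'.natDegree_num_eq h, h'.natDegree_den_eq h]

omit [FaithfulSMul κ[X] L] in
/-- Representation of an element of `κ[X]`. -/
theorem isRep_algebraMap (p : κ[X]) : IsRep ((algebraMap κ[X] L) p) p 1 :=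
  ⟨isCoprime_one_right, one_ne_zero, by rw [map_one, mul_one]⟩

theorem ht_algebraMap (p : κ[X]) : ht κ ((algebraMap κ[X] L) p) = p.natDegree := by
  rw [ht_eq (isRep_algebraMap p), natDegree_one, max_eq_left (Nat.zero_le _)]

/-- A coprime pair has a nonzero coefficient in the top degree. -/
theorem coeff_max_ne_zero {p q : κ[X]} (h : IsCoprime p q) :
    p.coeff (max p.natDegree q.natDegree) ≠ 0 ∨ q.coeff (max p.natDegree q.natDegree) ≠ 0 := by
  rcases le_total q.natDegree p.natDegree with hle | hle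
  · rw [max_eq_left hle]
    by_cases hp : p = 0
    · right
      subst hp
      have hq : IsUnit q := isCoprime_zero_left.mp h
      rw [natDegree_zero] at hle ⊢
      have hq0 : q ≠ 0 := hq.ne_zero
      have : q.natDegree = 0 := Nat.le_zero.mp hle
      rw [← this, coeff_natDegree]
      exact leadingCoeff_ne_zero.mpr hq0
    · left
      rw [coeff_natDegree]
      exact leadingCoeff_ne_zero.mpr hp
  · rw [max_eq_right hle]
    by_cases hq : q = 0
    · left
      subst hq
      have hp : IsUnit p := isCoprime_zero_right.mp h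
      rw [natDegree_zero] at hle ⊢
      have : p.natDegree = 0 := Nat.le_zero.mp hle
      rw [← this, coeff_natDegree]
      exact leadingCoeff_ne_zero.mpr hp.ne_zero
    · right
      rw [coeff_natDegree]
      exact leadingCoeff_ne_zero.mpr hq

/-- **Gauss' lemma for two linear factors.**  If `u + w = B / A` and `u w = C / A` with
`(A, B, C)` generating the unit ideal, then `ht u + ht w = max (deg A) (deg B) (deg C)`. -/
theorem maxDeg_add_maxDeg_of_sum_prod {u w : L} {u₁ u₂ w₁ w₂ A B C : κ[X]}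
    (hu : IsRep u u₁ u₂) (hw : IsRep w w₁ w₂) (hA : A ≠ 0)
    (hABC : ∃ r s t : κ[X], r * A + s * B + t * C = 1)
    (hsum : (u + w) * (algebraMap κ[X] L) A = (algebraMap κ[X] L) B)
    (hprod : u * w * (algebraMap κ[X] L) A = (algebraMap κ[X] L) C) :
    max u₁.natDegree u₂.natDegree + max w₁.natDegree w₂.natDegree =
      max (max A.natDegree B.natDegree) C.natDegree := by
  set m := max u₁.natDegree u₂.natDegree with hm
  set n := max w₁.natDegree w₂.natDegree with hn
  set A' := u₂ * w₂ with hA'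
  set B' := u₁ * w₂ + u₂ * w₁ with hB'
  set C' := u₁ * w₁ with hC'
  have hu₂ := ι_ne_zero (L := L) hu.ne_zero
  have hw₂ := ι_ne_zero (L := L) hw.ne_zero
  have hιA := ι_ne_zero (L := L) hA
  -- (1) the same relations for the primed triple
  have hsum' : (u + w) * (algebraMap κ[X] L) A' = (algebraMap κ[X] L) B' := by
    rw [hA', hB', map_add, map_mul, map_mul, map_mul, ← hu.eq, ← hw.eq]
    ring
  have hprod' : u * w * (algebraMap κ[X] L) A' = (algebraMap κ[X] L) C' := by
    rw [hA', hC', map_mul, map_mul, ← hu.eq, ← hw.eq]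
    ring
  -- (2) proportionality
  have hAB : A' * B = B' * A := by
    apply ι_injective (L := L)
    calc (algebraMap κ[X] L) (A' * B)
        = (algebraMap κ[X] L) A' * (algebraMap κ[X] L) B := map_mul _ _ _
      _ = ((u + w) * (algebraMap κ[X] L) A') * (algebraMap κ[X] L) A := by rw [← hsum]; ring
      _ = (algebraMap κ[X] L) B' * (algebraMap κ[X] L) A := by rw [hsum']
      _ = (algebraMap κ[X] L) (B' * A) := (map_mul _ _ _).symm
  have hAC : A' * C = C' * A := by
    apply ι_injective (L := L)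
    calc (algebraMap κ[X] L) (A' * C)
        = (algebraMap κ[X] L) A' * (algebraMap κ[X] L) C := map_mul _ _ _
      _ = (u * w * (algebraMap κ[X] L) A') * (algebraMap κ[X] L) A := by rw [← hprod]; ring
      _ = (algebraMap κ[X] L) C' * (algebraMap κ[X] L) A := by rw [hprod']
      _ = (algebraMap κ[X] L) (C' * A) := (map_mul _ _ _).symm
  -- (3) Bezout for the primed triple
  have hABC' : ∃ r s t : κ[X], r * A' + s * B' + t * C' = 1 := by
    obtain ⟨a2, b2, h1⟩ := (hu.coprime.pow (m := 2) (n := 2))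
    obtain ⟨c2, d2, h2⟩ := (hw.coprime.pow (m := 2) (n := 2))
    refine ⟨b2 * d2 * A' - a2 * d2 * C' - b2 * c2 * C', a2 * d2 * u₁ * w₂ + b2 * c2 * u₂ * w₁,
      a2 * c2 * C', ?_⟩
    rw [hA', hB', hC']
    linear_combination (c2 * w₁ ^ 2 + d2 * w₂ ^ 2) * h1 + h2
  have hA'0 : A' ≠ 0 := mul_ne_zero hu.ne_zero hw.ne_zero
  -- (4) the triples are associated
  obtain ⟨r, s, t, hrst⟩ := hABC
  obtain ⟨r', s', t', hrst'⟩ := hABC'
  have hdvd1 : A ∣ A' := ⟨r * A' + s * B' + t * C', by linear_combination (-A') * hrst + s * hAB + t * hAC⟩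
  have hdvd2 : A' ∣ A := ⟨r' * A + s' * B + t' * C, by linear_combination (-A) * hrst' - s' * hAB - t' * hAC⟩
  obtain ⟨v, hv⟩ := associated_of_dvd_dvd hdvd1 hdvd2
  have hB : Associated B B' := ⟨v, by
    apply mul_left_cancel₀ hA
    linear_combination B * hv + hAB⟩
  have hC : Associated C C' := ⟨v, by
    apply mul_left_cancel₀ hA
    linear_combination C * hv + hAC⟩
  have dA : A.natDegree = A'.natDegree :=
    natDegree_eq_of_degree_eq (degree_eq_degree_of_associated ⟨v, hv⟩)
  have dB : B.natDegree = B'.natDegree :=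
    natDegree_eq_of_degree_eq (degree_eq_degree_of_associated hB)
  have dC : C.natDegree = C'.natDegree :=
    natDegree_eq_of_degree_eq (degree_eq_degree_of_associated hC)
  rw [dA, dB, dC]
  -- (5) degrees of the primed triple
  have hu₁m : u₁.natDegree ≤ m := le_max_left _ _
  have hu₂m : u₂.natDegree ≤ m := le_max_right _ _
  have hw₁n : w₁.natDegree ≤ n := le_max_left _ _
  have hw₂n : w₂.natDegree ≤ n := le_max_right _ _
  have leA : A'.natDegree ≤ m + n := natDegree_mul_le_of_le hu₂m hw₂n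
  have leB : B'.natDegree ≤ m + n :=
    (natDegree_add_le _ _).trans (max_le (natDegree_mul_le_of_le hu₁m hw₂n)
      (natDegree_mul_le_of_le hu₂m hw₁n))
  have leC : C'.natDegree ≤ m + n := natDegree_mul_le_of_le hu₁m hw₁n
  have cA : A'.coeff (m + n) = u₂.coeff m * w₂.coeff n :=
    coeff_mul_add_eq_of_natDegree_le hu₂m hw₂n
  have cB : B'.coeff (m + n) = u₁.coeff m * w₂.coeff n + u₂.coeff m * w₁.coeff n := by
    rw [hB', coeff_add, coeff_mul_add_eq_of_natDegree_le hu₁m hw₂n,
      coeff_mul_add_eq_of_natDegree_le hu₂m hw₁n]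
  have cC : C'.coeff (m + n) = u₁.coeff m * w₁.coeff n :=
    coeff_mul_add_eq_of_natDegree_le hu₁m hw₁n
  apply le_antisymm
  · -- some top coefficient is nonzero
    by_contra hlt
    push Not at hlt
    have hA'lt : A'.natDegree < m + n := lt_of_le_of_lt ((le_max_left _ _).trans (le_max_left _ _)) hlt
    have hB'lt : B'.natDegree < m + n := lt_of_le_of_lt ((le_max_right _ _).trans (le_max_left _ _)) hlt
    have hC'lt : C'.natDegree < m + n := lt_of_le_of_lt (le_max_right _ _) hlt
    have zA := coeff_eq_zero_of_natDegree_lt hA'lt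
    have zB := coeff_eq_zero_of_natDegree_lt hB'lt
    have zC := coeff_eq_zero_of_natDegree_lt hC'lt
    rw [cA] at zA
    rw [cB] at zB
    rw [cC] at zC
    rcases coeff_max_ne_zero hu.coprime with h1 | h1 <;>
    rcases coeff_max_ne_zero hw.coprime with h2 | h2
    · exact mul_ne_zero h1 h2 zC
    · -- u₁ m ≠ 0, w₂ n ≠ 0
      rcases mul_eq_zero.mp zA with h3 | h3
      · rw [h3, zero_mul, add_zero] at zB
        exact mul_ne_zero h1 h2 zB
      · exact h2 h3
    · rcases mul_eq_zero.mp zA with h3 | h3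
      · exact h1 h3
      · rw [h3, mul_zero, zero_add] at zB
        exact mul_ne_zero h1 h2 zB
    · exact mul_ne_zero h1 h2 zA
  · exact max_le (max_le leA leB) leC

theorem ht_add_ht_of_sum_prod {u w : L} {A B C : κ[X]}
    (hu : IsRat κ u) (hw : IsRat κ w) (hA : A ≠ 0)
    (hABC : ∃ r s t : κ[X], r * A + s * B + t * C = 1)
    (hsum : (u + w) * (algebraMap κ[X] L) A = (algebraMap κ[X] L) B)
    (hprod : u * w * (algebraMap κ[X] L) A = (algebraMap κ[X] L) C) :
    ht κ u + ht κ w = max (max A.natDegree B.natDegree) C.natDegree := by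
  obtain ⟨u₁, u₂, hu'⟩ := hu.exists_isRep
  obtain ⟨w₁, w₂, hw'⟩ := hw.exists_isRep
  rw [ht_eq hu', ht_eq hw']
  exact maxDeg_add_maxDeg_of_sum_prod hu' hw' hA hABC hsum hprod


/-! ### Homogeneous evaluation and composition -/

section HEval

variable {R : Type*} [CommRing R] [Algebra κ R]

/-- Homogeneous evaluation `∑ᵢ Pᵢ aⁱ b^(d-i)` of a polynomial of degree `≤ d`. -/
def hEval (P : κ[X]) (d : ℕ) (a b : R) : R :=
  ∑ i ∈ Finset.range (d + 1), algebraMap κ R (P.coeff i) * a ^ i * b ^ (d - i)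

theorem hEval_map {S : Type*} [CommRing S] [Algebra κ S] (f : R →ₐ[κ] S) (P : κ[X]) (d : ℕ)
    (a b : R) : f (hEval P d a b) = hEval P d (f a) (f b) := by
  simp only [hEval, map_sum, map_mul, map_pow, AlgHom.commutes]

theorem hEval_zero_right (P : κ[X]) (d : ℕ) (a : R) :
    hEval P d a 0 = algebraMap κ R (P.coeff d) * a ^ d := by
  rw [hEval, Finset.sum_range_succ, Nat.sub_self, pow_zero, mul_one, Finset.sum_eq_zero, zero_add]
  intro i hi
  have hid : d - i ≠ 0 := Nat.sub_ne_zero_of_lt (Finset.mem_range.mp hi)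
  rw [zero_pow hid, mul_zero]

theorem hEval_eq_pow_mul_aeval {k : Type*} [Field k] [Algebra κ k] (P : κ[X]) {d : ℕ}
    (hd : P.natDegree ≤ d) (a : k) {b : k} (hb : b ≠ 0) :
    hEval P d a b = b ^ d * aeval (a / b) P := by
  rw [aeval_eq_sum_range' (Nat.lt_succ_of_le hd), Finset.mul_sum, hEval]
  apply Finset.sum_congr rfl
  intro i hi
  have hi' : i ≤ d := Nat.lt_succ_iff.mp (Finset.mem_range.mp hi)
  have e : b ^ d = b ^ (d - i) * b ^ i := by rw [← pow_add, Nat.sub_add_cancel hi']
  rw [Algebra.smul_def, div_pow, e]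
  field_simp

/-- A coprime pair of polynomials has no common homogeneous zero. -/
theorem not_hEval_eq_zero_and {k : Type*} [Field k] [Algebra κ k] {P Q : κ[X]}
    (hPQ : IsCoprime P Q) {a b : k} (hab : ¬ (a = 0 ∧ b = 0)) :
    ¬ (hEval P (max P.natDegree Q.natDegree) a b = 0 ∧
      hEval Q (max P.natDegree Q.natDegree) a b = 0) := by
  rintro ⟨h1, h2⟩
  set d := max P.natDegree Q.natDegree with hd
  by_cases hb : b = 0
  · subst hb
    have ha : a ≠ 0 := fun h => hab ⟨h, rfl⟩
    rw [hEval_zero_right] at h1 h2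
    have hinj := (algebraMap κ k).injective
    have c1 : P.coeff d = 0 := by
      rcases mul_eq_zero.mp h1 with h | h
      · exact hinj (by rw [h, map_zero])
      · exact absurd (pow_eq_zero_iff'.mp h).1 ha
    have c2 : Q.coeff d = 0 := by
      rcases mul_eq_zero.mp h2 with h | h
      · exact hinj (by rw [h, map_zero])
      · exact absurd (pow_eq_zero_iff'.mp h).1 ha
    rcases coeff_max_ne_zero hPQ with h | h
    · exact h c1
    · exact h c2
  · rw [hEval_eq_pow_mul_aeval P (le_max_left _ _) a hb] at h1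
    rw [hEval_eq_pow_mul_aeval Q (le_max_right _ _) a hb] at h2
    have hbd : b ^ d ≠ 0 := pow_ne_zero _ hb
    have e1 : aeval (a / b) P = 0 := (mul_eq_zero.mp h1).resolve_left hbd
    have e2 : aeval (a / b) Q = 0 := (mul_eq_zero.mp h2).resolve_left hbd
    obtain ⟨u, v, huv⟩ := hPQ
    have := congrArg (aeval (a / b)) huv
    rw [map_add, map_mul, map_mul, e1, e2, mul_zero, mul_zero, add_zero, map_one] at this
    exact zero_ne_one this

end HEval

section HEvalPoly

theorem natDegree_hEval_le (P : κ[X]) (d : ℕ) {a b : κ[X]} {e : ℕ} (ha : a.natDegree ≤ e)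
    (hb : b.natDegree ≤ e) : (hEval P d a b).natDegree ≤ d * e := by
  rw [hEval]
  apply natDegree_sum_le_of_forall_le
  intro i hi
  have hi' : i ≤ d := Nat.lt_succ_iff.mp (Finset.mem_range.mp hi)
  have h1 : (a ^ i).natDegree ≤ i * e := natDegree_pow_le_of_le i ha
  have h2 : (b ^ (d - i)).natDegree ≤ (d - i) * e := natDegree_pow_le_of_le (d - i) hb
  have h3 : ((algebraMap κ κ[X]) (P.coeff i)).natDegree ≤ 0 := by
    rw [algebraMap_eq]; exact natDegree_C _ |>.le
  calc ((algebraMap κ κ[X]) (P.coeff i) * a ^ i * b ^ (d - i)).natDegree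
      ≤ (0 + i * e) + (d - i) * e := natDegree_mul_le_of_le (natDegree_mul_le_of_le h3 h1) h2
    _ = d * e := by rw [zero_add, ← Nat.add_mul, Nat.add_sub_cancel' hi']

theorem coeff_hEval (P : κ[X]) (d : ℕ) {a b : κ[X]} {e : ℕ} (ha : a.natDegree ≤ e)
    (hb : b.natDegree ≤ e) :
    (hEval P d a b).coeff (d * e) = hEval P d (a.coeff e) (b.coeff e) := by
  rw [hEval, hEval, finsetSum_coeff]
  apply Finset.sum_congr rfl
  intro i hi
  have hi' : i ≤ d := Nat.lt_succ_iff.mp (Finset.mem_range.mp hi)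
  have h1 : (a ^ i).natDegree ≤ i * e := natDegree_pow_le_of_le i ha
  have h2 : (b ^ (d - i)).natDegree ≤ (d - i) * e := natDegree_pow_le_of_le (d - i) hb
  have hde : d * e = i * e + (d - i) * e := by rw [← Nat.add_mul, Nat.add_sub_cancel' hi']
  rw [algebraMap_eq, mul_assoc, coeff_C_mul, hde, coeff_mul_add_eq_of_natDegree_le h1 h2,
    coeff_pow_of_natDegree_le ha, coeff_pow_of_natDegree_le hb, Algebra.algebraMap_self,
    RingHom.id_apply, mul_assoc]

/-- Homogeneous evaluation of a coprime pair at a coprime pair is a coprime pair. -/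
theorem isCoprime_hEval {P Q g₁ g₂ : κ[X]} (hPQ : IsCoprime P Q) (hg : IsCoprime g₁ g₂) :
    IsCoprime (hEval P (max P.natDegree Q.natDegree) g₁ g₂)
      (hEval Q (max P.natDegree Q.natDegree) g₁ g₂) := by
  set d := max P.natDegree Q.natDegree with hd
  have key : ∀ π : κ[X], Irreducible π → π ∣ hEval P d g₁ g₂ → ¬ π ∣ hEval Q d g₁ g₂ := by
    intro π hπ h1 h2
    have : Fact (Irreducible π) := ⟨hπ⟩
    have e1 : AdjoinRoot.mk π (hEval P d g₁ g₂) = 0 := AdjoinRoot.mk_eq_zero.mpr h1
    have e2 : AdjoinRoot.mk π (hEval Q d g₁ g₂) = 0 := AdjoinRoot.mk_eq_zero.mpr h2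
    have m1 := hEval_map (AdjoinRoot.mkₐ π) P d g₁ g₂
    have m2 := hEval_map (AdjoinRoot.mkₐ π) Q d g₁ g₂
    rw [AdjoinRoot.coe_mkₐ] at m1 m2
    rw [e1] at m1
    rw [e2] at m2
    refine not_hEval_eq_zero_and (k := AdjoinRoot π) hPQ (a := AdjoinRoot.mk π g₁)
      (b := AdjoinRoot.mk π g₂) ?_ ⟨m1.symm, m2.symm⟩
    rintro ⟨z1, z2⟩
    obtain ⟨u, v, huv⟩ := hg
    have := congrArg (AdjoinRoot.mk π) huv
    rw [map_add, map_mul, map_mul, z1, z2, mul_zero, mul_zero, add_zero, map_one] at this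
    exact zero_ne_one this
  refine isCoprime_of_irreducible_dvd ?_ key
  -- not both zero: look at the top coefficient
  rintro ⟨z1, z2⟩
  set e := max g₁.natDegree g₂.natDegree with he
  have c1 := coeff_hEval P d (le_max_left g₁.natDegree g₂.natDegree)
    (le_max_right g₁.natDegree g₂.natDegree)
  have c2 := coeff_hEval Q d (le_max_left g₁.natDegree g₂.natDegree)
    (le_max_right g₁.natDegree g₂.natDegree)
  rw [z1, coeff_zero] at c1
  rw [z2, coeff_zero] at c2
  refine not_hEval_eq_zero_and (k := κ) hPQ (a := g₁.coeff e) (b := g₂.coeff e) ?_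
    ⟨c1.symm, c2.symm⟩
  rintro ⟨y1, y2⟩
  rcases coeff_max_ne_zero hg with h | h
  · exact h y1
  · exact h y2

/-- The degree of the homogeneous evaluation of a coprime pair at a coprime pair. -/
theorem maxDeg_hEval {P Q g₁ g₂ : κ[X]} (hPQ : IsCoprime P Q) (hg : IsCoprime g₁ g₂) :
    max (hEval P (max P.natDegree Q.natDegree) g₁ g₂).natDegree
      (hEval Q (max P.natDegree Q.natDegree) g₁ g₂).natDegree =
      max P.natDegree Q.natDegree * max g₁.natDegree g₂.natDegree := by
  set d := max P.natDegree Q.natDegree with hd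
  set e := max g₁.natDegree g₂.natDegree with he
  have l1 := natDegree_hEval_le P d (le_max_left g₁.natDegree g₂.natDegree)
    (le_max_right g₁.natDegree g₂.natDegree)
  have l2 := natDegree_hEval_le Q d (le_max_left g₁.natDegree g₂.natDegree)
    (le_max_right g₁.natDegree g₂.natDegree)
  have c1 := coeff_hEval P d (le_max_left g₁.natDegree g₂.natDegree)
    (le_max_right g₁.natDegree g₂.natDegree)
  have c2 := coeff_hEval Q d (le_max_left g₁.natDegree g₂.natDegree)
    (le_max_right g₁.natDegree g₂.natDegree)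
  apply le_antisymm (max_le l1 l2)
  by_contra hlt
  push Not at hlt
  have z1 := coeff_eq_zero_of_natDegree_lt (lt_of_le_of_lt (le_max_left _ _) hlt)
  have z2 := coeff_eq_zero_of_natDegree_lt (lt_of_le_of_lt (le_max_right _ _) hlt)
  rw [c1] at z1
  rw [c2] at z2
  refine not_hEval_eq_zero_and (k := κ) hPQ (a := g₁.coeff e) (b := g₂.coeff e) ?_ ⟨z1, z2⟩
  rintro ⟨y1, y2⟩
  rcases coeff_max_ne_zero hg with h | h
  · exact h y1
  · exact h y2

end HEvalPoly


section Compose

variable [Algebra κ L] [IsScalarTower κ κ[X] L]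

/-- **Composition.**  If `H = P(G) / Q(G)` with `P, Q` coprime and `G = g₁ / g₂` reduced, then
the homogeneous evaluations give a reduced representation of `H`. -/
theorem isRep_of_aeval {G H : L} {g₁ g₂ P Q : κ[X]} (hG : IsRep G g₁ g₂) (hPQ : IsCoprime P Q)
    (hQG : aeval G Q ≠ 0) (hH : H * aeval G Q = aeval G P) :
    IsRep H (hEval P (max P.natDegree Q.natDegree) g₁ g₂)
      (hEval Q (max P.natDegree Q.natDegree) g₁ g₂) := by
  set d := max P.natDegree Q.natDegree with hd
  have hg₂ : (algebraMap κ[X] L) g₂ ≠ 0 := ι_ne_zero hG.ne_zero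
  have hGdiv := hG.eq_div
  have key : ∀ R : κ[X], R.natDegree ≤ d →
      (algebraMap κ[X] L) (hEval R d g₁ g₂) = (algebraMap κ[X] L) g₂ ^ d * aeval G R := by
    intro R hR
    have := hEval_map (IsScalarTower.toAlgHom κ κ[X] L) R d g₁ g₂
    rw [IsScalarTower.coe_toAlgHom'] at this
    rw [this, hEval_eq_pow_mul_aeval R hR _ hg₂, ← hGdiv]
  have kP := key P (le_max_left _ _)
  have kQ := key Q (le_max_right _ _)
  refine ⟨isCoprime_hEval hPQ hG.coprime, ?_, ?_⟩
  · intro h0
    rw [h0, map_zero] at kQ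
    exact mul_ne_zero (pow_ne_zero _ hg₂) hQG kQ.symm
  · rw [kP, kQ, ← hH]
    ring

theorem ht_of_aeval {G H : L} {P Q : κ[X]} (hG : IsRat κ G) (hPQ : IsCoprime P Q)
    (hQG : aeval G Q ≠ 0) (hH : H * aeval G Q = aeval G P) :
    ht κ H = max P.natDegree Q.natDegree * ht κ G := by
  obtain ⟨g₁, g₂, hG'⟩ := hG.exists_isRep
  rw [ht_eq (isRep_of_aeval hG' hPQ hQG hH), ht_eq hG', maxDeg_hEval hPQ hG'.coprime]

theorem isRat_of_aeval {G H : L} {P Q : κ[X]} (hG : IsRat κ G) (hPQ : IsCoprime P Q)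
    (hQG : aeval G Q ≠ 0) (hH : H * aeval G Q = aeval G P) : IsRat κ H := by
  obtain ⟨g₁, g₂, hG'⟩ := hG.exists_isRep
  exact (isRep_of_aeval hG' hPQ hQG hH).isRat

end Compose

/-! ### Powers -/

theorem IsRep.pow {F : L} {p q : κ[X]} (h : IsRep F p q) (n : ℕ) : IsRep (F ^ n) (p ^ n) (q ^ n) :=
  ⟨h.coprime.pow, pow_ne_zero _ h.ne_zero, by rw [map_pow, map_pow, ← mul_pow, h.eq]⟩

theorem ht_pow {F : L} (h : IsRat κ F) (n : ℕ) : ht κ (F ^ n) = n * ht κ F := by
  obtain ⟨p, q, hF⟩ := h.exists_isRep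
  rw [ht_eq (hF.pow n), ht_eq hF, natDegree_pow, natDegree_pow, ← Nat.mul_max_mul_left]

theorem IsRat.pow {F : L} (h : IsRat κ F) (n : ℕ) : IsRat κ (F ^ n) := by
  obtain ⟨p, q, hF⟩ := h.exists_isRep
  exact (hF.pow n).isRat

/-! ### Constants and closure properties -/

theorem ht_eq_zero_iff {F : L} (h : IsRat κ F) :
    ht κ F = 0 ↔ ∃ c : κ, F = (algebraMap κ[X] L) (C c) := by
  obtain ⟨p, q, hF⟩ := h.exists_isRep
  rw [ht_eq hF]
  constructor
  · intro h0
    have hp : p.natDegree = 0 := Nat.le_zero.mp (h0 ▸ le_max_left _ _)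
    have hq : q.natDegree = 0 := Nat.le_zero.mp (h0 ▸ le_max_right _ _)
    obtain ⟨a, rfl⟩ := natDegree_eq_zero.mp hp
    obtain ⟨b, rfl⟩ := natDegree_eq_zero.mp hq
    have hb : b ≠ 0 := fun hb => hF.ne_zero (by rw [hb, map_zero])
    refine ⟨a / b, ?_⟩
    have e := hF.eq
    have hιb : (algebraMap κ[X] L) (C b) ≠ 0 := ι_ne_zero hF.ne_zero
    apply mul_right_cancel₀ hιb
    rw [e, ← map_mul, ← C_mul, div_mul_cancel₀ a hb]
  · rintro ⟨c, hc⟩
    have h2 : IsRep F (C c) 1 := hc ▸ isRep_algebraMap (C c)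
    rw [hF.natDegree_num_eq h2, hF.natDegree_den_eq h2, natDegree_C, natDegree_one, max_self]

theorem IsRat.add {F G : L} (hF : IsRat κ F) (hG : IsRat κ G) : IsRat κ (F + G) := by
  obtain ⟨p, q, hq, e⟩ := hF
  obtain ⟨p', q', hq', e'⟩ := hG
  refine ⟨p * q' + p' * q, q * q', mul_ne_zero hq hq', ?_⟩
  rw [map_add, map_mul, map_mul, map_mul, ← e, ← e']
  ring

theorem IsRat.mul {F G : L} (hF : IsRat κ F) (hG : IsRat κ G) : IsRat κ (F * G) := by
  obtain ⟨p, q, hq, e⟩ := hF
  obtain ⟨p', q', hq', e'⟩ := hG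
  refine ⟨p * p', q * q', mul_ne_zero hq hq', ?_⟩
  rw [map_mul, map_mul, ← e, ← e']
  ring

theorem IsRat.neg {F : L} (hF : IsRat κ F) : IsRat κ (-F) := by
  obtain ⟨p, q, hq, e⟩ := hF
  exact ⟨-p, q, hq, by rw [map_neg, ← e]; ring⟩

theorem IsRat.sub {F G : L} (hF : IsRat κ F) (hG : IsRat κ G) : IsRat κ (F - G) := by
  rw [sub_eq_add_neg]; exact hF.add hG.neg

theorem isRat_algebraMap (p : κ[X]) : IsRat κ ((algebraMap κ[X] L) p) :=
  (isRep_algebraMap p).isRat

theorem IsRat.inv {F : L} (hF : IsRat κ F) : IsRat κ F⁻¹ := by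
  obtain ⟨p, q, hq, e⟩ := hF
  by_cases hp : p = 0
  · have hF0 : F = 0 := by
      rw [hp, map_zero] at e
      exact (mul_eq_zero.mp e).resolve_right (ι_ne_zero hq)
    rw [hF0, inv_zero]
    exact ⟨0, 1, one_ne_zero, by simp⟩
  · refine ⟨q, p, hp, ?_⟩
    have hιp : (algebraMap κ[X] L) p ≠ 0 := ι_ne_zero hp
    have hF0 : F ≠ 0 := by
      rintro rfl
      rw [zero_mul] at e
      exact hιp e.symm
    rw [← e]
    field_simp

theorem IsRat.div {F G : L} (hF : IsRat κ F) (hG : IsRat κ G) : IsRat κ (F / G) := by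
  rw [div_eq_mul_inv]; exact hF.mul hG.inv

end Fermat.Agent.S58.EC.HtRep
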