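/-
S58, block [EC-Q] (helper8): **Jordan–von Neumann over `ℤ`** — an integer-valued function on an
additive commutative group satisfying the parallelogram law is a quadratic form.

* `IsPar h`                 : `∀ a b, h (a + b) + h (a - b) = 2 * h a + 2 * h b`;
* `polar h a b`             : `h (a + b) - h a - h b`; `polarHom hP : G →+ G →+ ℤ`;
* `IsPar.map_zsmul`         : `h (n • a) = n ^ 2 * h a`;
* `IsPar.map_zsmul_add_zsmul` : `h (r • a + s • b) = r ^ 2 * h a + r * s * B a b + s ^ 2 * h b`;
* `IsPar.map_three`         : the same for three terms;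
* `IsPar.polar_sq_le`       : `0 ≤ h` ⇒ `B a b ^ 2 ≤ 4 * h a * h b` (Hasse by-product);
* `IsPar.frobenius_relation`: the computation (M) of the blueprint: `h e₀ = 1`, `h e₁ = l`,
  `h e₂ = l ^ 2`, `B e₂ e₁ = l * B e₁ e₀`, `B e₂ e₀ = a₀ ^ 2 - 2 * l` with `a₀ = B e₁ e₀`
  ⇒ `h (e₂ - a₀ • e₁ + l • e₀) = 0`.
-/
import Mathlib

set_option autoImplicit false

namespace Fermat.Agent.S58.EC.QuadForm

variable {G : Type*} [AddCommGroup G]

/-- The parallelogram law. -/
def IsPar (h : G → ℤ) : Prop := ∀ a b : G, h (a + b) + h (a - b) = 2 * h a + 2 * h b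

/-- The polar form `B(a, b) = h (a + b) - h a - h b`. -/
def polar (h : G → ℤ) (a b : G) : ℤ := h (a + b) - h a - h b

theorem polar_comm (h : G → ℤ) (a b : G) : polar h a b = polar h b a := by
  unfold polar
  rw [add_comm a b]
  ring

namespace IsPar

variable {h : G → ℤ} (hP : IsPar h)
include hP

theorem map_zero : h 0 = 0 := by
  have := hP 0 0
  simp only [add_zero, sub_zero] at this
  linarith

theorem map_neg (a : G) : h (-a) = h a := by
  have h1 := hP 0 a
  rw [zero_add, zero_sub, hP.map_zero] at h1
  linarith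

theorem map_sub_comm (a b : G) : h (a - b) = h (b - a) := by
  rw [← hP.map_neg (a - b), neg_sub]

theorem map_two_nsmul (a : G) : h (a + a) = 4 * h a := by
  have h1 := hP a a
  rw [sub_self, hP.map_zero] at h1
  linarith

/-- The three-term identity. -/
theorem map_add_add (a b c : G) :
    h (a + b + c) = h (a + b) + h (a + c) + h (b + c) - h a - h b - h c := by
  have h1 := hP (a + b) c
  have h2 := hP a (b - c)
  have h3 := hP (a + c) b
  have h4 := hP b c
  have e1 : a + (b - c) = a + b - c := by abel
  have e2 : a - (b - c) = a + c - b := by abel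
  have e3 : a + c + b = a + b + c := by abel
  rw [e1, e2] at h2
  rw [e3] at h3
  linarith

theorem polar_add_left (a c b : G) : polar h (a + c) b = polar h a b + polar h c b := by
  unfold polar
  have h1 := hP.map_add_add a c b
  linarith

theorem polar_add_right (a b c : G) : polar h a (b + c) = polar h a b + polar h a c := by
  rw [polar_comm, hP.polar_add_left, polar_comm h b a, polar_comm h c a]

theorem polar_self (a : G) : polar h a a = 2 * h a := by
  unfold polar
  rw [hP.map_two_nsmul]
  ring

/-- The polar form as a biadditive map. -/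
def polarHom : G →+ G →+ ℤ :=
  AddMonoidHom.mk' (fun a => AddMonoidHom.mk' (fun b => polar h a b) (hP.polar_add_right a))
    (fun a c => by
      ext b
      exact hP.polar_add_left a c b)

@[simp] theorem polarHom_apply (a b : G) : hP.polarHom a b = polar h a b := rfl

theorem polar_zsmul_left (n : ℤ) (a b : G) : polar h (n • a) b = n * polar h a b := by
  have h1 : hP.polarHom (n • a) = n • hP.polarHom a := _root_.map_zsmul hP.polarHom n a
  have h2 := DFunLike.congr_fun h1 b
  rw [AddMonoidHom.smul_apply, polarHom_apply, polarHom_apply, smul_eq_mul] at h2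
  exact h2

theorem polar_zsmul_right (n : ℤ) (a b : G) : polar h a (n • b) = n * polar h a b := by
  rw [polar_comm, hP.polar_zsmul_left, polar_comm]

theorem polar_neg_left (a b : G) : polar h (-a) b = -polar h a b := by
  have := hP.polar_zsmul_left (-1) a b
  simpa using this

theorem polar_neg_right (a b : G) : polar h a (-b) = -polar h a b := by
  rw [polar_comm, hP.polar_neg_left, polar_comm]

theorem polar_sub_left (a c b : G) : polar h (a - c) b = polar h a b - polar h c b := by
  rw [sub_eq_add_neg, hP.polar_add_left, hP.polar_neg_left]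
  ring

theorem polar_sub_right (a b c : G) : polar h a (b - c) = polar h a b - polar h a c := by
  rw [sub_eq_add_neg, hP.polar_add_right, hP.polar_neg_right]
  ring

omit hP in
/-- `h (a + b) = h a + B(a, b) + h b`. -/
theorem map_add (a b : G) : h (a + b) = h a + polar h a b + h b := by
  unfold polar
  ring

theorem map_sub (a b : G) : h (a - b) = h a - polar h a b + h b := by
  rw [sub_eq_add_neg, map_add (h := h), hP.polar_neg_right, hP.map_neg]
  ring

/-- `h (n • a) = n² h a`. -/
theorem map_zsmul (n : ℤ) (a : G) : h (n • a) = n ^ 2 * h a := by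
  have h1 := hP.polar_self (n • a)
  rw [hP.polar_zsmul_left, hP.polar_zsmul_right, hP.polar_self] at h1
  have h2 : 2 * h (n • a) = 2 * (n ^ 2 * h a) := by rw [← h1]; ring
  exact mul_left_cancel₀ two_ne_zero h2

/-- **The quadratic form on two generators.** -/
theorem map_zsmul_add_zsmul (r s : ℤ) (a b : G) :
    h (r • a + s • b) = r ^ 2 * h a + r * s * polar h a b + s ^ 2 * h b := by
  rw [map_add (h := h), hP.map_zsmul, hP.map_zsmul, hP.polar_zsmul_left, hP.polar_zsmul_right]
  ring

/-- **The quadratic form on three generators.** -/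
theorem map_three (r s t : ℤ) (a b c : G) :
    h (r • a + s • b + t • c) = r ^ 2 * h a + s ^ 2 * h b + t ^ 2 * h c +
      r * s * polar h a b + r * t * polar h a c + s * t * polar h b c := by
  rw [map_add (h := h) (r • a + s • b), hP.map_zsmul_add_zsmul, hP.map_zsmul, hP.polar_add_left,
    hP.polar_zsmul_left, hP.polar_zsmul_left, hP.polar_zsmul_right, hP.polar_zsmul_right]
  ring

/-- Cauchy–Schwarz for a nonnegative form (Hasse, as a by-product). -/
theorem polar_sq_le (hpos : ∀ a, 0 ≤ h a) (a b : G) : polar h a b ^ 2 ≤ 4 * h a * h b := by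
  set A := h a with hA
  set B := polar h a b with hB
  set C := h b with hC
  have key : ∀ r s : ℤ, 0 ≤ r ^ 2 * A + r * s * B + s ^ 2 * C := fun r s => by
    have := hpos (r • a + s • b)
    rwa [hP.map_zsmul_add_zsmul] at this
  have hA0 : 0 ≤ A := hpos a
  rcases hA0.lt_or_eq with hApos | hA0'
  · have h1 := key B (-2 * A)
    have h2 : B ^ 2 * A + B * (-2 * A) * B + (-2 * A) ^ 2 * C = A * (4 * A * C - B ^ 2) := by ring
    rw [h2] at h1
    have h3 : 0 ≤ 4 * A * C - B ^ 2 := nonneg_of_mul_nonneg_right h1 hApos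
    linarith
  · rw [← hA0']
    have hB0 : B = 0 := by
      by_contra hne
      have h1 := key (-(C + 1) * B) 1
      rw [← hA0'] at h1
      have h2 : (-(C + 1) * B) ^ 2 * 0 + -(C + 1) * B * 1 * B + 1 ^ 2 * C =
          C - (C + 1) * B ^ 2 := by ring
      rw [h2] at h1
      have hC0 : 0 ≤ C := hpos b
      have hB2 : 1 ≤ B ^ 2 := by
        have : 0 < B ^ 2 := by positivity
        linarith
      nlinarith
    rw [hB0]
    simp

/-- **The computation (M)**: the point `e₂ - a₀ e₁ + l e₀` has height `0`. -/
theorem frobenius_relation (e₀ e₁ e₂ : G) (l : ℤ) (h0 : h e₀ = 1) (h1 : h e₁ = l)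
    (h2 : h e₂ = l ^ 2) (h21 : polar h e₂ e₁ = l * polar h e₁ e₀)
    (h20 : polar h e₂ e₀ = polar h e₁ e₀ ^ 2 - 2 * l) :
    h (e₂ - polar h e₁ e₀ • e₁ + l • e₀) = 0 := by
  have e : e₂ - polar h e₁ e₀ • e₁ + l • e₀ =
      (1 : ℤ) • e₂ + (-polar h e₁ e₀) • e₁ + l • e₀ := by
    rw [one_smul, neg_smul, sub_eq_add_neg]
  rw [e, hP.map_three, h0, h1, h2, h21, h20]
  ring

end IsPar

end Fermat.Agent.S58.EC.QuadForm
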