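/-
S58 / EC-Frob, block EC-P (helper10): **the parallelogram law for the degree of the
`x`-coordinate** on the points of a Weierstrass curve with coefficients in `κ` over a field `L`
containing `κ[X]` (e.g. the function field of the curve).

`hgt κ P = ht κ (xc P)` (`0` at the origin).  For points `a, b` such that the `x`-coordinates of
`a, b, a + b, a - b` lie in the fraction field of `κ[X]` inside `L` (`IsRat`):

  `hgt (a + b) + hgt (a - b) = 2 hgt a + 2 hgt b`,

for ALL such `a, b` (including `a = 0`, `b = 0`, `a = ± b`, `2 a = 0`).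

Ingredients: the addition–subtraction law `S05/AddSub`, the three biquadratic forms and their
"no common zero" property `ECF/Forms` (helper24), Gauss' lemma and composition of heights
`S58/EC/HtRep`.
-/
import Mathlib
import Fermat.Agent.S05.AddSub
import Fermat.Agent.ECF.Forms
import Fermat.Agent.S58.EC.HtRep
import Fermat.Agent.S58.EC.QuadForm

set_option autoImplicit false
set_option linter.unusedSectionVars false

namespace Fermat.Agent.S58.EC.Parallelogram

open Polynomial WeierstrassCurve WeierstrassCurve.Affine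
open Fermat.Agent.S05 Fermat.Agent.ECF.Forms Fermat.Agent.S58.EC.HtRep

/-! ### Bezout for three polynomials -/

section Bezout

variable {κ : Type*} [Field κ]

theorem exists_bezout_three {A B C : κ[X]}
    (h : ∀ d : κ[X], d ∣ A → d ∣ B → d ∣ C → IsUnit d) :
    ∃ r s t : κ[X], r * A + s * B + t * C = 1 := by
  obtain ⟨d, hd⟩ := (IsPrincipalIdealRing.principal (Ideal.span ({A, B, C} : Set κ[X]))).principal
  have hd' : Ideal.span ({A, B, C} : Set κ[X]) = Ideal.span {d} := hd
  have hmem : ∀ x ∈ ({A, B, C} : Set κ[X]), d ∣ x := by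
    intro x hx
    rw [← Ideal.mem_span_singleton, ← hd']
    exact Ideal.subset_span hx
  have hu : IsUnit d := h d (hmem A (by simp)) (hmem B (by simp)) (hmem C (by simp))
  have h1 : (1 : κ[X]) ∈ Ideal.span ({A, B, C} : Set κ[X]) := by
    rw [hd', Ideal.span_singleton_eq_top.mpr hu]
    exact Submodule.mem_top
  obtain ⟨r, z, hz, hrz⟩ := Ideal.mem_span_insert.mp h1
  obtain ⟨s, t, hst⟩ := Ideal.mem_span_pair.mp hz
  exact ⟨r, s, t, by rw [hrz, ← hst]; ring⟩

end Bezout

variable {κ : Type*} [Field κ] {L : Type*} [Field L] [DecidableEq L]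
  [Algebra κ[X] L] [FaithfulSMul κ[X] L] [Algebra κ L] [IsScalarTower κ κ[X] L]

/-! ### Elements algebraic over `κ` have height `0` -/

theorem ht_zero : ht κ (0 : L) = 0 := by
  have := ht_algebraMap (κ := κ) (L := L) 0
  rwa [map_zero, natDegree_zero] at this

theorem ht_eq_zero_of_aeval_eq_zero {G : L} (hG : IsRat κ G) {P : κ[X]} (hP : P ≠ 0)
    (h : aeval G P = 0) : ht κ G = 0 := by
  have h1 := ht_of_aeval (H := (0 : L)) hG (isCoprime_one_right (x := P))
    (by rw [map_one]; exact one_ne_zero) (by rw [zero_mul, h])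
  rw [ht_zero, natDegree_one, max_eq_left (Nat.zero_le _)] at h1
  rcases Nat.eq_zero_or_pos P.natDegree with h0 | hpos
  · exfalso
    obtain ⟨c, rfl⟩ := natDegree_eq_zero.mp h0
    rw [aeval_C] at h
    have hc : c = 0 := by
      have hinj : Function.Injective (algebraMap κ L) := (algebraMap κ L).injective
      exact hinj (by rw [h, map_zero])
    exact hP (by rw [hc, map_zero])
  · rcases Nat.eq_zero_or_pos (ht κ G) with h0 | hpos'
    · exact h0
    · exfalso
      have := Nat.mul_pos hpos hpos'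
      omega

/-! ### The two division polynomials of `[2]` -/

variable (W : WeierstrassCurve κ)

/-- `Ψ₂² = 4X³ + b₂X² + 2b₄X + b₆` as a polynomial over `κ`. -/
noncomputable def psi2 : κ[X] := psiH (W.map C) X 1

/-- `Φ₂ = X⁴ − b₄X² − 2b₆X − b₈` as a polynomial over `κ`. -/
noncomputable def phi2 : κ[X] := phiH (W.map C) X 1

theorem psi2_eq : psi2 W = C 4 * X ^ 3 + C W.b₂ * X ^ 2 + C (2 * W.b₄) * X + C W.b₆ := by
  simp only [psi2, psiH, WeierstrassCurve.map_b₂, WeierstrassCurve.map_b₄,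
    WeierstrassCurve.map_b₆, C_mul, C_ofNat]
  ring

theorem phi2_eq : phi2 W = X ^ 4 - C W.b₄ * X ^ 2 - C (2 * W.b₆) * X - C W.b₈ := by
  simp only [phi2, phiH, WeierstrassCurve.map_b₄, WeierstrassCurve.map_b₆,
    WeierstrassCurve.map_b₈, C_mul, C_ofNat]
  ring

theorem natDegree_phi2 : (phi2 W).natDegree = 4 := by
  rw [phi2_eq]
  compute_degree!

theorem natDegree_psi2_le : (psi2 W).natDegree ≤ 3 := by
  rw [psi2_eq]
  compute_degree

theorem isCoprime_phi2_psi2 (hΔ : W.Δ ≠ 0) : IsCoprime (phi2 W) (psi2 W) := by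
  have h := cert (W.map C) (X : κ[X]) 1
  rw [WeierstrassCurve.map_Δ, one_pow, mul_one] at h
  refine ⟨C W.Δ⁻¹ * certV (W.map C) X 1, C W.Δ⁻¹ * certU (W.map C) X 1, ?_⟩
  have h2 : C W.Δ⁻¹ * certV (W.map C) X 1 * phi2 W + C W.Δ⁻¹ * certU (W.map C) X 1 * psi2 W =
      C W.Δ⁻¹ * (certU (W.map C) X 1 * psiH (W.map C) X 1 +
        certV (W.map C) X 1 * phiH (W.map C) X 1) := by
    simp only [phi2, psi2]
    ring
  rw [h2, h, ← C_mul, inv_mul_cancel₀ hΔ, C_1]

theorem psi2_ne_zero (hΔ : W.Δ ≠ 0) : psi2 W ≠ 0 := by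
  intro h0
  have h := isCoprime_phi2_psi2 W hΔ
  rw [h0, isCoprime_zero_right] at h
  have := natDegree_eq_zero_of_isUnit h
  rw [natDegree_phi2] at this
  omega

variable {W}

/-- The curve over `L` obtained from `W` by base change, in the form used for the forms. -/
theorem map_algebraMap_eq : W.map (algebraMap κ L) = (W.map C).map (algebraMap κ[X] L) := by
  rw [WeierstrassCurve.map_map]
  congr 1
  rw [IsScalarTower.algebraMap_eq κ κ[X] L, Polynomial.algebraMap_eq]

theorem aeval_psi2 (G : L) : aeval G (psi2 W) = twoDiv (W.map (algebraMap κ L)).toAffine G := by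
  rw [psi2_eq]
  simp only [twoDiv, map_add, map_mul, map_pow, aeval_X, aeval_C, WeierstrassCurve.map_b₂,
    WeierstrassCurve.map_b₄, WeierstrassCurve.map_b₆, map_ofNat]

theorem aeval_phi2 (G : L) : aeval G (phi2 W) = dupNum (W.map (algebraMap κ L)).toAffine G := by
  rw [phi2_eq]
  simp only [dupNum, map_sub, map_mul, map_pow, aeval_X, aeval_C, WeierstrassCurve.map_b₄,
    WeierstrassCurve.map_b₆, WeierstrassCurve.map_b₈, map_ofNat]

/-! ### The height of a point -/

variable (κ) in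
/-- The height of a point: the degree of its `x`-coordinate (`0` at the origin). -/
noncomputable def hgt {WL : Affine L} : WL.Point → ℤ
  | .zero => 0
  | .some x _ _ => (ht κ x : ℤ)

section Hgt

variable {WL : Affine L}

@[simp] theorem hgt_zero : hgt κ (0 : WL.Point) = 0 := rfl

theorem hgt_of_ne_zero {P : WL.Point} (hP : P ≠ 0) : hgt κ P = (ht κ (xc P) : ℤ) := by
  obtain ⟨x, y, h, rfl⟩ := exists_some_of_ne_zero hP
  rfl

theorem hgt_neg (P : WL.Point) : hgt κ (-P) = hgt κ P := by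
  rcases P with _ | ⟨x, y, h⟩
  · rfl
  · rfl

theorem hgt_nonneg (P : WL.Point) : 0 ≤ hgt κ P := by
  rcases P with _ | ⟨x, y, h⟩
  · exact le_refl _
  · exact Int.natCast_nonneg _

theorem hgt_eq_zero_iff {P : WL.Point} (hP : IsRat κ (xc P)) :
    hgt κ P = 0 ↔ P = 0 ∨ ∃ c : κ, xc P = (algebraMap κ[X] L) (C c) := by
  by_cases h0 : P = 0
  · subst h0
    simp
  · rw [hgt_of_ne_zero h0, Int.natCast_eq_zero, ht_eq_zero_iff hP]
    simp [h0]

end Hgt

/-! ### The generic case -/

theorem ht_add_ht_sub (hΔ : W.Δ ≠ 0) {WL : Affine L} (hWL : WL = W.map (algebraMap κ L))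
    {a b : WL.Point} (ha : a ≠ 0) (hb : b ≠ 0) (hx : xc a ≠ xc b)
    (hra : IsRat κ (xc a)) (hrb : IsRat κ (xc b)) (hrs : IsRat κ (xc (a + b)))
    (hrd : IsRat κ (xc (a - b))) :
    ht κ (xc (a + b)) + ht κ (xc (a - b)) = 2 * ht κ (xc a) + 2 * ht κ (xc b) := by
  subst hWL
  obtain ⟨f₁, f₂, hf⟩ := hra.exists_isRep
  obtain ⟨g₁, g₂, hg⟩ := hrb.exists_isRep
  have hf₂ : (algebraMap κ[X] L) f₂ ≠ 0 := ι_ne_zero hf.ne_zero
  have hg₂ : (algebraMap κ[X] L) g₂ ≠ 0 := ι_ne_zero hg.ne_zero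
  have hfe := hf.eq_div
  have hge := hg.eq_div
  have hsum := xc_add_add_xc_sub ha hb hx
  have hprod := xc_add_mul_xc_sub ha hb hx
  rw [hfe, hge] at hsum hprod
  have hsumA := sum_mul_formA (W.map (algebraMap κ L)) hf₂ hg₂ hsum
  have hprodA := prod_mul_formA (W.map (algebraMap κ L)) hf₂ hg₂ hprod
  have eA : formA ((algebraMap κ[X] L) f₁) ((algebraMap κ[X] L) f₂) ((algebraMap κ[X] L) g₁)
      ((algebraMap κ[X] L) g₂) = (algebraMap κ[X] L) (formA f₁ f₂ g₁ g₂) := by
    rw [map_formA]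
  have eB : formB (W.map (algebraMap κ L)) ((algebraMap κ[X] L) f₁) ((algebraMap κ[X] L) f₂)
      ((algebraMap κ[X] L) g₁) ((algebraMap κ[X] L) g₂) =
      (algebraMap κ[X] L) (formB (W.map C) f₁ f₂ g₁ g₂) := by
    rw [map_formB, ← map_algebraMap_eq]
  have eC : formC (W.map (algebraMap κ L)) ((algebraMap κ[X] L) f₁) ((algebraMap κ[X] L) f₂)
      ((algebraMap κ[X] L) g₁) ((algebraMap κ[X] L) g₂) =
      (algebraMap κ[X] L) (formC (W.map C) f₁ f₂ g₁ g₂) := by
    rw [map_formC, ← map_algebraMap_eq]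
  rw [eA, eB] at hsumA
  rw [eA, eC] at hprodA
  -- `A* ≠ 0`
  have hA : formA f₁ f₂ g₁ g₂ ≠ 0 := by
    intro h0
    apply hx
    have h1 : f₁ * g₂ - g₁ * f₂ = 0 := by
      have := pow_eq_zero_iff (two_ne_zero) |>.mp h0
      exact this
    have h2 : (algebraMap κ[X] L) f₁ * (algebraMap κ[X] L) g₂ =
        (algebraMap κ[X] L) g₁ * (algebraMap κ[X] L) f₂ := by
      rw [← map_mul, ← map_mul, sub_eq_zero.mp h1]
    rw [hfe, hge, div_eq_div_iff hf₂ hg₂, h2]
  -- Bezout
  have hABC := exists_bezout_three (fun d hdA hdB hdC =>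
    isUnit_of_dvd_forms W hΔ hf.coprime hg.coprime hdA hdB hdC)
  have key := ht_add_ht_of_sum_prod hrs hrd hA hABC hsumA hprodA
  rw [key, ht_eq hf, ht_eq hg]
  -- the degrees
  set m := max f₁.natDegree f₂.natDegree with hm
  set n := max g₁.natDegree g₂.natDegree with hn
  have hf₁m : f₁.natDegree ≤ m := le_max_left _ _
  have hf₂m : f₂.natDegree ≤ m := le_max_right _ _
  have hg₁n : g₁.natDegree ≤ n := le_max_left _ _
  have hg₂n : g₂.natDegree ≤ n := le_max_right _ _
  have leA := natDegree_formA_le hf₁m hf₂m hg₁n hg₂n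
  have leB := natDegree_formB_le W hf₁m hf₂m hg₁n hg₂n
  have leC := natDegree_formC_le W hf₁m hf₂m hg₁n hg₂n
  have hex := exists_natDegree_eq W hΔ hf₁m hf₂m hg₁n hg₂n (coeff_max_ne_zero hf.coprime)
    (coeff_max_ne_zero hg.coprime)
  have hle : max (max (formA f₁ f₂ g₁ g₂).natDegree (formB (W.map C) f₁ f₂ g₁ g₂).natDegree)
      (formC (W.map C) f₁ f₂ g₁ g₂).natDegree ≤ (m + m) + (n + n) :=
    max_le (max_le leA leB) leC
  have hge' : (m + m) + (n + n) ≤
      max (max (formA f₁ f₂ g₁ g₂).natDegree (formB (W.map C) f₁ f₂ g₁ g₂).natDegree)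
      (formC (W.map C) f₁ f₂ g₁ g₂).natDegree := by
    rcases hex with h | h | h
    · rw [← h]; exact le_max_of_le_left (le_max_left _ _)
    · rw [← h]; exact le_max_of_le_left (le_max_right _ _)
    · rw [← h]; exact le_max_right _ _
  omega

/-! ### Duplication -/

theorem ht_xc_add_self (hΔ : W.Δ ≠ 0) {WL : Affine L} (hWL : WL = W.map (algebraMap κ L))
    {a : WL.Point} (ha : a ≠ 0) (h2 : a + a ≠ 0) (hra : IsRat κ (xc a)) :
    ht κ (xc (a + a)) = 4 * ht κ (xc a) := by
  subst hWL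
  have hdup := xc_add_self ha h2
  have htd : twoDiv (W.map (algebraMap κ L)).toAffine (xc a) ≠ 0 := by
    intro h0
    exact h2 ((add_self_eq_zero_iff ha).mpr h0)
  rw [← aeval_psi2, ← aeval_phi2] at hdup
  rw [← aeval_psi2] at htd
  have := ht_of_aeval hra (isCoprime_phi2_psi2 W hΔ) htd hdup
  rw [this, natDegree_phi2, max_eq_left (by have := natDegree_psi2_le W; omega)]

theorem isRat_xc_add_self (hΔ : W.Δ ≠ 0) {WL : Affine L} (hWL : WL = W.map (algebraMap κ L))
    {a : WL.Point} (hra : IsRat κ (xc a)) : IsRat κ (xc (a + a)) := by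
  subst hWL
  by_cases ha : a = 0
  · subst ha
    simpa using hra
  by_cases h2 : a + a = 0
  · rw [h2]
    exact ⟨0, 1, one_ne_zero, by simp⟩
  have hdup := xc_add_self ha h2
  have htd : twoDiv (W.map (algebraMap κ L)).toAffine (xc a) ≠ 0 := by
    intro h0
    exact h2 ((add_self_eq_zero_iff ha).mpr h0)
  rw [← aeval_psi2, ← aeval_phi2] at hdup
  rw [← aeval_psi2] at htd
  exact isRat_of_aeval hra (isCoprime_phi2_psi2 W hΔ) htd hdup

theorem ht_xc_of_add_self_eq_zero (hΔ : W.Δ ≠ 0) {WL : Affine L}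
    (hWL : WL = W.map (algebraMap κ L)) {a : WL.Point} (ha : a ≠ 0) (h2 : a + a = 0)
    (hra : IsRat κ (xc a)) : ht κ (xc a) = 0 := by
  subst hWL
  have h0 := (add_self_eq_zero_iff ha).mp h2
  rw [← aeval_psi2] at h0
  exact ht_eq_zero_of_aeval_eq_zero hra (psi2_ne_zero W hΔ) h0

theorem hgt_add_self (hΔ : W.Δ ≠ 0) {WL : Affine L} (hWL : WL = W.map (algebraMap κ L))
    {a : WL.Point} (hra : IsRat κ (xc a)) : hgt κ (a + a) = 4 * hgt κ a := by
  by_cases ha : a = 0
  · subst ha
    simp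
  by_cases h2 : a + a = 0
  · rw [h2, hgt_zero, hgt_of_ne_zero ha, ht_xc_of_add_self_eq_zero hΔ hWL ha h2 hra]
    simp
  · rw [hgt_of_ne_zero h2, hgt_of_ne_zero ha, ht_xc_add_self hΔ hWL ha h2 hra]
    push_cast
    ring

/-! ### The parallelogram law -/

/-- **The parallelogram law** for the height `hgt = deg x`, for all points `a, b` whose
`x`-coordinates (and those of `a ± b`) are rational functions of `X`. -/
theorem parallelogram (hΔ : W.Δ ≠ 0) {WL : Affine L} (hWL : WL = W.map (algebraMap κ L))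
    (a b : WL.Point) (hra : IsRat κ (xc a)) (hrb : IsRat κ (xc b))
    (hrs : IsRat κ (xc (a + b))) (hrd : IsRat κ (xc (a - b))) :
    hgt κ (a + b) + hgt κ (a - b) = 2 * hgt κ a + 2 * hgt κ b := by
  by_cases ha : a = 0
  · subst ha
    rw [zero_add, zero_sub, hgt_neg, hgt_zero]
    ring
  by_cases hb : b = 0
  · subst hb
    rw [add_zero, sub_zero, hgt_zero]
    ring
  by_cases hx : xc a = xc b
  · rcases (xc_eq_iff ha hb).mp hx with h | h
    · subst h
      rw [sub_self, hgt_zero, hgt_add_self hΔ hWL hra]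
      ring
    · subst h
      have e : -b - b = -(b + b) := by abel
      rw [neg_add_cancel, hgt_zero, e, hgt_neg, hgt_add_self hΔ hWL hrb, hgt_neg]
      ring
  · have hs : a + b ≠ 0 := add_ne_zero_of_xc_ne hx
    have hd : a - b ≠ 0 := sub_ne_zero_of_xc_ne hx
    rw [hgt_of_ne_zero hs, hgt_of_ne_zero hd, hgt_of_ne_zero ha, hgt_of_ne_zero hb]
    have := ht_add_ht_sub hΔ hWL ha hb hx hra hrb hrs hrd
    exact_mod_cast this

/-- The parallelogram law on a subgroup all of whose points have rational `x`-coordinate, in the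
form consumed by `S58/EC/QuadForm`. -/
theorem isPar_of_subgroup (hΔ : W.Δ ≠ 0) {WL : Affine L} (hWL : WL = W.map (algebraMap κ L))
    (H : AddSubgroup WL.Point) (hH : ∀ γ ∈ H, IsRat κ (xc γ)) :
    QuadForm.IsPar (fun γ : H => hgt κ (γ : WL.Point)) := by
  intro a b
  have := parallelogram hΔ hWL (a : WL.Point) (b : WL.Point) (hH _ a.2) (hH _ b.2)
    (hH _ (H.add_mem a.2 b.2)) (hH _ (H.sub_mem a.2 b.2))
  simpa using this

end Fermat.Agent.S58.EC.Parallelogram
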