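/-
S58 / EC-Frob, block EC-M (helper10): **the Frobenius relation on `E(κ(E))`**.

`W₀` is a Weierstrass curve over `𝔽_ℓ = ZMod ℓ` with `Δ ≠ 0`, `κ` an algebraically closed field
over `𝔽_ℓ`, `K` the function field of `W₀` over `κ` (abstractly: a field with the data `FFData`),
`G = W₀(K)`, `e₀ = (xK, yK)` the generic point, `Fr` the map induced by `z ↦ z ^ ℓ` on `K`,
`e₁ = Fr e₀`, `e₂ = Fr e₁`, `G⁻ = {γ | ι γ = -γ}` (`ι : Y ↦ -Y - a₁X - a₃`), and
`h γ = deg x(γ)` on `G⁻`.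

* `h` is a quadratic form on `G⁻` (`Parallelogram`), `h e₀ = 1`, `h ∘ Fr = ℓ h`;
* for `β, γ ∈ G⁻`, `β` non-constant, and the substitution `σ_β : K → K` (`e₀ ↦ β`):
  `h (σ_β γ) = h β * h γ`;
* with `a₀ = B(e₁, e₀)`: `a₀ ^ 2 < 4 ℓ` (Hasse) and `B(e₂, e₀) = a₀ ^ 2 - 2 ℓ`, hence
  `h (e₂ - a₀ e₁ + ℓ e₀) = 0`, hence `Ξ = e₂ - a₀ e₁ + ℓ e₀` is a constant point.
-/
import Mathlib
import Fermat.Agent.S58.EC.Parallelogram

set_option autoImplicit false
set_option linter.unusedSectionVars false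

namespace Fermat.Agent.S58.EC.Mult

open Polynomial WeierstrassCurve WeierstrassCurve.Affine
open Fermat.Agent.S05 Fermat.Agent.S58.EC.HtRep Fermat.Agent.S58.EC.Parallelogram
open Fermat.Agent.S58.EC.QuadForm

/-! ### Generic facts on `Point.map` -/

section Generic

variable {R : Type*} [CommRing R] {W' : WeierstrassCurve.Affine R}
  {S : Type*} [CommRing S] [Algebra R S]
  {F : Type*} [Field F] [DecidableEq F] [Algebra R F] [Algebra S F] [IsScalarTower R S F]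
  {K : Type*} [Field K] [DecidableEq K] [Algebra R K] [Algebra S K] [IsScalarTower R S K]

theorem xc_map (f : F →ₐ[S] K) (P : (W'⁄F).Point) :
    xc (Point.map (W' := W') f P) = f (xc P) := by
  rcases P with _ | ⟨x, y, h⟩
  · exact (map_zero f).symm
  · rfl

theorem map_eq_zero_iff (f : F →ₐ[S] K) (P : (W'⁄F).Point) :
    Point.map (W' := W') f P = 0 ↔ P = 0 := by
  constructor
  · intro h
    exact Point.map_injective (W' := W') f (by rw [h, map_zero])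
  · rintro rfl
    rfl

theorem map_congr_fun {S' : Type*} [CommRing S'] [Algebra R S'] [Algebra S' F]
    [IsScalarTower R S' F] [Algebra S' K] [IsScalarTower R S' K]
    (f : F →ₐ[S] K) (g : F →ₐ[S'] K) (hfg : ∀ z, f z = g z) (P : (W'⁄F).Point) :
    Point.map (W' := W') f P = Point.map (W' := W') g P := by
  rcases P with _ | ⟨x, y, h⟩
  · rfl
  · rw [Point.map_some, Point.map_some, Point.some.injEq]
    exact ⟨hfg x, hfg y⟩

theorem map_some_eq {x y : F} (h : (W'⁄F).Nonsingular x y) (f : F →ₐ[S] K) {x' y' : K}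
    (h' : (W'⁄K).Nonsingular x' y') (hx : f x = x') (hy : f y = y') :
    Point.map (W' := W') f (Point.some x y h) = Point.some x' y' h' := by
  rw [Point.map_some, Point.some.injEq]
  exact ⟨hx, hy⟩

end Generic

/-! ### The Frobenius algebra homomorphism -/

section Frob

variable (ℓ : ℕ) [Fact ℓ.Prime] (A : Type*) [Field A] [Algebra (ZMod ℓ) A]

/-- `z ↦ z ^ ℓ` as an `𝔽_ℓ`-algebra endomorphism of a field of characteristic `ℓ`. -/
noncomputable def frobAlg : A →ₐ[ZMod ℓ] A where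
  toFun z := z ^ ℓ
  map_one' := one_pow _
  map_mul' a b := mul_pow a b ℓ
  map_zero' := zero_pow (Fact.out : ℓ.Prime).ne_zero
  map_add' a b := by
    have : CharP A ℓ := charP_of_injective_algebraMap (algebraMap (ZMod ℓ) A).injective ℓ
    exact add_pow_char a b ℓ
  commutes' a := by
    change (algebraMap (ZMod ℓ) A a) ^ ℓ = algebraMap (ZMod ℓ) A a
    rw [← map_pow, ZMod.pow_card]

@[simp] theorem frobAlg_apply (z : A) : frobAlg ℓ A z = z ^ ℓ := rfl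

end Frob

/-! ### The function-field data -/

section Data

variable {ℓ : ℕ} [Fact ℓ.Prime] (W₀ : WeierstrassCurve (ZMod ℓ))
  (κ : Type*) [Field κ] [Algebra (ZMod ℓ) κ]
  (K : Type*) [Field K] [Algebra (ZMod ℓ) K] [Algebra κ K] [IsScalarTower (ZMod ℓ) κ K]
  [Algebra κ[X] K] [IsScalarTower κ κ[X] K]

/-- What the heart needs from the function field `K = κ(E)`: the generic point
`e₀ = (xK, yK)` with `xK` the image of `X`, the involution `ι` with fixed field `κ(xK)`, and the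
substitution homomorphisms `xK ↦ x, yK ↦ y` for every point `(x, y)` with `x` transcendental. -/
structure FFData (yK : K) (iotaK : K →ₐ[κ] K) : Prop where
  nonsingular : (W₀⁄K).Nonsingular (algebraMap κ[X] K X) yK
  iotaK_xK : iotaK (algebraMap κ[X] K X) = algebraMap κ[X] K X
  iotaK_yK : iotaK yK = (W₀⁄K).negY (algebraMap κ[X] K X) yK
  isRat_of_fixed : ∀ z : K, iotaK z = z → IsRat κ z
  exists_subst : ∀ x y : K, (W₀⁄K).Nonsingular x y → Transcendental κ x →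
    ∃ σ : K →ₐ[κ] K, σ (algebraMap κ[X] K X) = x ∧ σ yK = y

end Data

section Heart

variable {ℓ : ℕ} [Fact ℓ.Prime] {W₀ : WeierstrassCurve (ZMod ℓ)}
  {κ : Type*} [Field κ] [Algebra (ZMod ℓ) κ]
  {K : Type*} [Field K] [DecidableEq K] [Algebra (ZMod ℓ) K] [Algebra κ K]
  [IsScalarTower (ZMod ℓ) κ K] [Algebra κ[X] K] [IsScalarTower κ κ[X] K] [FaithfulSMul κ[X] K]

variable (W₀ κ K) in
theorem curve_eq :
    (W₀⁄K) = (W₀.map (algebraMap (ZMod ℓ) κ)).map (algebraMap κ K) := by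
  rw [WeierstrassCurve.map_map, ← IsScalarTower.algebraMap_eq]
  rfl

variable (κ) in
theorem map_Δ_ne_zero (hΔ : W₀.Δ ≠ 0) : (W₀.map (algebraMap (ZMod ℓ) κ)).Δ ≠ 0 := by
  rw [WeierstrassCurve.map_Δ]
  exact (_root_.map_ne_zero _).mpr hΔ

/-- `σ` of a polynomial in `xK`. -/
theorem algHom_algebraMap (σ : K →ₐ[κ] K) (q : κ[X]) :
    σ (algebraMap κ[X] K q) = aeval (σ (algebraMap κ[X] K X)) q := by
  have h1 : algebraMap κ[X] K q = aeval (algebraMap κ[X] K X) q := by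
    rw [aeval_algebraMap_apply, aeval_X_left_apply]
  rw [h1]
  exact (aeval_algHom_apply σ _ q).symm

/-! #### Frobenius on points -/

variable (W₀ K) in
/-- The Frobenius endomorphism of `W₀(K)`. -/
noncomputable def Fr : (W₀⁄K).Point →+ (W₀⁄K).Point := Point.map (W' := W₀) (frobAlg ℓ K)

theorem xc_Fr (γ : (W₀⁄K).Point) : xc (Fr W₀ K γ) = xc γ ^ ℓ := by
  rw [Fr, xc_map, frobAlg_apply]

theorem Fr_eq_zero_iff (γ : (W₀⁄K).Point) : Fr W₀ K γ = 0 ↔ γ = 0 :=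
  map_eq_zero_iff _ γ

theorem map_Fr (σ : K →ₐ[κ] K) (γ : (W₀⁄K).Point) :
    Point.map (W' := W₀) σ (Fr W₀ K γ) = Fr W₀ K (Point.map (W' := W₀) σ γ) := by
  rcases γ with _ | ⟨x, y, h⟩
  · rfl
  · simp only [Fr, Point.map_some]
    rw [Point.some.injEq]
    simp only [frobAlg_apply, map_pow, and_self]

theorem hgt_Fr {γ : (W₀⁄K).Point} (hγ : IsRat κ (xc γ)) :
    hgt κ (Fr W₀ K γ) = ℓ * hgt κ γ := by
  by_cases h0 : γ = 0
  · subst h0
    simp
  · have h1 : Fr W₀ K γ ≠ 0 := fun h => h0 ((Fr_eq_zero_iff γ).mp h)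
    rw [hgt_of_ne_zero h1, hgt_of_ne_zero h0, xc_Fr, ht_pow hγ]
    push_cast
    ring

theorem isRat_xc_Fr {γ : (W₀⁄K).Point} (hγ : IsRat κ (xc γ)) : IsRat κ (xc (Fr W₀ K γ)) := by
  rw [xc_Fr]
  exact hγ.pow ℓ

/-! #### Transcendence of non-constant rational `x`-coordinates -/

theorem transcendental_xc {γ : (W₀⁄K).Point} (hγ : IsRat κ (xc γ)) (h : hgt κ γ ≠ 0) :
    Transcendental κ (xc γ) := by
  intro halg
  obtain ⟨P, hP, hPx⟩ := halg
  have h0 : γ ≠ 0 := by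
    rintro rfl
    exact h rfl
  rw [hgt_of_ne_zero h0] at h
  exact h (by rw [ht_eq_zero_of_aeval_eq_zero hγ hP hPx]; rfl)

/-! #### The subgroup `G⁻` -/

variable (W₀) in
/-- `G⁻ = {γ | ι γ = -γ}`. -/
def Gminus (iotaK : K →ₐ[κ] K) : AddSubgroup (W₀⁄K).Point where
  carrier := {γ | Point.map (W' := W₀) iotaK γ = -γ}
  zero_mem' := by
    change Point.map (W' := W₀) iotaK 0 = -0
    rw [map_zero, neg_zero]
  add_mem' := by
    intro a b ha hb
    change Point.map (W' := W₀) iotaK (a + b) = -(a + b)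
    rw [map_add, show Point.map (W' := W₀) iotaK a = -a from ha,
      show Point.map (W' := W₀) iotaK b = -b from hb, neg_add]
  neg_mem' := by
    intro a ha
    change Point.map (W' := W₀) iotaK (-a) = - -a
    rw [map_neg, show Point.map (W' := W₀) iotaK a = -a from ha]

theorem mem_Gminus {iotaK : K →ₐ[κ] K} {γ : (W₀⁄K).Point} :
    γ ∈ Gminus W₀ iotaK ↔ Point.map (W' := W₀) iotaK γ = -γ := Iff.rfl

theorem Fr_mem_Gminus {iotaK : K →ₐ[κ] K} {γ : (W₀⁄K).Point} (hγ : γ ∈ Gminus W₀ iotaK) :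
    Fr W₀ K γ ∈ Gminus W₀ iotaK := by
  rw [mem_Gminus, map_Fr, mem_Gminus.mp hγ, map_neg]

variable {yK : K} {iotaK : K →ₐ[κ] K} (D : FFData W₀ κ K yK iotaK)
include D

theorem isRat_xc_of_mem {γ : (W₀⁄K).Point} (hγ : γ ∈ Gminus W₀ iotaK) : IsRat κ (xc γ) := by
  apply D.isRat_of_fixed
  have := congrArg xc (mem_Gminus.mp hγ)
  rwa [xc_map, xc_neg] at this

/-- The generic point `e₀ = (xK, yK)`. -/
noncomputable def e0 : (W₀⁄K).Point := Point.some _ _ D.nonsingular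

theorem e0_ne_zero : e0 D ≠ 0 := Point.some_ne_zero _

theorem xc_e0 : xc (e0 D) = algebraMap κ[X] K X := rfl

theorem e0_mem : e0 D ∈ Gminus W₀ iotaK := by
  rw [mem_Gminus, e0, Point.neg_some]
  exact map_some_eq _ _ _ D.iotaK_xK D.iotaK_yK

theorem hgt_e0 : hgt κ (e0 D) = 1 := by
  rw [hgt_of_ne_zero (e0_ne_zero D), xc_e0, ht_algebraMap, natDegree_X]
  rfl

/-- A substitution homomorphism sending `e₀` to the point `β`. -/
theorem exists_subst_point {β : (W₀⁄K).Point} (hβ : β ≠ 0) (htr : Transcendental κ (xc β)) :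
    ∃ σ : K →ₐ[κ] K, Point.map (W' := W₀) σ (e0 D) = β ∧
      σ (algebraMap κ[X] K X) = xc β := by
  obtain ⟨x, y, h, rfl⟩ := exists_some_of_ne_zero hβ
  obtain ⟨σ, hσx, hσy⟩ := D.exists_subst x y h htr
  exact ⟨σ, map_some_eq _ _ _ hσx hσy, hσx⟩

/-- **Multiplicativity of the height under substitution.** -/
theorem hgt_map_subst (σ : K →ₐ[κ] K) (hσ : IsRat κ (σ (algebraMap κ[X] K X)))
    {γ : (W₀⁄K).Point} (hγ : IsRat κ (xc γ)) :
    hgt κ (Point.map (W' := W₀) σ γ) = hgt κ (Point.map (W' := W₀) σ (e0 D)) * hgt κ γ := by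
  by_cases h0 : γ = 0
  · subst h0
    simp
  have h1 : Point.map (W' := W₀) σ γ ≠ 0 := fun h => h0 ((map_eq_zero_iff σ γ).mp h)
  have h2 : Point.map (W' := W₀) σ (e0 D) ≠ 0 :=
    fun h => e0_ne_zero D ((map_eq_zero_iff σ _).mp h)
  rw [hgt_of_ne_zero h1, hgt_of_ne_zero h2, hgt_of_ne_zero h0, xc_map, xc_map, xc_e0]
  obtain ⟨p, q, hrep⟩ := hγ.exists_isRep
  have hq : aeval (σ (algebraMap κ[X] K X)) q ≠ 0 := by
    rw [← algHom_algebraMap]
    exact (_root_.map_ne_zero σ).mpr (ι_ne_zero hrep.ne_zero)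
  have hH : σ (xc γ) * aeval (σ (algebraMap κ[X] K X)) q =
      aeval (σ (algebraMap κ[X] K X)) p := by
    rw [← algHom_algebraMap, ← algHom_algebraMap, ← map_mul, hrep.eq]
  rw [ht_of_aeval hσ hrep.coprime hq hH, ht_eq hrep]
  push_cast
  ring

/-! #### The quadratic form on `G⁻` -/

/-- The height on `G⁻`. -/
noncomputable def hm (_D : FFData W₀ κ K yK iotaK) : Gminus W₀ iotaK → ℤ :=
  fun γ => hgt κ (γ : (W₀⁄K).Point)

theorem isPar_hm (hΔ : W₀.Δ ≠ 0) : IsPar (hm D) :=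
  isPar_of_subgroup (map_Δ_ne_zero κ hΔ) (curve_eq W₀ κ K) (Gminus W₀ iotaK)
    (fun _ hγ => isRat_xc_of_mem D hγ)

theorem hm_nonneg (γ : Gminus W₀ iotaK) : 0 ≤ hm D γ := hgt_nonneg _

/-- `e₀` as an element of `G⁻`. -/
noncomputable def e0m : Gminus W₀ iotaK := ⟨e0 D, e0_mem D⟩

omit D in
variable (W₀ iotaK) in
/-- Frobenius on `G⁻`. -/
noncomputable def Frm : Gminus W₀ iotaK →+ Gminus W₀ iotaK :=
  ((Fr W₀ K).comp (Gminus W₀ iotaK).subtype).codRestrict (Gminus W₀ iotaK)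
    (fun γ => Fr_mem_Gminus γ.2)

omit D in
@[simp] theorem coe_Frm (γ : Gminus W₀ iotaK) :
    ((Frm W₀ iotaK γ : Gminus W₀ iotaK) : (W₀⁄K).Point) = Fr W₀ K γ := rfl

theorem hm_e0m : hm D (e0m D) = 1 := hgt_e0 D

theorem hm_Frm (γ : Gminus W₀ iotaK) : hm D (Frm W₀ iotaK γ) = ℓ * hm D γ :=
  hgt_Fr (isRat_xc_of_mem D γ.2)

theorem polar_Frm (a b : Gminus W₀ iotaK) :
    polar (hm D) (Frm W₀ iotaK a) (Frm W₀ iotaK b) = ℓ * polar (hm D) a b := by
  unfold polar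
  rw [← map_add, hm_Frm, hm_Frm, hm_Frm]
  ring

/-- `e₁ = Fr e₀`. -/
noncomputable def e1m : Gminus W₀ iotaK := Frm W₀ iotaK (e0m D)

/-- `e₂ = Fr e₁`. -/
noncomputable def e2m : Gminus W₀ iotaK := Frm W₀ iotaK (e1m D)

/-- The trace of Frobenius `a₀ = B(e₁, e₀)`. -/
noncomputable def a0 : ℤ := polar (hm D) (e1m D) (e0m D)

theorem hm_e1m : hm D (e1m D) = ℓ := by
  rw [e1m, hm_Frm, hm_e0m, mul_one]

theorem hm_e2m : hm D (e2m D) = (ℓ : ℤ) ^ 2 := by
  rw [e2m, hm_Frm, hm_e1m]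
  ring

theorem polar_e2m_e1m : polar (hm D) (e2m D) (e1m D) = ℓ * a0 D := by
  rw [e2m, e1m, polar_Frm]
  rfl

omit D in
theorem int_prime_not_sq (c : ℤ) : c ^ 2 ≠ (ℓ : ℤ) := by
  intro h
  have hp : Prime (ℓ : ℤ) := Nat.prime_iff_prime_int.mp (Fact.out : ℓ.Prime)
  exact hp.irreducible.not_isSquare ⟨c, by rw [← h]; ring⟩

/-- **Hasse**: `a₀² < 4ℓ`. -/
theorem a0_sq_lt (hΔ : W₀.Δ ≠ 0) : a0 D ^ 2 < 4 * (ℓ : ℤ) := by
  have h1 := (isPar_hm D hΔ).polar_sq_le (hm_nonneg D) (e1m D) (e0m D)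
  rw [hm_e1m, hm_e0m, mul_one] at h1
  rcases h1.lt_or_eq with h | h
  · exact h
  · exfalso
    have h2 : Even (a0 D) := by
      have : Even (a0 D ^ 2) := by
        rw [show a0 D ^ 2 = 4 * (ℓ : ℤ) from h]
        exact ⟨2 * ℓ, by ring⟩
      exact (Int.even_pow' two_ne_zero).mp this
    obtain ⟨c, hc⟩ := h2
    apply int_prime_not_sq (ℓ := ℓ) c
    have : (c + c) ^ 2 = 4 * (ℓ : ℤ) := by
      rw [← hc]
      exact h
    linarith [this, show (c + c) ^ 2 = 4 * c ^ 2 by ring]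

omit D in
/-- Positivity of the norm form. -/
theorem norm_form_pos {a : ℤ} (ha : a ^ 2 < 4 * (ℓ : ℤ)) {r s : ℤ} (hrs : (r, s) ≠ (0, 0)) :
    0 < r ^ 2 + r * s * a + s ^ 2 * (ℓ : ℤ) := by
  have key : 4 * (r ^ 2 + r * s * a + s ^ 2 * (ℓ : ℤ)) =
      (2 * r + s * a) ^ 2 + s ^ 2 * (4 * (ℓ : ℤ) - a ^ 2) := by ring
  by_cases hs : s = 0
  · subst hs
    have hr : r ≠ 0 := by
      rintro rfl
      exact hrs rfl
    have : 0 < r ^ 2 := by positivity
    linarith [this]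
  · have h1 : 0 < s ^ 2 := by positivity
    have h2 : 0 < s ^ 2 * (4 * (ℓ : ℤ) - a ^ 2) := mul_pos h1 (by linarith)
    have h3 : 0 ≤ (2 * r + s * a) ^ 2 := sq_nonneg _
    linarith

/-- `h (r e₀ + s e₁) = r² + r s a₀ + s² ℓ`. -/
theorem hm_lin (hΔ : W₀.Δ ≠ 0) (r s : ℤ) :
    hm D (r • e0m D + s • e1m D) = r ^ 2 + r * s * a0 D + s ^ 2 * (ℓ : ℤ) := by
  rw [(isPar_hm D hΔ).map_zsmul_add_zsmul, hm_e0m, hm_e1m, polar_comm, a0]
  ring

/-- **The key computation**: `B(e₂, e₀) = a₀² - 2ℓ`, from ONE instance of multiplicativity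
(`β = γ = e₁ + e₀`). -/
theorem polar_e2m_e0m (hΔ : W₀.Δ ≠ 0) :
    polar (hm D) (e2m D) (e0m D) = a0 D ^ 2 - 2 * (ℓ : ℤ) := by
  have hP := isPar_hm D hΔ
  set β : Gminus W₀ iotaK := e1m D + e0m D with hβdef
  have hβ : hm D β = (ℓ : ℤ) + a0 D + 1 := by
    rw [hβdef, IsPar.map_add (h := hm D), hm_e1m, hm_e0m]
    rfl
  have hlt := a0_sq_lt D hΔ
  have hℓ : (1 : ℤ) ≤ ℓ := by exact_mod_cast (Fact.out : ℓ.Prime).one_lt.le
  have hβpos : 0 < hm D β := by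
    rw [hβ]
    nlinarith [sq_nonneg ((ℓ : ℤ) - 1), sq_nonneg (a0 D + ((ℓ : ℤ) + 1))]
  have hβrat : IsRat κ (xc (β : (W₀⁄K).Point)) := isRat_xc_of_mem D β.2
  have hβne : hgt κ (β : (W₀⁄K).Point) ≠ 0 := fun h => by
    have : hm D β = 0 := h
    omega
  have hβ0 : (β : (W₀⁄K).Point) ≠ 0 := by
    intro h
    apply hβne
    rw [h]
    rfl
  obtain ⟨σ, hσe0, hσx⟩ := exists_subst_point D hβ0 (transcendental_xc hβrat hβne)
  -- the image of `β` under `σ`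
  have hcoe : (β : (W₀⁄K).Point) = Fr W₀ K (e0 D) + e0 D := rfl
  have himg : Point.map (W' := W₀) σ (β : (W₀⁄K).Point) =
      (((1 : ℤ) • e2m D + (2 : ℤ) • e1m D + (1 : ℤ) • e0m D : Gminus W₀ iotaK) :
        (W₀⁄K).Point) := by
    have e1 : Point.map (W' := W₀) σ (β : (W₀⁄K).Point) =
        Fr W₀ K (β : (W₀⁄K).Point) + (β : (W₀⁄K).Point) := by
      conv_lhs => rw [hcoe, map_add, map_Fr, hσe0]
    rw [e1, hcoe, map_add]
    simp only [one_smul, AddSubgroup.coe_add, AddSubgroup.coe_zsmul, e2m, e1m, coe_Frm, e0m]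
    rw [two_smul]
    abel
  have hmul := hgt_map_subst D σ (by rw [hσx]; exact hβrat) hβrat
  rw [hσe0, himg] at hmul
  have hmul' : hm D ((1 : ℤ) • e2m D + (2 : ℤ) • e1m D + (1 : ℤ) • e0m D) = hm D β * hm D β :=
    hmul
  rw [hP.map_three, hm_e2m, hm_e1m, hm_e0m, polar_e2m_e1m, hβ] at hmul'
  have ha : polar (hm D) (e1m D) (e0m D) = a0 D := rfl
  rw [ha] at hmul'
  linarith [hmul']

/-- **The Frobenius relation in height**: `h (e₂ - a₀ e₁ + ℓ e₀) = 0`. -/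
theorem hm_Xi (hΔ : W₀.Δ ≠ 0) :
    hm D (e2m D - a0 D • e1m D + (ℓ : ℤ) • e0m D) = 0 :=
  (isPar_hm D hΔ).frobenius_relation (e0m D) (e1m D) (e2m D) (ℓ : ℤ) (hm_e0m D) (hm_e1m D)
    (hm_e2m D) (polar_e2m_e1m D) (polar_e2m_e0m D hΔ)

end Heart

end Fermat.Agent.S58.EC.Mult
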