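/-
S58 block [EC-K], part 2 (helper18): **the six fields of helper10's `Mult.FFData` for
`K = (W₀⁄κ).FunctionField`**, stated in exactly the shapes of the structure
(`xK := algebraMap κ[X] K X`, `iotaK := iotaHom W₀ κ : K →ₐ[κ] K`, `yK := yK W₀ κ`).
-/
import Mathlib
import Fermat.Agent.S58.EC.FunctionFieldK
import Fermat.Agent.S58.EC.HtRep
import Fermat.Agent.S58.EC.Mult

set_option autoImplicit false
set_option linter.unusedSectionVars false

open WeierstrassCurve WeierstrassCurve.Affine Polynomial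
open scoped Polynomial.Bivariate
open Fermat.Agent.S58.EC.FunctionFieldK

noncomputable section

namespace Fermat.Agent.S58.EC.FFDataK

variable {R : Type*} [CommRing R] (W₀ : WeierstrassCurve R)
variable (κ : Type*) [Field κ] [Algebra R κ]

/-- `xK` in helper10's normal form. -/
theorem xK_eq : xK W₀ κ = algebraMap κ[X] (KE W₀ κ) X := by
  rw [algebraMap_polynomial_eq_aeval, aeval_X]

example : FaithfulSMul κ[X] (KE W₀ κ) := inferInstance

theorem ffdata_iotaK_xK :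
    iotaHom W₀ κ (algebraMap κ[X] (KE W₀ κ) X) = algebraMap κ[X] (KE W₀ κ) X := by
  rw [← xK_eq]; exact iotaHom_xK W₀ κ

theorem ffdata_iotaK_yK :
    iotaHom W₀ κ (yK W₀ κ) =
      (W₀⁄(KE W₀ κ)).negY (algebraMap κ[X] (KE W₀ κ) X) (yK W₀ κ) := by
  rw [← xK_eq]; exact iotaHom_yK W₀ κ

theorem ffdata_algHom_ext (σ τ : KE W₀ κ →ₐ[κ] KE W₀ κ)
    (hx : σ (algebraMap κ[X] (KE W₀ κ) X) = τ (algebraMap κ[X] (KE W₀ κ) X))
    (hy : σ (yK W₀ κ) = τ (yK W₀ κ)) : σ = τ := by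
  rw [← xK_eq] at hx
  exact algHom_ext_KE hx hy

theorem ffdata_exists_subst (x y : KE W₀ κ) (h : (W₀⁄(KE W₀ κ)).Nonsingular x y)
    (hx : Transcendental κ x) :
    ∃ σ : KE W₀ κ →ₐ[κ] KE W₀ κ,
      σ (algebraMap κ[X] (KE W₀ κ) X) = x ∧ σ (yK W₀ κ) = y := by
  refine ⟨fieldLift x y h.1 hx, ?_, fieldLift_yK _ _⟩
  rw [← xK_eq]; exact fieldLift_xK _ _

/-- Elements of `κ(X) ⊆ κ(E)` are rational in the sense of `HtRep`. -/
theorem isRat_ratToK (u : RatFunc κ) : HtRep.IsRat κ (ratToK W₀ κ u) := by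
  obtain ⟨p, q, hq, rfl⟩ := IsFractionRing.div_surjective (A := κ[X]) u
  have hq0 : q ≠ 0 := nonZeroDivisors.ne_zero hq
  refine ⟨p, q, hq0, ?_⟩
  rw [map_div₀, ratToK_algebraMap, ratToK_algebraMap]
  have : algebraMap κ[X] (KE W₀ κ) q ≠ 0 := HtRep.ι_ne_zero hq0
  field_simp

variable [(W₀⁄κ).IsElliptic]

theorem ffdata_nonsingular :
    (W₀⁄(KE W₀ κ)).Nonsingular (algebraMap κ[X] (KE W₀ κ) X) (yK W₀ κ) := by
  rw [← xK_eq]; exact nonsingular_xK_yK W₀ κ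

theorem ffdata_isRat_of_fixed (z : KE W₀ κ) (hz : iotaHom W₀ κ z = z) : HtRep.IsRat κ z := by
  have hz' : iotaK W₀ κ z = z := hz
  obtain ⟨u, rfl⟩ := (mem_Lx_iff W₀ κ).mp (iotaK_eq_self_iff.mp hz')
  exact isRat_ratToK W₀ κ u

/-! ### The `FFData` record of `S58/EC/Mult.lean` -/

section Record

variable {ℓ : ℕ} [Fact ℓ.Prime] (V₀ : WeierstrassCurve (ZMod ℓ))
  (k : Type*) [Field k] [Algebra (ZMod ℓ) k]

/-- **`Mult.FFData` for `K = (V₀⁄k).FunctionField`.** -/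
theorem ffData [(V₀⁄k).IsElliptic] :
    Fermat.Agent.S58.EC.Mult.FFData V₀ k (KE V₀ k) (yK V₀ k) (iotaHom V₀ k) :=
  ⟨ffdata_nonsingular V₀ k, ffdata_iotaK_xK V₀ k, ffdata_iotaK_yK V₀ k,
    ffdata_isRat_of_fixed V₀ k, ffdata_exists_subst V₀ k⟩

/-- The same from `Δ ≠ 0` over `𝔽_ℓ`. -/
theorem ffData_of_Δ_ne_zero (hΔ : V₀.Δ ≠ 0) :
    Fermat.Agent.S58.EC.Mult.FFData V₀ k (KE V₀ k) (yK V₀ k) (iotaHom V₀ k) := by
  have h1 : V₀.IsElliptic := ⟨isUnit_iff_ne_zero.mpr hΔ⟩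
  have h2 : (V₀⁄k).IsElliptic := by
    change (V₀.map (algebraMap (ZMod ℓ) k)).IsElliptic
    infer_instance
  exact ffData V₀ k

end Record

end Fermat.Agent.S58.EC.FFDataK
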