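/-
S58 / EC-Frob, block [EC-C] (helper12): **counting** — row 46 §2 (C).

`W₀` a Weierstrass curve over `𝔽_ℓ = ZMod ℓ` with `Δ ≠ 0`, `κ` an algebraically closed field which is a
`ZMod ℓ`-algebra, `E = W₀⁄κ`, `φ : E(κ) → E(κ)` the Frobenius endomorphism `(x, y) ↦ (x^ℓ, y^ℓ)`
(`Affine.Point.map f` for `f : κ →ₐ[ZMod ℓ] κ`, `f z = z ^ ℓ`).

* `card_fixed` : `#{P | φ P = P} = #W₀(𝔽_ℓ)`;
* `card_fixed_add_card_anti` : `#{P | φ P = P} + #{P | φ P = -P} = 2 ℓ + 2`, in every characteristic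
  (for `x ∈ 𝔽_ℓ` the two roots `y, -y - a₁ x - a₃` of the quadratic contribute `(2,0)`, `(1,1)` or
  `(0,2)`);
* `a0_eq_traceOfFrobenius` : if `#ker(φ - 1) ≤ 1 - a₀ + ℓ` and `#ker(φ + 1) ≤ 1 + a₀ + ℓ` (the kernel
  bounds of block EC-T) then `a₀ = ℓ + 1 - #W₀(𝔽_ℓ) = W₀.traceOfFrobenius`.

Kernel (`AddMonoidHom.ker`) forms: `card_ker_sub_id`, `card_ker_sub_add_card_ker_add`,
`a0_eq_traceOfFrobenius_ker`.
-/
import Mathlib
import Fermat.Prelude.Def_FLTPrelim_Modularity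

set_option autoImplicit false
set_option linter.style.haveILetI false
set_option linter.unusedSectionVars false

open Polynomial

namespace Fermat.Agent.S58.EC.Count

/-! ### Frobenius-fixed elements -/

section Field

variable {ℓ : ℕ} [hℓ : Fact ℓ.Prime] {κ : Type*} [Field κ] [Algebra (ZMod ℓ) κ]

theorem charP_of_algebra : CharP κ ℓ :=
  charP_of_injective_algebraMap (algebraMap (ZMod ℓ) κ).injective ℓ

/-- The fixed points of `z ↦ z ^ ℓ` are the constants of `𝔽_ℓ`. -/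
theorem pow_eq_self_iff (z : κ) : z ^ ℓ = z ↔ ∃ a : ZMod ℓ, algebraMap (ZMod ℓ) κ a = z := by
  haveI : CharP κ ℓ := charP_of_algebra
  rw [← Subfield.mem_bot_iff_pow_eq_self κ ℓ, mem_bot_iff_intCast ℓ κ]
  constructor
  · rintro ⟨n, rfl⟩
    exact ⟨(n : ZMod ℓ), map_intCast _ n⟩
  · rintro ⟨a, rfl⟩
    obtain ⟨n, rfl⟩ := ZMod.intCast_surjective a
    exact ⟨n, (map_intCast _ n).symm⟩

theorem algebraMap_pow_card (a : ZMod ℓ) :
    (algebraMap (ZMod ℓ) κ a) ^ ℓ = algebraMap (ZMod ℓ) κ a := by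
  rw [← map_pow, ZMod.pow_card]

end Field

/-! ### The two roots of a monic quadratic with coefficients in `𝔽_ℓ` -/

section Quadratic

variable {ℓ : ℕ} [hℓ : Fact ℓ.Prime] {κ : Type*} [Field κ] [Algebra (ZMod ℓ) κ] [IsAlgClosed κ]
  [DecidableEq κ]

/-- For `c, d` fixed by Frobenius, the solutions of `y² + c y = d` split as: those fixed by
Frobenius and those sent to the conjugate `-y - c`; the two numbers add up to `2`. -/
theorem card_filter_add_card_filter (c d : κ) (hc : c ^ ℓ = c) (hd : d ^ ℓ = d) :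
    ∃ R : Finset κ, (∀ y, y ∈ R ↔ y ^ 2 + c * y = d) ∧
      (R.filter (fun y => y ^ ℓ = y)).card + (R.filter (fun y => y ^ ℓ = -y - c)).card = 2 := by
  haveI : CharP κ ℓ := charP_of_algebra
  -- a root
  obtain ⟨y₁, hy₁⟩ : ∃ y : κ, y ^ 2 + c * y = d := by
    have hdeg : (X ^ 2 + C c * X - C d : κ[X]).degree ≠ 0 := by
      have : (X ^ 2 + C c * X - C d : κ[X]).degree = 2 := by
        compute_degree!
      rw [this]; norm_num
    obtain ⟨y, hy⟩ := IsAlgClosed.exists_root _ hdeg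
    refine ⟨y, ?_⟩
    simp only [IsRoot.def, eval_sub, eval_add, eval_pow, eval_X, eval_mul, eval_C] at hy
    linear_combination hy
  set y₂ : κ := -y₁ - c with hy₂
  have hfac : ∀ y : κ, y ^ 2 + c * y = d ↔ y = y₁ ∨ y = y₂ := by
    intro y
    have e : y ^ 2 + c * y - d = (y - y₁) * (y - y₂) := by
      rw [hy₂, ← hy₁]; ring
    rw [← sub_eq_zero, e, mul_eq_zero, sub_eq_zero, sub_eq_zero]
  -- Frobenius on the roots
  have hfrob : ∀ y : κ, y ^ 2 + c * y = d → (y ^ ℓ) ^ 2 + c * y ^ ℓ = d := by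
    intro y hy
    have h1 : (y ^ 2 + c * y) ^ ℓ = d ^ ℓ := by rw [hy]
    rw [add_pow_char, mul_pow, hc, hd, ← pow_mul, mul_comm 2 ℓ, pow_mul] at h1
    exact h1
  refine ⟨{y₁, y₂}, fun y => by rw [Finset.mem_insert, Finset.mem_singleton, hfac], ?_⟩
  rw [← Finset.card_union_add_card_inter]
  have hun : (Finset.filter (fun y => y ^ ℓ = y) {y₁, y₂}) ∪
      (Finset.filter (fun y => y ^ ℓ = -y - c) {y₁, y₂}) = {y₁, y₂} := by
    ext y
    simp only [Finset.mem_union, Finset.mem_filter, Finset.mem_insert, Finset.mem_singleton]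
    constructor
    · rintro (⟨h, -⟩ | ⟨h, -⟩) <;> exact h
    · intro h
      have hy : y ^ 2 + c * y = d := (hfac y).mpr h
      have h2 := (hfac (y ^ ℓ)).mp (hfrob y hy)
      rcases h with rfl | rfl
      · rcases h2 with h2 | h2
        · exact Or.inl ⟨Or.inl rfl, h2⟩
        · exact Or.inr ⟨Or.inl rfl, h2⟩
      · rcases h2 with h2 | h2
        · refine Or.inr ⟨Or.inr rfl, ?_⟩
          rw [h2, hy₂]; ring
        · exact Or.inl ⟨Or.inr rfl, h2⟩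
  rw [hun]
  by_cases h12 : y₁ = y₂
  · -- double root
    have hself : y₁ ^ ℓ = y₁ := by
      have h2 := (hfac (y₁ ^ ℓ)).mp (hfrob y₁ hy₁)
      rcases h2 with h2 | h2
      · exact h2
      · rw [h2, ← h12]
    have hin : (Finset.filter (fun y => y ^ ℓ = y) {y₁, y₂}) ∩
        (Finset.filter (fun y => y ^ ℓ = -y - c) {y₁, y₂}) = {y₁} := by
      ext y
      simp only [Finset.mem_inter, Finset.mem_filter, Finset.mem_insert, Finset.mem_singleton,
        ← h12, or_self]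
      constructor
      · rintro ⟨⟨h, -⟩, -⟩; exact h
      · rintro rfl
        exact ⟨⟨rfl, hself⟩, rfl, by rw [hself]; exact h12⟩
    rw [hin, ← h12, Finset.pair_eq_singleton, Finset.card_singleton]
  · have hin : (Finset.filter (fun y => y ^ ℓ = y) {y₁, y₂}) ∩
        (Finset.filter (fun y => y ^ ℓ = -y - c) {y₁, y₂}) = ∅ := by
      ext y
      simp only [Finset.mem_inter, Finset.mem_filter, Finset.mem_insert, Finset.mem_singleton,
        Finset.notMem_empty, iff_false, not_and]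
      rintro ⟨h, h1⟩ - h2
      rw [h1] at h2
      rcases h with rfl | rfl
      · exact h12 h2
      · apply h12
        rw [h2, hy₂]; ring
    rw [hin, Finset.card_empty, Finset.card_pair h12]

end Quadratic

/-! ### Points -/

section Points

open WeierstrassCurve

variable {ℓ : ℕ} [hℓ : Fact ℓ.Prime] (W₀ : WeierstrassCurve (ZMod ℓ))
  {κ : Type*} [Field κ] [Algebra (ZMod ℓ) κ] [DecidableEq κ]

/-- The curve over `κ`. -/
abbrev EK (κ : Type*) [Field κ] [Algebra (ZMod ℓ) κ] : Affine κ := Affine.baseChange W₀ κ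

/-- `c = a₁ x + a₃` at `x = a`. -/
def cc (a : ZMod ℓ) : κ := algebraMap (ZMod ℓ) κ (W₀.a₁ * a + W₀.a₃)

/-- `d = x³ + a₂ x² + a₄ x + a₆` at `x = a`. -/
def dd (a : ZMod ℓ) : κ := algebraMap (ZMod ℓ) κ (a ^ 3 + W₀.a₂ * a ^ 2 + W₀.a₄ * a + W₀.a₆)

theorem equation_iff_quad (a : ZMod ℓ) (y : κ) :
    (EK W₀ κ).Equation (algebraMap (ZMod ℓ) κ a) y ↔ y ^ 2 + cc W₀ a * y = dd W₀ a := by
  rw [Affine.equation_iff]
  have e1 : (EK W₀ κ).a₁ = algebraMap (ZMod ℓ) κ W₀.a₁ := rfl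
  have e2 : (EK W₀ κ).a₂ = algebraMap (ZMod ℓ) κ W₀.a₂ := rfl
  have e3 : (EK W₀ κ).a₃ = algebraMap (ZMod ℓ) κ W₀.a₃ := rfl
  have e4 : (EK W₀ κ).a₄ = algebraMap (ZMod ℓ) κ W₀.a₄ := rfl
  have e6 : (EK W₀ κ).a₆ = algebraMap (ZMod ℓ) κ W₀.a₆ := rfl
  rw [e1, e2, e3, e4, e6]
  simp only [cc, dd, map_add, map_mul, map_pow]
  constructor <;> intro h <;> linear_combination h

theorem negY_eq (a : ZMod ℓ) (y : κ) :
    (EK W₀ κ).negY (algebraMap (ZMod ℓ) κ a) y = -y - cc W₀ a := by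
  have e1 : (EK W₀ κ).a₁ = algebraMap (ZMod ℓ) κ W₀.a₁ := rfl
  have e3 : (EK W₀ κ).a₃ = algebraMap (ZMod ℓ) κ W₀.a₃ := rfl
  rw [Affine.negY, e1, e3]
  simp only [cc, map_add, map_mul]
  ring

theorem Δ_ne_zero (hΔ : W₀.Δ ≠ 0) : (EK W₀ κ).Δ ≠ 0 := by
  have e : (EK W₀ κ).Δ = algebraMap (ZMod ℓ) κ W₀.Δ := W₀.map_Δ _
  rw [e]
  exact (map_ne_zero_iff _ (algebraMap (ZMod ℓ) κ).injective).mpr hΔ

theorem nonsingular_of_quad (hΔ : W₀.Δ ≠ 0) (a : ZMod ℓ) (y : κ)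
    (h : y ^ 2 + cc W₀ a * y = dd W₀ a) :
    (EK W₀ κ).Nonsingular (algebraMap (ZMod ℓ) κ a) y :=
  (Affine.equation_iff_nonsingular_of_Δ_ne_zero (Δ_ne_zero W₀ hΔ)).mp
    ((equation_iff_quad W₀ a y).mpr h)

/-- Points with `x`-coordinate in `𝔽_ℓ` and `y`-coordinate in a prescribed finite set. -/
noncomputable def toPoint (hΔ : W₀.Δ ≠ 0) (B : ZMod ℓ → Finset κ)
    (hB : ∀ a y, y ∈ B a → y ^ 2 + cc W₀ a * y = dd W₀ a) :
    Option (Σ a : ZMod ℓ, {y : κ // y ∈ B a}) → (EK W₀ κ).Point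
  | none => 0
  | some t => Affine.Point.some (algebraMap (ZMod ℓ) κ t.1) t.2.1
      (nonsingular_of_quad W₀ hΔ t.1 t.2.1 (hB t.1 t.2.1 t.2.2))

theorem toPoint_injective (hΔ : W₀.Δ ≠ 0) (B : ZMod ℓ → Finset κ)
    (hB : ∀ a y, y ∈ B a → y ^ 2 + cc W₀ a * y = dd W₀ a) :
    Function.Injective (toPoint W₀ hΔ B hB) := by
  rintro (_ | ⟨a, y, hy⟩) (_ | ⟨a', y', hy'⟩) h
  · rfl
  · exact absurd h.symm (Affine.Point.some_ne_zero _)
  · exact absurd h (Affine.Point.some_ne_zero _)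
  · simp only [toPoint, Affine.Point.some.injEq] at h
    obtain ⟨h1, h2⟩ := h
    have ha : a = a' := (algebraMap (ZMod ℓ) κ).injective h1
    subst ha
    subst h2
    rfl

variable (f : κ →ₐ[ZMod ℓ] κ)

/-- The Frobenius endomorphism of `E(κ)`. -/
noncomputable abbrev frobPt : (EK W₀ κ).Point →+ (EK W₀ κ).Point :=
  Affine.Point.map (W' := W₀) f

theorem frobPt_some {x y : κ} (h : (EK W₀ κ).Nonsingular x y) :
    frobPt W₀ f (Affine.Point.some x y h) =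
      Affine.Point.some (f x) (f y) ((Affine.baseChange_nonsingular W₀ f.injective x y).mpr h) :=
  rfl

variable (hf : ∀ z, f z = z ^ ℓ)

include hf in
theorem frobPt_eq_self_iff {x y : κ} (h : (EK W₀ κ).Nonsingular x y) :
    frobPt W₀ f (Affine.Point.some x y h) = Affine.Point.some x y h ↔ x ^ ℓ = x ∧ y ^ ℓ = y := by
  rw [frobPt_some, Affine.Point.some.injEq, hf, hf]

include hf in
theorem frobPt_eq_neg_iff {x y : κ} (h : (EK W₀ κ).Nonsingular x y) :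
    frobPt W₀ f (Affine.Point.some x y h) = -Affine.Point.some x y h ↔
      x ^ ℓ = x ∧ y ^ ℓ = (EK W₀ κ).negY x y := by
  rw [frobPt_some, Affine.Point.neg_some, Affine.Point.some.injEq, hf, hf]

end Points

section Count

open WeierstrassCurve

variable {ℓ : ℕ} [hℓ : Fact ℓ.Prime] (W₀ : WeierstrassCurve (ZMod ℓ))
  {κ : Type*} [Field κ] [Algebra (ZMod ℓ) κ] [IsAlgClosed κ] [DecidableEq κ]
  (hΔ : W₀.Δ ≠ 0) (f : κ →ₐ[ZMod ℓ] κ) (hf : ∀ z, f z = z ^ ℓ)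

/-- The solutions of the quadratic at `x = a`, as a finite set. -/
noncomputable def RR (a : ZMod ℓ) : Finset κ :=
  Classical.choose (card_filter_add_card_filter (ℓ := ℓ) (cc W₀ a) (dd W₀ a)
    (algebraMap_pow_card _) (algebraMap_pow_card _))

theorem mem_RR (a : ZMod ℓ) (y : κ) : y ∈ RR W₀ (κ := κ) a ↔ y ^ 2 + cc W₀ a * y = dd W₀ a :=
  (Classical.choose_spec (card_filter_add_card_filter (ℓ := ℓ) (cc W₀ a) (dd W₀ a)
    (algebraMap_pow_card _) (algebraMap_pow_card _))).1 y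

/-- `y`-coordinates of the Frobenius-fixed points over `x = a`. -/
noncomputable def B1 (a : ZMod ℓ) : Finset κ := (RR W₀ a).filter (fun y => y ^ ℓ = y)

/-- `y`-coordinates of the points with `φ P = -P` over `x = a`. -/
noncomputable def B2 (a : ZMod ℓ) : Finset κ := (RR W₀ a).filter (fun y => y ^ ℓ = -y - cc W₀ a)

theorem card_B1_add_card_B2 (a : ZMod ℓ) :
    (B1 W₀ (κ := κ) a).card + (B2 W₀ (κ := κ) a).card = 2 :=
  (Classical.choose_spec (card_filter_add_card_filter (ℓ := ℓ) (cc W₀ a) (dd W₀ a)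
    (algebraMap_pow_card _) (algebraMap_pow_card _))).2

theorem quad_of_mem_B1 (a : ZMod ℓ) (y : κ) (h : y ∈ B1 W₀ a) :
    y ^ 2 + cc W₀ a * y = dd W₀ a :=
  (mem_RR W₀ a y).mp (Finset.mem_filter.mp h).1

theorem quad_of_mem_B2 (a : ZMod ℓ) (y : κ) (h : y ∈ B2 W₀ a) :
    y ^ 2 + cc W₀ a * y = dd W₀ a :=
  (mem_RR W₀ a y).mp (Finset.mem_filter.mp h).1

include hΔ hf in
/-- `#{P | φ P = P} = 1 + ∑ₐ #B₁(a)`. -/
theorem card_fixed_eq_sum :
    Nat.card {P : (EK W₀ κ).Point // frobPt W₀ f P = P} =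
      (∑ a : ZMod ℓ, (B1 W₀ (κ := κ) a).card) + 1 := by
  classical
  have hsurj : ∀ P : (EK W₀ κ).Point, frobPt W₀ f P = P →
      ∃ t, toPoint W₀ hΔ (B1 W₀) (quad_of_mem_B1 W₀) t = P := by
    rintro (_ | ⟨x, y, h⟩) hP
    · exact ⟨none, rfl⟩
    · obtain ⟨hx, hy⟩ := (frobPt_eq_self_iff W₀ f hf h).mp hP
      obtain ⟨a, rfl⟩ := (pow_eq_self_iff x).mp hx
      have hq : y ^ 2 + cc W₀ a * y = dd W₀ a := (equation_iff_quad W₀ a y).mp h.1
      have hmem : y ∈ B1 W₀ a := Finset.mem_filter.mpr ⟨(mem_RR W₀ a y).mpr hq, hy⟩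
      exact ⟨some ⟨a, y, hmem⟩, rfl⟩
  have hfix : ∀ t, frobPt W₀ f (toPoint W₀ hΔ (B1 W₀) (quad_of_mem_B1 W₀) t) =
      toPoint W₀ hΔ (B1 W₀) (quad_of_mem_B1 W₀) t := by
    rintro (_ | ⟨a, y, hy⟩)
    · exact map_zero _
    · exact (frobPt_eq_self_iff W₀ f hf _).mpr
        ⟨algebraMap_pow_card a, (Finset.mem_filter.mp hy).2⟩
  let e : Option (Σ a : ZMod ℓ, {y : κ // y ∈ B1 W₀ a}) ≃
      {P : (EK W₀ κ).Point // frobPt W₀ f P = P} :=
    Equiv.ofBijective (fun t => ⟨toPoint W₀ hΔ (B1 W₀) (quad_of_mem_B1 W₀) t, hfix t⟩)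
      ⟨fun s t h => toPoint_injective W₀ hΔ (B1 W₀) (quad_of_mem_B1 W₀) (congrArg Subtype.val h),
        fun P => by
          obtain ⟨t, ht⟩ := hsurj P.1 P.2
          exact ⟨t, Subtype.ext ht⟩⟩
  rw [← Nat.card_congr e, Nat.card_eq_fintype_card, Fintype.card_option, Fintype.card_sigma]
  simp only [Fintype.card_coe]

include hΔ hf in
/-- `#{P | φ P = -P} = 1 + ∑ₐ #B₂(a)`. -/
theorem card_anti_eq_sum :
    Nat.card {P : (EK W₀ κ).Point // frobPt W₀ f P = -P} =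
      (∑ a : ZMod ℓ, (B2 W₀ (κ := κ) a).card) + 1 := by
  classical
  have hsurj : ∀ P : (EK W₀ κ).Point, frobPt W₀ f P = -P →
      ∃ t, toPoint W₀ hΔ (B2 W₀) (quad_of_mem_B2 W₀) t = P := by
    rintro (_ | ⟨x, y, h⟩) hP
    · exact ⟨none, rfl⟩
    · obtain ⟨hx, hy⟩ := (frobPt_eq_neg_iff W₀ f hf h).mp hP
      obtain ⟨a, rfl⟩ := (pow_eq_self_iff x).mp hx
      rw [negY_eq] at hy
      have hq : y ^ 2 + cc W₀ a * y = dd W₀ a := (equation_iff_quad W₀ a y).mp h.1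
      have hmem : y ∈ B2 W₀ a := Finset.mem_filter.mpr ⟨(mem_RR W₀ a y).mpr hq, hy⟩
      exact ⟨some ⟨a, y, hmem⟩, rfl⟩
  have hfix : ∀ t, frobPt W₀ f (toPoint W₀ hΔ (B2 W₀) (quad_of_mem_B2 W₀) t) =
      -toPoint W₀ hΔ (B2 W₀) (quad_of_mem_B2 W₀) t := by
    rintro (_ | ⟨a, y, hy⟩)
    · exact map_zero _
    · refine (frobPt_eq_neg_iff W₀ f hf _).mpr ⟨algebraMap_pow_card a, ?_⟩
      rw [negY_eq]
      exact (Finset.mem_filter.mp hy).2
  let e : Option (Σ a : ZMod ℓ, {y : κ // y ∈ B2 W₀ a}) ≃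
      {P : (EK W₀ κ).Point // frobPt W₀ f P = -P} :=
    Equiv.ofBijective (fun t => ⟨toPoint W₀ hΔ (B2 W₀) (quad_of_mem_B2 W₀) t, hfix t⟩)
      ⟨fun s t h => toPoint_injective W₀ hΔ (B2 W₀) (quad_of_mem_B2 W₀) (congrArg Subtype.val h),
        fun P => by
          obtain ⟨t, ht⟩ := hsurj P.1 P.2
          exact ⟨t, Subtype.ext ht⟩⟩
  rw [← Nat.card_congr e, Nat.card_eq_fintype_card, Fintype.card_option, Fintype.card_sigma]
  simp only [Fintype.card_coe]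

include hΔ hf in
/-- **(C2)** `#{P | φ P = P} + #{P | φ P = -P} = 2 ℓ + 2`, in every characteristic. -/
theorem card_fixed_add_card_anti :
    Nat.card {P : (EK W₀ κ).Point // frobPt W₀ f P = P} +
      Nat.card {P : (EK W₀ κ).Point // frobPt W₀ f P = -P} = 2 * ℓ + 2 := by
  rw [card_fixed_eq_sum W₀ hΔ f hf, card_anti_eq_sum W₀ hΔ f hf]
  have h : (∑ a : ZMod ℓ, (B1 W₀ (κ := κ) a).card) + (∑ a : ZMod ℓ, (B2 W₀ (κ := κ) a).card) =
      2 * ℓ := by
    rw [← Finset.sum_add_distrib, Finset.sum_congr rfl (fun a _ => card_B1_add_card_B2 W₀ a),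
      Finset.sum_const, Finset.card_univ, ZMod.card, smul_eq_mul, mul_comm]
  omega

include hΔ hf in
theorem finite_fixed : Finite {P : (EK W₀ κ).Point // frobPt W₀ f P = P} := by
  apply Nat.finite_of_card_ne_zero
  rw [card_fixed_eq_sum W₀ hΔ f hf]
  omega

include hΔ hf in
theorem finite_anti : Finite {P : (EK W₀ κ).Point // frobPt W₀ f P = -P} := by
  apply Nat.finite_of_card_ne_zero
  rw [card_anti_eq_sum W₀ hΔ f hf]
  omega

end Count

/-! ### The fixed points are the `𝔽_ℓ`-rational points -/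

section Rational

open WeierstrassCurve

variable {ℓ : ℕ} [hℓ : Fact ℓ.Prime] (W₀ : WeierstrassCurve (ZMod ℓ))
  {κ : Type*} [Field κ] [Algebra (ZMod ℓ) κ] [DecidableEq κ]
  (f : κ →ₐ[ZMod ℓ] κ) (hf : ∀ z, f z = z ^ ℓ)

/-- The inclusion `W₀(𝔽_ℓ) → E(κ)`. -/
noncomputable def ratPoint : W₀.toAffine.Point → (EK W₀ κ).Point
  | Affine.Point.zero => 0
  | Affine.Point.some a b h => Affine.Point.some (algebraMap (ZMod ℓ) κ a) (algebraMap (ZMod ℓ) κ b)
      ((Affine.map_nonsingular W₀.toAffine (algebraMap (ZMod ℓ) κ).injective a b).mpr h)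

theorem ratPoint_injective : Function.Injective (ratPoint W₀ (κ := κ)) := by
  rintro (_ | ⟨a, b, h⟩) (_ | ⟨a', b', h'⟩) hP
  · rfl
  · exact absurd hP.symm (Affine.Point.some_ne_zero _)
  · exact absurd hP (Affine.Point.some_ne_zero _)
  · have hP' := Affine.Point.some.inj hP
    have ha : a = a' := (algebraMap (ZMod ℓ) κ).injective hP'.1
    have hb : b = b' := (algebraMap (ZMod ℓ) κ).injective hP'.2
    subst ha
    subst hb
    rfl

include hf in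
/-- **(C1)** `#{P | φ P = P} = #W₀(𝔽_ℓ)`. -/
theorem card_fixed :
    Nat.card {P : (EK W₀ κ).Point // frobPt W₀ f P = P} = Nat.card W₀.toAffine.Point := by
  have hfix : ∀ Q, frobPt W₀ f (ratPoint W₀ (κ := κ) Q) = ratPoint W₀ Q := by
    rintro (_ | ⟨a, b, h⟩)
    · exact map_zero _
    · exact (frobPt_eq_self_iff W₀ f hf _).mpr ⟨algebraMap_pow_card a, algebraMap_pow_card b⟩
  have hsurj : ∀ P : (EK W₀ κ).Point, frobPt W₀ f P = P → ∃ Q, ratPoint W₀ Q = P := by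
    rintro (_ | ⟨x, y, h⟩) hP
    · exact ⟨0, rfl⟩
    · obtain ⟨hx, hy⟩ := (frobPt_eq_self_iff W₀ f hf h).mp hP
      obtain ⟨a, rfl⟩ := (pow_eq_self_iff x).mp hx
      obtain ⟨b, rfl⟩ := (pow_eq_self_iff y).mp hy
      exact ⟨Affine.Point.some a b
        ((Affine.map_nonsingular W₀.toAffine (algebraMap (ZMod ℓ) κ).injective a b).mp h), rfl⟩
  let e : W₀.toAffine.Point ≃ {P : (EK W₀ κ).Point // frobPt W₀ f P = P} :=
    Equiv.ofBijective (fun Q => ⟨ratPoint W₀ Q, hfix Q⟩)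
      ⟨fun s t h => ratPoint_injective W₀ (congrArg Subtype.val h),
        fun P => by
          obtain ⟨Q, hQ⟩ := hsurj P.1 P.2
          exact ⟨Q, Subtype.ext hQ⟩⟩
  exact (Nat.card_congr e).symm

end Rational

/-! ### The trace of Frobenius -/

section Trace

open WeierstrassCurve

variable {ℓ : ℕ} [hℓ : Fact ℓ.Prime] (W₀ : WeierstrassCurve (ZMod ℓ))
  {κ : Type*} [Field κ] [Algebra (ZMod ℓ) κ] [IsAlgClosed κ] [DecidableEq κ]
  (hΔ : W₀.Δ ≠ 0) (f : κ →ₐ[ZMod ℓ] κ) (hf : ∀ z, f z = z ^ ℓ)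

include hΔ hf in
/-- **(C3)** The two kernel bounds force `a₀ = ℓ + 1 - #W₀(𝔽_ℓ)`. -/
theorem a0_eq_traceOfFrobenius (a₀ : ℤ)
    (hm : (Nat.card {P : (EK W₀ κ).Point // frobPt W₀ f P = P} : ℤ) ≤ 1 - a₀ + ℓ)
    (hp : (Nat.card {P : (EK W₀ κ).Point // frobPt W₀ f P = -P} : ℤ) ≤ 1 + a₀ + ℓ) :
    a₀ = W₀.traceOfFrobenius := by
  have h2 := card_fixed_add_card_anti W₀ hΔ f hf
  have h1 := card_fixed W₀ f hf
  have h3 : (Nat.card {P : (EK W₀ κ).Point // frobPt W₀ f P = P} : ℤ) +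
      (Nat.card {P : (EK W₀ κ).Point // frobPt W₀ f P = -P} : ℤ) = 2 * ℓ + 2 := by
    exact_mod_cast h2
  rw [WeierstrassCurve.traceOfFrobenius, WeierstrassCurve.card, Nat.card_zmod, ← h1]
  linarith

/-! #### Kernel forms -/

/-- `ker (φ - 1)` as a subtype. -/
noncomputable def kerSubEquiv :
    ↥(AddMonoidHom.ker (frobPt W₀ f - AddMonoidHom.id (EK W₀ κ).Point)) ≃ {P : (EK W₀ κ).Point // frobPt W₀ f P = P} :=
  Equiv.subtypeEquivRight fun P => by
    rw [AddMonoidHom.mem_ker, AddMonoidHom.sub_apply, AddMonoidHom.id_apply, sub_eq_zero]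

/-- `ker (φ + 1)` as a subtype. -/
noncomputable def kerAddEquiv :
    ↥(AddMonoidHom.ker (frobPt W₀ f + AddMonoidHom.id (EK W₀ κ).Point)) ≃ {P : (EK W₀ κ).Point // frobPt W₀ f P = -P} :=
  Equiv.subtypeEquivRight fun P => by
    rw [AddMonoidHom.mem_ker, AddMonoidHom.add_apply, AddMonoidHom.id_apply,
      add_eq_zero_iff_eq_neg]

include hf in
theorem card_ker_sub_id :
    Nat.card ↥(AddMonoidHom.ker (frobPt W₀ f - AddMonoidHom.id (EK W₀ κ).Point)) = Nat.card W₀.toAffine.Point := by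
  rw [Nat.card_congr (kerSubEquiv W₀ f), card_fixed W₀ f hf]

include hΔ hf in
theorem card_ker_sub_add_card_ker_add :
    Nat.card ↥(AddMonoidHom.ker (frobPt W₀ f - AddMonoidHom.id (EK W₀ κ).Point)) +
      Nat.card ↥(AddMonoidHom.ker (frobPt W₀ f + AddMonoidHom.id (EK W₀ κ).Point)) = 2 * ℓ + 2 := by
  rw [Nat.card_congr (kerSubEquiv W₀ f), Nat.card_congr (kerAddEquiv W₀ f),
    card_fixed_add_card_anti W₀ hΔ f hf]

include hΔ hf in
theorem finite_ker_sub : Finite ↥(AddMonoidHom.ker (frobPt W₀ f - AddMonoidHom.id (EK W₀ κ).Point)) :=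
  haveI := finite_fixed W₀ hΔ f hf
  Finite.of_equiv _ (kerSubEquiv W₀ f).symm

include hΔ hf in
theorem finite_ker_add : Finite ↥(AddMonoidHom.ker (frobPt W₀ f + AddMonoidHom.id (EK W₀ κ).Point)) :=
  haveI := finite_anti W₀ hΔ f hf
  Finite.of_equiv _ (kerAddEquiv W₀ f).symm

include hΔ hf in
/-- **(C3), kernel form.** -/
theorem a0_eq_traceOfFrobenius_ker (a₀ : ℤ)
    (hm : (Nat.card ↥(AddMonoidHom.ker (frobPt W₀ f - AddMonoidHom.id (EK W₀ κ).Point)) : ℤ) ≤ 1 - a₀ + ℓ)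
    (hp : (Nat.card ↥(AddMonoidHom.ker (frobPt W₀ f + AddMonoidHom.id (EK W₀ κ).Point)) : ℤ) ≤ 1 + a₀ + ℓ) :
    a₀ = W₀.traceOfFrobenius := by
  rw [Nat.card_congr (kerSubEquiv W₀ f)] at hm
  rw [Nat.card_congr (kerAddEquiv W₀ f)] at hp
  exact a0_eq_traceOfFrobenius W₀ hΔ f hf a₀ hm hp

end Trace

end Fermat.Agent.S58.EC.Count
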