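/-
S58 / EC-Frob, block [EC-C] (helper12), adapter to the interface of block EC-T (helper10, board #1882 (4)).

EC-T delivers, for `φ = Point.map frobAlg` on `G = (W₀⁄κ).Point`:
`∃ a0 : ℤ, a0^2 < 4*ℓ ∧ (∀ P : G, φ (φ P) - a0 • φ P + (ℓ:ℤ) • P = 0) ∧
   ∀ r s : ℤ, (r,s) ≠ (0,0) → Finite (r • id + s • φ).ker ∧ (Nat.card (r • id + s • φ).ker : ℤ) ≤ r^2 + r*s*a0 + s^2*ℓ`.
Here: every such `a0` is the prelude `W₀.traceOfFrobenius` (`a0_eq_traceOfFrobenius_of_bound`), hence the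
Frobenius relation and the Hasse bound hold with `W₀.traceOfFrobenius` (`frob_relation_of_exists_a0`).
-/
import Fermat.Agent.S58.EC.Count

set_option autoImplicit false
set_option linter.unusedSectionVars false

namespace Fermat.Agent.S58.EC.CountAdapter

open WeierstrassCurve Fermat.Agent.S58.EC.Count

variable {ℓ : ℕ} [hℓ : Fact ℓ.Prime] (W₀ : WeierstrassCurve (ZMod ℓ))
  {κ : Type*} [Field κ] [Algebra (ZMod ℓ) κ] [IsAlgClosed κ] [DecidableEq κ]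
  (f : κ →ₐ[ZMod ℓ] κ)

/-- The discriminant hypothesis in the base-changed form used by EC-T. -/
theorem Δ_ne_zero_of_map (h : (W₀.map (algebraMap (ZMod ℓ) κ)).Δ ≠ 0) : W₀.Δ ≠ 0 := by
  intro h0
  apply h
  rw [WeierstrassCurve.map_Δ, h0, map_zero]

theorem neg_one_smul_id_add_one_smul :
    ((-1 : ℤ) • AddMonoidHom.id (EK W₀ κ).Point + (1 : ℤ) • frobPt W₀ f) =
      frobPt W₀ f - AddMonoidHom.id (EK W₀ κ).Point := by
  rw [neg_smul, one_smul, one_smul]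
  abel

theorem one_smul_id_add_one_smul :
    ((1 : ℤ) • AddMonoidHom.id (EK W₀ κ).Point + (1 : ℤ) • frobPt W₀ f) =
      frobPt W₀ f + AddMonoidHom.id (EK W₀ κ).Point := by
  rw [one_smul, one_smul, add_comm]

variable (hΔ : W₀.Δ ≠ 0) (hf : ∀ z, f z = z ^ ℓ)

include hΔ hf in
/-- The kernel bound of EC-T (only the cases `(r, s) = (-1, 1), (1, 1)` are used) pins down `a₀`. -/
theorem a0_eq_traceOfFrobenius_of_bound (a₀ : ℤ)
    (hb : ∀ r s : ℤ, (r, s) ≠ (0, 0) →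
      (Nat.card ↥(AddMonoidHom.ker (r • AddMonoidHom.id (EK W₀ κ).Point + s • frobPt W₀ f)) : ℤ) ≤
        r ^ 2 + r * s * a₀ + s ^ 2 * ℓ) :
    a₀ = W₀.traceOfFrobenius := by
  have hm := hb (-1) 1 (by simp)
  have hp := hb 1 1 (by simp)
  rw [neg_one_smul_id_add_one_smul] at hm
  rw [one_smul_id_add_one_smul] at hp
  refine a0_eq_traceOfFrobenius_ker W₀ hΔ f hf a₀ ?_ ?_
  · calc _ ≤ _ := hm
      _ = 1 - a₀ + ℓ := by ring
  · calc _ ≤ _ := hp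
      _ = 1 + a₀ + ℓ := by ring

include hΔ hf in
/-- **EC-Frob over `𝔽_ℓ`, final form**: from the output of EC-T (verbatim shape of board #1882 (4)),
the Frobenius `φ` of `W₀⁄κ` satisfies `φ² - a_ℓ φ + ℓ = 0` with `a_ℓ = W₀.traceOfFrobenius`
(prelude: `ℓ + 1 - #W₀(𝔽_ℓ)`), and `a_ℓ² < 4 ℓ`. -/
theorem frob_relation_of_exists_a0
    (h : ∃ a0 : ℤ, a0 ^ 2 < 4 * ℓ ∧
      (∀ P : (EK W₀ κ).Point,
        frobPt W₀ f (frobPt W₀ f P) - a0 • frobPt W₀ f P + (ℓ : ℤ) • P = 0) ∧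
      ∀ r s : ℤ, (r, s) ≠ (0, 0) →
        Finite ↥(AddMonoidHom.ker (r • AddMonoidHom.id (EK W₀ κ).Point + s • frobPt W₀ f)) ∧
        (Nat.card ↥(AddMonoidHom.ker (r • AddMonoidHom.id (EK W₀ κ).Point + s • frobPt W₀ f)) : ℤ) ≤
          r ^ 2 + r * s * a0 + s ^ 2 * ℓ) :
    W₀.traceOfFrobenius ^ 2 < 4 * ℓ ∧
      ∀ P : (EK W₀ κ).Point,
        frobPt W₀ f (frobPt W₀ f P) - W₀.traceOfFrobenius • frobPt W₀ f P + (ℓ : ℤ) • P = 0 := by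
  obtain ⟨a0, h1, h2, h3⟩ := h
  have e : a0 = W₀.traceOfFrobenius :=
    a0_eq_traceOfFrobenius_of_bound W₀ f hΔ hf a0 (fun r s hrs => (h3 r s hrs).2)
  rw [← e]
  exact ⟨h1, h2⟩

include hΔ hf in
/-- Hasse: `#W₀(𝔽_ℓ)` lies strictly between `ℓ + 1 - 2√ℓ` and `ℓ + 1 + 2√ℓ`; in particular
`(ℓ + 1 - #W₀(𝔽_ℓ))² < 4 ℓ`. Same hypothesis as `frob_relation_of_exists_a0`. -/
theorem hasse_of_exists_a0
    (h : ∃ a0 : ℤ, a0 ^ 2 < 4 * ℓ ∧
      ∀ r s : ℤ, (r, s) ≠ (0, 0) →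
        (Nat.card ↥(AddMonoidHom.ker (r • AddMonoidHom.id (EK W₀ κ).Point + s • frobPt W₀ f)) : ℤ) ≤
          r ^ 2 + r * s * a0 + s ^ 2 * ℓ) :
    ((ℓ : ℤ) + 1 - (Nat.card W₀.toAffine.Point : ℤ)) ^ 2 < 4 * ℓ := by
  obtain ⟨a0, h1, h3⟩ := h
  have e : a0 = W₀.traceOfFrobenius := a0_eq_traceOfFrobenius_of_bound W₀ f hΔ hf a0 h3
  rw [e, WeierstrassCurve.traceOfFrobenius, WeierstrassCurve.card, Nat.card_zmod] at h1
  exact h1

end Fermat.Agent.S58.EC.CountAdapter
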