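/-
S58 / EC-Frob, block [EC-L] (row 46, section 2 (L)): the linear algebra step, in elementary form.

`G` an additive commutative group, `φ : G →+ G`, integers `a₀ l` with
 (I)  `φ (φ x) - a₀ • φ x + l • x = 0` for all `x`,
 (KB) every finite set of solutions of `n • x + φ x = 0` has at most `n ^ 2 + n * a₀ + l` elements.
If `e₁ e₂` are `p ^ K`-torsion, independent modulo `p ^ K`, and `φ` is given on them by the integer
matrix `(a b; c d)`, then `a + d ≡ a₀` and `a * d - b * c ≡ l` modulo `p ^ k` as soon as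
`k + k₀ ≤ K` and `4 * l < 3 * p ^ (2 * k₀)`.

Also: an independent pair exists as soon as the `p ^ K`-torsion has `p ^ (2 * K)` elements and the
`p ^ (K - 1)`-torsion has `p ^ (2 * (K - 1))` elements, and then it spans the `p ^ K`-torsion.

Imports Mathlib only.
-/
import Mathlib

set_option autoImplicit false

namespace Fermat.Agent.S58.EC.FrobLinear

section Arith

/-- `p ^ (m + n) ∣ x * y` and `¬ p ^ n ∣ y` force `p ^ m ∣ x`. -/
theorem pow_dvd_of_pow_add_dvd_mul {p : ℤ} (hp : Prime p) :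
    ∀ (n m : ℕ) (x y : ℤ), p ^ (m + n) ∣ x * y → ¬ p ^ n ∣ y → p ^ m ∣ x := by
  intro n
  induction n with
  | zero =>
    intro m x y _ h
    exact absurd (by simp) h
  | succ n ih =>
    intro m x y h hy
    by_cases hpy : p ∣ y
    · obtain ⟨y', rfl⟩ := hpy
      have h1 : p ^ (m + n) ∣ x * y' := by
        have h2 : p ^ (m + n) * p ∣ (x * y') * p := by
          have e : x * (p * y') = (x * y') * p := by ring
          rw [← e, ← pow_succ]
          exact h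
        exact (mul_dvd_mul_iff_right hp.ne_zero).mp h2
      have h2 : ¬ p ^ n ∣ y' := fun hh => hy (by
        rw [pow_succ']
        exact mul_dvd_mul_left p hh)
      exact ih m x y' h1 h2
    · have h3 := hp.pow_dvd_of_dvd_mul_right (m + (n + 1)) hpy h
      exact (pow_dvd_pow p (by omega)).trans h3

/-- A balanced representative: some `z + 2 * P * j` has absolute value at most `P`. -/
theorem exists_balanced (z : ℤ) {P : ℤ} (hP : 0 < P) : ∃ j : ℤ, |z + 2 * P * j| ≤ P := by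
  refine ⟨-((z + P) / (2 * P)), ?_⟩
  have h1 := Int.emod_add_mul_ediv (z + P) (2 * P)
  have h2 := Int.emod_nonneg (z + P) (by omega : 2 * P ≠ 0)
  have h3 := Int.emod_lt_of_pos (z + P) (by omega : 0 < 2 * P)
  rw [abs_le]
  constructor <;> linarith

end Arith

variable {G : Type*} [AddCommGroup G]

/-- `e₁, e₂` are `N`-torsion and independent modulo `N`. -/
def IsIndepPair (N : ℕ) (e₁ e₂ : G) : Prop :=
  N • e₁ = 0 ∧ N • e₂ = 0 ∧
    ∀ a b : ℤ, a • e₁ + b • e₂ = 0 → (N : ℤ) ∣ a ∧ (N : ℤ) ∣ b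

theorem zsmul_eq_zero_of_dvd {N : ℕ} {e : G} (he : N • e = 0) {m : ℤ} (hm : (N : ℤ) ∣ m) :
    m • e = 0 := by
  obtain ⟨m', rfl⟩ := hm
  rw [mul_comm, mul_smul, natCast_zsmul, he, smul_zero]

/-- The finite set `{(i * Q) • e₁ + (j * Q) • e₂ : i, j < P}`. -/
noncomputable def gridFinset [DecidableEq G] (P : ℕ) (Q : ℤ) (e₁ e₂ : G) : Finset G :=
  ((Finset.range P) ×ˢ (Finset.range P)).image
    (fun ij : ℕ × ℕ => (((ij.1 : ℤ) * Q) • e₁ + ((ij.2 : ℤ) * Q) • e₂ : G))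

theorem card_gridFinset [DecidableEq G] {P N : ℕ} {Q : ℤ} {e₁ e₂ : G}
    (he : IsIndepPair N e₁ e₂) (hPQ : (P : ℤ) * Q = N) (hQ : Q ≠ 0) :
    (gridFinset P Q e₁ e₂).card = P ^ 2 := by
  obtain ⟨-, -, hind⟩ := he
  unfold gridFinset
  rw [Finset.card_image_of_injOn, Finset.card_product, Finset.card_range, sq]
  rintro ⟨i, j⟩ hij ⟨i', j'⟩ hij' h
  simp only [Finset.coe_product, Finset.coe_range, Set.mem_prod, Set.mem_Iio] at hij hij'
  simp only at h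
  have h0 : ((((i : ℤ) - i') * Q) • e₁ + (((j : ℤ) - j') * Q) • e₂ : G) = 0 := by
    have : ((((i : ℤ) - i') * Q) • e₁ + (((j : ℤ) - j') * Q) • e₂ : G)
        = (((i : ℤ) * Q) • e₁ + ((j : ℤ) * Q) • e₂) - (((i' : ℤ) * Q) • e₁ + ((j' : ℤ) * Q) • e₂) := by
      module
    rw [this, h, sub_self]
  obtain ⟨h1, h2⟩ := hind _ _ h0
  rw [← hPQ] at h1 h2
  have h1' : (P : ℤ) ∣ (i : ℤ) - i' := (mul_dvd_mul_iff_right hQ).mp h1
  have h2' : (P : ℤ) ∣ (j : ℤ) - j' := (mul_dvd_mul_iff_right hQ).mp h2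
  have e1 : (i : ℤ) = i' := by
    have := Int.eq_zero_of_abs_lt_dvd h1' (by rw [abs_lt]; constructor <;> omega)
    omega
  have e2 : (j : ℤ) = j' := by
    have := Int.eq_zero_of_abs_lt_dvd h2' (by rw [abs_lt]; constructor <;> omega)
    omega
  rw [Prod.mk.injEq]
  exact ⟨by exact_mod_cast e1, by exact_mod_cast e2⟩

/-- **[EC-L], elementary core.** -/
theorem trace_det_congr {p : ℕ} (hp : p.Prime) {K k k₀ : ℕ} (hK : k + k₀ ≤ K)
    (φ : G →+ G) (a₀ l : ℤ)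
    (hI : ∀ x : G, φ (φ x) - a₀ • φ x + l • x = 0)
    (hKB : ∀ n : ℤ, ∀ S : Finset G, (∀ x ∈ S, n • x + φ x = 0) →
      (S.card : ℤ) ≤ n ^ 2 + n * a₀ + l)
    (hk₀ : 4 * l < 3 * (p : ℤ) ^ (2 * k₀))
    {e₁ e₂ : G} (he : IsIndepPair (p ^ K) e₁ e₂)
    {a b c d : ℤ} (h₁ : φ e₁ = a • e₁ + c • e₂) (h₂ : φ e₂ = b • e₁ + d • e₂) :
    ((p : ℤ) ^ k ∣ a + d - a₀) ∧ ((p : ℤ) ^ k ∣ a * d - b * c - l) := by
  classical
  have hpZ : Prime (p : ℤ) := Nat.prime_iff_prime_int.mp hp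
  have he' := he
  obtain ⟨ht₁, ht₂, hind⟩ := he
  have hI₁ := hI e₁
  have hI₂ := hI e₂
  rw [h₁, map_add, map_zsmul, map_zsmul, h₁, h₂] at hI₁
  rw [h₂, map_add, map_zsmul, map_zsmul, h₁, h₂] at hI₂
  have E₁ : (a * (a + d - a₀) - (a * d - b * c - l)) • e₁ + (c * (a + d - a₀)) • e₂ = 0 := by
    rw [← hI₁]; module
  have E₂ : (b * (a + d - a₀)) • e₁ + (d * (a + d - a₀) - (a * d - b * c - l)) • e₂ = 0 := by
    rw [← hI₂]; module
  obtain ⟨D₁, D₂⟩ := hind _ _ E₁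
  obtain ⟨D₃, D₄⟩ := hind _ _ E₂
  push_cast at D₁ D₂ D₃ D₄
  set τ : ℤ := a + d - a₀ with hτ
  set δ : ℤ := a * d - b * c - l with hδ
  have hkK : (p : ℤ) ^ k ∣ (p : ℤ) ^ K := pow_dvd_pow _ (by omega)
  by_cases hcase : (p : ℤ) ^ k ∣ τ
  · refine ⟨hcase, ?_⟩
    have h3 : (p : ℤ) ^ k ∣ a * τ - (a * τ - δ) :=
      dvd_sub (Dvd.dvd.mul_left hcase a) (hkK.trans D₁)
    simpa using h3
  · exfalso
    have hKk : K = (K - k) + k := by omega
    have hk₀K : (p : ℤ) ^ k₀ ∣ (p : ℤ) ^ (K - k) := pow_dvd_pow _ (by omega)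
    have hb : (p : ℤ) ^ k₀ ∣ b := by
      rw [hKk] at D₃
      exact hk₀K.trans (pow_dvd_of_pow_add_dvd_mul hpZ k (K - k) b τ D₃ hcase)
    have hc : (p : ℤ) ^ k₀ ∣ c := by
      rw [hKk] at D₂
      exact hk₀K.trans (pow_dvd_of_pow_add_dvd_mul hpZ k (K - k) c τ D₂ hcase)
    have hda : (p : ℤ) ^ k₀ ∣ d - a := by
      have h4 : (p : ℤ) ^ K ∣ (d - a) * τ := by
        have := dvd_sub D₄ D₁
        have e : d * τ - δ - (a * τ - δ) = (d - a) * τ := by ring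
        rwa [e] at this
      rw [hKk] at h4
      exact hk₀K.trans (pow_dvd_of_pow_add_dvd_mul hpZ k (K - k) (d - a) τ h4 hcase)
    -- the balanced integer
    have hPpos : (0 : ℤ) < (p : ℤ) ^ k₀ := pow_pos (by exact_mod_cast hp.pos) _
    obtain ⟨j₀, hj₀⟩ := exists_balanced (a₀ - 2 * a) hPpos
    set P : ℤ := (p : ℤ) ^ k₀ with hP
    set n : ℤ := -a + P * j₀ with hn
    set Q : ℤ := (p : ℤ) ^ (K - k₀) with hQ
    have hPQ : P * Q = (p : ℤ) ^ K := by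
      rw [hP, hQ, ← pow_add]; congr 1; omega
    have hQ0 : Q ≠ 0 := pow_ne_zero _ (by exact_mod_cast hp.ne_zero)
    have hcard := card_gridFinset (P := p ^ k₀) (N := p ^ K) (Q := Q) he'
      (by push_cast; exact hPQ) hQ0
    have hS : ∀ x ∈ gridFinset (p ^ k₀) Q e₁ e₂, n • x + φ x = 0 := by
      intro x hx
      unfold gridFinset at hx
      rw [Finset.mem_image] at hx
      obtain ⟨⟨i, j⟩, -, rfl⟩ := hx
      simp only
      rw [map_add, map_zsmul, map_zsmul, h₁, h₂]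
      obtain ⟨b', rfl⟩ := hb
      obtain ⟨c', rfl⟩ := hc
      obtain ⟨u, hu⟩ := hda
      have hd : d = a + P * u := by rw [hP]; linarith
      have e : n • (((i : ℤ) * Q) • e₁ + ((j : ℤ) * Q) • e₂) +
          (((i : ℤ) * Q) • (a • e₁ + (P * c') • e₂) + ((j : ℤ) * Q) • ((P * b') • e₁ + d • e₂))
          = (((P * Q) * (i * j₀ + j * b')) • e₁ + ((P * Q) * (j * j₀ + i * c' + j * u)) • e₂ : G) := by
        rw [hn, hd]; module
      rw [e, hPQ]
      rw [zsmul_eq_zero_of_dvd ht₁ (by push_cast; exact dvd_mul_right _ _),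
        zsmul_eq_zero_of_dvd ht₂ (by push_cast; exact dvd_mul_right _ _), add_zero]
    have hle := hKB n _ hS
    rw [hcard] at hle
    push_cast at hle
    rw [← hP] at hle
    have hz : (a₀ - 2 * a + 2 * P * j₀) ^ 2 ≤ P ^ 2 := by
      rw [abs_le] at hj₀
      nlinarith [hj₀.1, hj₀.2]
    have h2k : (p : ℤ) ^ (2 * k₀) = P ^ 2 := by rw [hP, ← pow_mul, mul_comm]
    rw [h2k] at hk₀
    have h4 : 4 * (n ^ 2 + n * a₀ + l) = (a₀ - 2 * a + 2 * P * j₀) ^ 2 - a₀ ^ 2 + 4 * l := by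
      rw [hn]; ring
    nlinarith [sq_nonneg a₀]

section Structure

theorem pow_zsmul_eq_nsmul (p m : ℕ) (x : G) : ((p : ℤ) ^ m) • x = (p ^ m) • x := by
  rw [← natCast_zsmul]; push_cast; rfl

/-- `F_p`-independence of two elements of the `p`-torsion, the second one not a multiple of the
first one. -/
theorem prime_dvd_of_smul_add_smul_eq_zero {p : ℕ} (hp : p.Prime) {f₁ f₂ : G}
    (hp₁ : p • f₁ = 0) (hp₂ : p • f₂ = 0) (hf₁ : f₁ ≠ 0) (hf₂ : ∀ i : ℤ, f₂ ≠ i • f₁)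
    {a b : ℤ} (h : a • f₁ + b • f₂ = 0) : (p : ℤ) ∣ a ∧ (p : ℤ) ∣ b := by
  have hpZ : Prime (p : ℤ) := Nat.prime_iff_prime_int.mp hp
  have key : ∀ {f : G}, p • f = 0 → ∀ {m : ℤ}, ¬ (p : ℤ) ∣ m → ∃ v : ℤ, f = v • (m • f) := by
    intro f hf m hm
    have hcop : IsCoprime (p : ℤ) m := (hpZ.irreducible.coprime_iff_not_dvd).mpr hm
    obtain ⟨u, v, huv⟩ := hcop
    refine ⟨v, ?_⟩
    calc f = (1 : ℤ) • f := (one_smul _ _).symm
      _ = (u * p + v * m) • f := by rw [huv]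
      _ = u • ((p : ℤ) • f) + v • (m • f) := by rw [add_smul, mul_smul, mul_smul]
      _ = v • (m • f) := by rw [natCast_zsmul, hf, smul_zero, zero_add]
  have hb : (p : ℤ) ∣ b := by
    by_contra hb
    obtain ⟨v, hv⟩ := key hp₂ hb
    have e : b • f₂ = (-a) • f₁ := by
      rw [neg_smul]; exact eq_neg_of_add_eq_zero_right h
    rw [e, smul_smul] at hv
    exact hf₂ _ hv
  have hb0 : b • f₂ = 0 := zsmul_eq_zero_of_dvd hp₂ hb
  rw [hb0, add_zero] at h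
  refine ⟨?_, hb⟩
  by_contra ha
  obtain ⟨v, hv⟩ := key hp₁ ha
  rw [h, smul_zero] at hv
  exact hf₁ hv

/-- **Structure step.** If the `p ^ K`-torsion has `p ^ (2 * K)` elements and the `p ^ (K - 1)`-torsion
has `p ^ (2 * (K - 1))` elements, there is a pair of `p ^ K`-torsion elements independent modulo
`p ^ K`. -/
theorem exists_indepPair_of_finset [DecidableEq G] {p : ℕ} (hp : p.Prime) {K : ℕ} (hK : 0 < K)
    {T T' : Finset G} (hT : ∀ x, x ∈ T ↔ (p ^ K) • x = 0)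
    (hT' : ∀ x, x ∈ T' ↔ (p ^ (K - 1)) • x = 0)
    (hc : T.card = p ^ (2 * K)) (hc' : T'.card = p ^ (2 * (K - 1))) :
    ∃ e₁ e₂ : G, IsIndepPair (p ^ K) e₁ e₂ := by
  have hlt : T'.card < T.card := by
    rw [hc, hc']; exact Nat.pow_lt_pow_right hp.one_lt (by omega)
  obtain ⟨e₁, he₁T, he₁T'⟩ := Finset.exists_mem_notMem_of_card_lt_card hlt
  set U : Finset G :=
    (Finset.range p).biUnion (fun i => T'.image (fun y => (i : ℤ) • e₁ + y)) with hU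
  have hUc : U.card < T.card := by
    calc U.card ≤ ∑ i ∈ Finset.range p, (T'.image (fun y => (i : ℤ) • e₁ + y)).card :=
          Finset.card_biUnion_le
      _ ≤ ∑ _i ∈ Finset.range p, T'.card := Finset.sum_le_sum (fun i _ => Finset.card_image_le)
      _ = p * p ^ (2 * (K - 1)) := by rw [Finset.sum_const, Finset.card_range, hc', smul_eq_mul]
      _ = p ^ (2 * (K - 1) + 1) := by rw [pow_succ, mul_comm]
      _ < p ^ (2 * K) := Nat.pow_lt_pow_right hp.one_lt (by omega)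
      _ = T.card := hc.symm
  obtain ⟨e₂, he₂T, he₂U⟩ := Finset.exists_mem_notMem_of_card_lt_card hUc
  have ht₁ := (hT e₁).mp he₁T
  have ht₂ := (hT e₂).mp he₂T
  have hpK : (p : ℤ) * (p : ℤ) ^ (K - 1) = (p : ℤ) ^ K := by
    rw [← pow_succ']; congr 1; omega
  have hp₁ : p • (((p : ℤ) ^ (K - 1)) • e₁) = 0 := by
    rw [← natCast_zsmul, smul_smul, hpK, pow_zsmul_eq_nsmul]; exact ht₁
  have hp₂ : p • (((p : ℤ) ^ (K - 1)) • e₂) = 0 := by
    rw [← natCast_zsmul, smul_smul, hpK, pow_zsmul_eq_nsmul]; exact ht₂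
  have hf₁ : ((p : ℤ) ^ (K - 1)) • e₁ ≠ 0 := fun h =>
    he₁T' ((hT' e₁).mpr (by rw [← pow_zsmul_eq_nsmul]; exact h))
  have hf₂ : ∀ i : ℤ, ((p : ℤ) ^ (K - 1)) • e₂ ≠ i • (((p : ℤ) ^ (K - 1)) • e₁) := by
    intro i h
    apply he₂U
    rw [hU, Finset.mem_biUnion]
    have hpos : (0 : ℤ) < p := by exact_mod_cast hp.pos
    have hnn := Int.emod_nonneg i hpos.ne'
    have hlt' := Int.emod_lt_of_pos i hpos
    refine ⟨(i % p).toNat, ?_, ?_⟩
    · rw [Finset.mem_range]; omega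
    · rw [Finset.mem_image]
      refine ⟨e₂ - (i % p) • e₁, ?_, ?_⟩
      · rw [hT', ← pow_zsmul_eq_nsmul]
        have hi : i % p = i - p * (i / p) := by
          have := Int.emod_add_mul_ediv i p; linarith
        have e : ((p : ℤ) ^ (K - 1)) • (e₂ - (i % p) • e₁)
            = ((p : ℤ) ^ (K - 1)) • e₂ - i • (((p : ℤ) ^ (K - 1)) • e₁)
              + (i / p) • ((p : ℤ) • (((p : ℤ) ^ (K - 1)) • e₁)) := by
          rw [hi]; module
        rw [e, natCast_zsmul, hp₁, smul_zero, add_zero, h, sub_self]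
      · rw [Int.toNat_of_nonneg hnn]; abel
  have hFp : ∀ a b : ℤ, a • (((p : ℤ) ^ (K - 1)) • e₁) + b • (((p : ℤ) ^ (K - 1)) • e₂) = 0 →
      (p : ℤ) ∣ a ∧ (p : ℤ) ∣ b := fun a b h =>
    prime_dvd_of_smul_add_smul_eq_zero hp hp₁ hp₂ hf₁ hf₂ h
  have hmain : ∀ j : ℕ, j ≤ K → ∀ a b : ℤ, a • e₁ + b • e₂ = 0 →
      ((p : ℤ) ^ j ∣ a ∧ (p : ℤ) ^ j ∣ b) := by
    intro j
    induction j with
    | zero => intro _ a b _; simp
    | succ j ih =>
      intro hj a b hab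
      obtain ⟨⟨a', rfl⟩, ⟨b', rfl⟩⟩ := ih (by omega) a b hab
      have e : (p : ℤ) ^ (K - 1 - j) * (p : ℤ) ^ j = (p : ℤ) ^ (K - 1) := by
        rw [← pow_add]; congr 1; omega
      have h1 : a' • (((p : ℤ) ^ (K - 1)) • e₁) + b' • (((p : ℤ) ^ (K - 1)) • e₂) = 0 := by
        have h2 : ((p : ℤ) ^ (K - 1 - j)) • (((p : ℤ) ^ j * a') • e₁ + ((p : ℤ) ^ j * b') • e₂)
            = 0 := by rw [hab, smul_zero]
        rw [← h2, ← e]; module
      obtain ⟨⟨a'', rfl⟩, ⟨b'', rfl⟩⟩ := hFp a' b' h1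
      rw [pow_succ]
      exact ⟨⟨a'', by ring⟩, ⟨b'', by ring⟩⟩
  refine ⟨e₁, e₂, ht₁, ht₂, fun a b hab => ?_⟩
  have := hmain K le_rfl a b hab
  push_cast
  exact this

/-- An independent pair spans the `N`-torsion as soon as the latter has `N ^ 2` elements. -/
theorem span_of_indepPair_of_finset [DecidableEq G] {N : ℕ} {e₁ e₂ : G}
    (he : IsIndepPair N e₁ e₂) {T : Finset G} (hT : ∀ x, x ∈ T ↔ N • x = 0)
    (hc : T.card = N ^ 2) {x : G} (hx : N • x = 0) :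
    ∃ a b : ℤ, x = a • e₁ + b • e₂ := by
  have hcard := card_gridFinset (P := N) (N := N) (Q := 1) he (by simp) one_ne_zero
  have hsub : gridFinset N 1 e₁ e₂ ⊆ T := by
    intro y hy
    unfold gridFinset at hy
    rw [Finset.mem_image] at hy
    obtain ⟨⟨i, j⟩, -, rfl⟩ := hy
    rw [hT]
    simp only
    rw [smul_add, smul_comm, he.1, smul_zero, smul_comm, he.2.1, smul_zero, add_zero]
  have heq : gridFinset N 1 e₁ e₂ = T :=
    Finset.eq_of_subset_of_card_le hsub (by rw [hc, hcard])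
  have hxT : x ∈ gridFinset N 1 e₁ e₂ := by rw [heq, hT]; exact hx
  unfold gridFinset at hxT
  rw [Finset.mem_image] at hxT
  obtain ⟨⟨i, j⟩, -, rfl⟩ := hxT
  exact ⟨(i : ℤ) * 1, (j : ℤ) * 1, rfl⟩

end Structure

section Descent

/-- `Q • e₁, Q • e₂` is an independent pair modulo `P` when `P * Q = N`. -/
theorem IsIndepPair.nsmul {N P Q : ℕ} (hPQ : P * Q = N) (hQ : 0 < Q) {e₁ e₂ : G}
    (he : IsIndepPair N e₁ e₂) : IsIndepPair P (Q • e₁) (Q • e₂) := by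
  obtain ⟨h1, h2, hind⟩ := he
  refine ⟨by rw [smul_smul, hPQ, h1], by rw [smul_smul, hPQ, h2], fun a b hab => ?_⟩
  have h0 : (a * Q) • e₁ + (b * Q) • e₂ = 0 := by
    rw [← hab, ← natCast_zsmul e₁, ← natCast_zsmul e₂]; module
  obtain ⟨d1, d2⟩ := hind _ _ h0
  have hQ' : (Q : ℤ) ≠ 0 := by exact_mod_cast hQ.ne'
  rw [← hPQ] at d1 d2
  push_cast at d1 d2
  exact ⟨(mul_dvd_mul_iff_right hQ').mp d1, (mul_dvd_mul_iff_right hQ').mp d2⟩

theorem span_nsmul_of_span {N P Q : ℕ} (hPQ : P * Q = N) (hP : 0 < P) {e₁ e₂ : G}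
    (he : IsIndepPair N e₁ e₂)
    (hspan : ∀ x : G, N • x = 0 → ∃ a b : ℤ, x = a • e₁ + b • e₂) {x : G} (hx : P • x = 0) :
    ∃ a b : ℤ, x = a • (Q • e₁) + b • (Q • e₂) := by
  have hNx : N • x = 0 := by rw [← hPQ, mul_comm, mul_smul, hx, smul_zero]
  obtain ⟨a, b, rfl⟩ := hspan x hNx
  have h0 : ((P : ℤ) * a) • e₁ + ((P : ℤ) * b) • e₂ = 0 := by
    rw [← hx, ← natCast_zsmul (a • e₁ + b • e₂)]; module
  obtain ⟨d1, d2⟩ := he.2.2 _ _ h0
  have hP' : (P : ℤ) ≠ 0 := by exact_mod_cast hP.ne'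
  rw [← hPQ] at d1 d2
  push_cast at d1 d2
  obtain ⟨a', rfl⟩ := (mul_dvd_mul_iff_left hP').mp d1
  obtain ⟨b', rfl⟩ := (mul_dvd_mul_iff_left hP').mp d2
  refine ⟨a', b', ?_⟩
  rw [← natCast_zsmul e₁, ← natCast_zsmul e₂]; module

end Descent

section Main

/-- **[EC-L], elementary form.** From (I), (KB) and the torsion counts: the `p ^ k`-torsion has a
basis `e₁, e₂` (independent modulo `p ^ k`, spanning) on which `φ` is given by an integer matrix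
of trace `≡ a₀` and determinant `≡ l` modulo `p ^ k`. -/
theorem exists_basis_trace_det {p : ℕ} (hp : p.Prime) (k : ℕ) (φ : G →+ G) (a₀ l : ℤ)
    (hI : ∀ x : G, φ (φ x) - a₀ • φ x + l • x = 0)
    (hKB : ∀ n : ℤ, ∀ S : Finset G, (∀ x ∈ S, n • x + φ x = 0) →
      (S.card : ℤ) ≤ n ^ 2 + n * a₀ + l)
    (hfin : ∀ j : ℕ, ∃ T : Finset G, (∀ x, x ∈ T ↔ (p ^ j) • x = 0) ∧ T.card = (p ^ j) ^ 2) :
    ∃ e₁ e₂ : G, IsIndepPair (p ^ k) e₁ e₂ ∧
      (∀ x : G, (p ^ k) • x = 0 → ∃ a b : ℤ, x = a • e₁ + b • e₂) ∧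
      ∃ a b c d : ℤ, φ e₁ = a • e₁ + c • e₂ ∧ φ e₂ = b • e₁ + d • e₂ ∧
        ((p : ℤ) ^ k ∣ a + d - a₀) ∧ ((p : ℤ) ^ k ∣ a * d - b * c - l) := by
  classical
  -- choice of `k₀`
  set k₀ : ℕ := 4 * l.natAbs + 1 with hk₀def
  have hk₀ : 4 * l < 3 * (p : ℤ) ^ (2 * k₀) := by
    have h1 : k₀ < p ^ k₀ := Nat.lt_pow_self hp.one_lt
    have h2 : p ^ k₀ ≤ p ^ (2 * k₀) := Nat.pow_le_pow_right hp.pos (by omega)
    have h3 : (k₀ : ℤ) < (p : ℤ) ^ (2 * k₀) := by exact_mod_cast lt_of_lt_of_le h1 h2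
    have h4 : l ≤ |l| := le_abs_self l
    have h5 : (k₀ : ℤ) = 4 * |l| + 1 := by
      rw [hk₀def]; push_cast; rfl
    have h6 : (0 : ℤ) ≤ (p : ℤ) ^ (2 * k₀) := by positivity
    linarith
  set K : ℕ := k + k₀ + 1 with hKdef
  obtain ⟨T, hT, hTc⟩ := hfin K
  obtain ⟨T', hT', hTc'⟩ := hfin (K - 1)
  rw [← pow_mul, mul_comm] at hTc hTc'
  obtain ⟨E₁, E₂, hE⟩ := exists_indepPair_of_finset hp (by omega : 0 < K) hT hT' hTc hTc'
  rw [← mul_comm, pow_mul] at hTc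
  have hspan : ∀ x : G, (p ^ K) • x = 0 → ∃ a b : ℤ, x = a • E₁ + b • E₂ := fun x hx =>
    span_of_indepPair_of_finset hE hT hTc hx
  have hφ₁ : (p ^ K) • φ E₁ = 0 := by rw [← map_nsmul, hE.1, map_zero]
  have hφ₂ : (p ^ K) • φ E₂ = 0 := by rw [← map_nsmul, hE.2.1, map_zero]
  obtain ⟨a, c, h₁⟩ := hspan _ hφ₁
  obtain ⟨b, d, h₂⟩ := hspan _ hφ₂
  obtain ⟨c1, c2⟩ := trace_det_congr hp (by omega : k + k₀ ≤ K) φ a₀ l hI hKB hk₀ hE h₁ h₂
  have hPQ : p ^ k * p ^ (K - k) = p ^ K := by rw [← pow_add]; congr 1; omega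
  have hQ : 0 < p ^ (K - k) := pow_pos hp.pos _
  refine ⟨p ^ (K - k) • E₁, p ^ (K - k) • E₂, hE.nsmul hPQ hQ,
    fun x hx => span_nsmul_of_span hPQ (pow_pos hp.pos _) hE hspan hx, a, b, c, d, ?_, ?_, c1, c2⟩
  · rw [map_nsmul, h₁, smul_add, smul_comm _ a, smul_comm _ c]
  · rw [map_nsmul, h₂, smul_add, smul_comm _ b, smul_comm _ d]

end Main

end Fermat.Agent.S58.EC.FrobLinear
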