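/-
S58 / EC-Frob, block [EC-L] (row 46, section 2 (L)): module form.

`G` an additive commutative group, `φ : G →+ G`, integers `a₀ l` with
 (I)  `φ (φ x) - a₀ • φ x + l • x = 0`,
 (KB) the kernel bound (either for finite sets of solutions of `n • x + φ x = 0`, or in the shape
      `Nat.card (r • id + s • φ).ker ≤ r ^ 2 + r * s * a₀ + s ^ 2 * l` of block EC-T),
 (N)  `Nat.card G[p ^ j] = p ^ (2 * j)` for all `j`.
Then for ANY `ZMod (p ^ k)`-module structure on `G[p ^ k] = Submodule.torsionBy ℤ G ↑(p ^ k)` and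
any linear endomorphism `f` of it which is `φ` on the underlying points:
 the characteristic polynomial of `f` is `X ^ 2 - a₀ X + l`, its trace is `a₀`, its determinant `l`
(also in matrix form with respect to any basis indexed by `Fin 2`).

Imports `FrobLinear` (elementary core) and helper4's `TorsionFree` (`tor`, `IsTorsionBasis`).
-/
import Fermat.Agent.S58.EC.FrobLinear
import Fermat.Agent.S58.EC.TorsionFree

set_option autoImplicit false

namespace Fermat.Agent.S58.EC.FrobCharpoly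

open Fermat.Agent.S58.EC.FrobLinear Fermat.Agent.S58.EC.TorsionFree
open Polynomial

variable {G : Type*} [AddCommGroup G]

/-- The `N`-torsion as a finset, from the count. -/
theorem exists_finset_of_card {N : ℕ} (hN : 0 < N) (h : Nat.card (tor G N) = N ^ 2) :
    ∃ T : Finset G, (∀ x, x ∈ T ↔ N • x = 0) ∧ T.card = N ^ 2 := by
  classical
  have : Finite (tor G N) := Nat.finite_of_card_ne_zero (by rw [h]; positivity)
  let _ : Fintype (tor G N) := Fintype.ofFinite _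
  refine ⟨(Finset.univ : Finset (tor G N)).map ⟨Subtype.val, Subtype.val_injective⟩, ?_, ?_⟩
  · intro x
    rw [Finset.mem_map]
    constructor
    · rintro ⟨y, -, rfl⟩
      have := mem_tor.mp y.2
      rwa [natCast_zsmul] at this
    · intro hx
      exact ⟨⟨x, mem_tor.mpr (by rwa [natCast_zsmul])⟩, Finset.mem_univ _, rfl⟩
  · rw [Finset.card_map, Finset.card_univ, ← Nat.card_eq_fintype_card, h]

/-- The kernel bound in the shape delivered by block EC-T implies the finset form. -/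
theorem kb_finset_of_ker (φ : G →+ G) (a₀ l : ℤ)
    (hker : ∀ r s : ℤ, (r, s) ≠ (0, 0) →
      Finite (r • AddMonoidHom.id G + s • φ).ker ∧
      (Nat.card (r • AddMonoidHom.id G + s • φ).ker : ℤ) ≤ r ^ 2 + r * s * a₀ + s ^ 2 * l) :
    ∀ n : ℤ, ∀ S : Finset G, (∀ x ∈ S, n • x + φ x = 0) →
      (S.card : ℤ) ≤ n ^ 2 + n * a₀ + l := by
  intro n S hS
  obtain ⟨hfin, hle⟩ := hker n 1 (by simp)
  have hsub : (S : Set G) ⊆ ((n • AddMonoidHom.id G + (1 : ℤ) • φ).ker : Set G) := by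
    intro x hx
    rw [SetLike.mem_coe, AddMonoidHom.mem_ker]
    simpa using hS x hx
  have h1 : S.card ≤ Nat.card (n • AddMonoidHom.id G + (1 : ℤ) • φ).ker := by
    have h2 := Set.ncard_le_ncard hsub (Set.toFinite _)
    rw [Set.ncard_coe_finset] at h2
    rwa [← Nat.card_coe_set_eq] at h2
  have h3 : (S.card : ℤ) ≤ (Nat.card (n • AddMonoidHom.id G + (1 : ℤ) • φ).ker : ℤ) := by
    exact_mod_cast h1
  calc (S.card : ℤ) ≤ _ := h3
    _ ≤ n ^ 2 + n * 1 * a₀ + 1 ^ 2 * l := hle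
    _ = n ^ 2 + n * a₀ + l := by ring

section Main

variable {p : ℕ} (k : ℕ) (φ : G →+ G) (a₀ l : ℤ)

/-- **[EC-L]**: a torsion basis of `G[p ^ k]` on which `φ` has an integer matrix with trace `≡ a₀` and
determinant `≡ l` modulo `p ^ k` (helper4's `IsTorsionBasis` vocabulary). -/
theorem exists_isTorsionBasis_trace_det (hp : p.Prime)
    (hI : ∀ x : G, φ (φ x) - a₀ • φ x + l • x = 0)
    (hKB : ∀ n : ℤ, ∀ S : Finset G, (∀ x ∈ S, n • x + φ x = 0) →
      (S.card : ℤ) ≤ n ^ 2 + n * a₀ + l)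
    (hcard : ∀ j : ℕ, Nat.card (tor G (p ^ j)) = p ^ (2 * j)) :
    ∃ e₁ e₂ : G, IsTorsionBasis (p ^ k) e₁ e₂ ∧
      ∃ a b c d : ℤ, φ e₁ = a • e₁ + c • e₂ ∧ φ e₂ = b • e₁ + d • e₂ ∧
        ((p : ℤ) ^ k ∣ a + d - a₀) ∧ ((p : ℤ) ^ k ∣ a * d - b * c - l) := by
  have hfin : ∀ j : ℕ, ∃ T : Finset G, (∀ x, x ∈ T ↔ (p ^ j) • x = 0) ∧ T.card = (p ^ j) ^ 2 :=
    fun j => exists_finset_of_card (pow_pos hp.pos j) (by rw [hcard j, ← pow_mul, mul_comm])
  obtain ⟨e₁, e₂, hind, hspan, a, b, c, d, h₁, h₂, ht, hd⟩ :=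
    exists_basis_trace_det hp k φ a₀ l hI hKB hfin
  refine ⟨e₁, e₂, ⟨?_, ?_, hind.2.2, fun T hT => hspan T ?_⟩, a, b, c, d, h₁, h₂, ht, hd⟩
  · rw [natCast_zsmul]; exact hind.1
  · rw [natCast_zsmul]; exact hind.2.1
  · rwa [natCast_zsmul] at hT

variable [Module (ZMod (p ^ k)) (tor G (p ^ k))]

/-- The matrix of `f` in the basis attached to a torsion basis. -/
theorem toMatrix_basis_eq {e₁ e₂ : G} (hB : IsTorsionBasis (p ^ k) e₁ e₂)
    (f : tor G (p ^ k) →ₗ[ZMod (p ^ k)] tor G (p ^ k))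
    (hf : ∀ x : tor G (p ^ k), ((f x : tor G (p ^ k)) : G) = φ (x : G))
    {a b c d : ℤ} (h₁ : φ e₁ = a • e₁ + c • e₂) (h₂ : φ e₂ = b • e₁ + d • e₂) :
    LinearMap.toMatrix hB.basis hB.basis f =
      !![((a : ℤ) : ZMod (p ^ k)), ((b : ℤ) : ZMod (p ^ k));
         ((c : ℤ) : ZMod (p ^ k)), ((d : ℤ) : ZMod (p ^ k))] := by
  have hfe : f = Matrix.toLin hB.basis hB.basis
      !![((a : ℤ) : ZMod (p ^ k)), ((b : ℤ) : ZMod (p ^ k));
         ((c : ℤ) : ZMod (p ^ k)), ((d : ℤ) : ZMod (p ^ k))] := by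
    refine hB.basis.ext fun i => ?_
    rw [Matrix.toLin_self, Fin.sum_univ_two]
    apply Subtype.ext
    rw [hf]
    fin_cases i
    · simp only [Fin.zero_eta, Fin.isValue, Matrix.of_apply, Matrix.cons_val', Matrix.cons_val_zero,
        Matrix.cons_val_fin_one, Matrix.cons_val_one]
      rw [Submodule.coe_add, Int.cast_smul_eq_zsmul, Int.cast_smul_eq_zsmul,
        Submodule.coe_smul, Submodule.coe_smul, hB.basis_zero, hB.basis_one, h₁]
    · simp only [Fin.mk_one, Fin.isValue, Matrix.of_apply, Matrix.cons_val', Matrix.cons_val_one,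
        Matrix.cons_val_fin_one, Matrix.cons_val_zero]
      rw [Submodule.coe_add, Int.cast_smul_eq_zsmul, Int.cast_smul_eq_zsmul,
        Submodule.coe_smul, Submodule.coe_smul, hB.basis_zero, hB.basis_one, h₂]
  conv_lhs => rw [hfe]
  rw [LinearMap.toMatrix_toLin]

end Main

section Charpoly

variable {p : ℕ} (k : ℕ) (φ : G →+ G) (a₀ l : ℤ)
  [Module (ZMod (p ^ k)) (tor G (p ^ k))]

/-- **[EC-L], matrix form with respect to a distinguished basis.** -/
theorem exists_basis_toMatrix (hp : p.Prime)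
    (hI : ∀ x : G, φ (φ x) - a₀ • φ x + l • x = 0)
    (hKB : ∀ n : ℤ, ∀ S : Finset G, (∀ x ∈ S, n • x + φ x = 0) →
      (S.card : ℤ) ≤ n ^ 2 + n * a₀ + l)
    (hcard : ∀ j : ℕ, Nat.card (tor G (p ^ j)) = p ^ (2 * j))
    (f : tor G (p ^ k) →ₗ[ZMod (p ^ k)] tor G (p ^ k))
    (hf : ∀ x : tor G (p ^ k), ((f x : tor G (p ^ k)) : G) = φ (x : G)) :
    ∃ B : Module.Basis (Fin 2) (ZMod (p ^ k)) (tor G (p ^ k)),
      (LinearMap.toMatrix B B f).trace = ((a₀ : ℤ) : ZMod (p ^ k)) ∧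
      (LinearMap.toMatrix B B f).det = ((l : ℤ) : ZMod (p ^ k)) := by
  obtain ⟨e₁, e₂, hB, a, b, c, d, h₁, h₂, ht, hd⟩ :=
    exists_isTorsionBasis_trace_det k φ a₀ l hp hI hKB hcard
  refine ⟨hB.basis, ?_, ?_⟩
  · rw [toMatrix_basis_eq k φ hB f hf h₁ h₂, Matrix.trace_fin_two_of]
    have h3 : ((a + d - a₀ : ℤ) : ZMod (p ^ k)) = 0 := by
      rw [ZMod.intCast_zmod_eq_zero_iff_dvd]; push_cast; exact ht
    push_cast at h3
    linear_combination h3
  · rw [toMatrix_basis_eq k φ hB f hf h₁ h₂, Matrix.det_fin_two_of]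
    have h3 : ((a * d - b * c - l : ℤ) : ZMod (p ^ k)) = 0 := by
      rw [ZMod.intCast_zmod_eq_zero_iff_dvd]; push_cast; exact hd
    push_cast at h3
    linear_combination h3

/-- **[EC-L], characteristic polynomial.** For any `ZMod (p ^ k)`-module structure on `G[p ^ k]` and
any linear endomorphism `f` inducing `φ` on points: `charpoly f = X ^ 2 - a₀ X + l`. -/
theorem charpoly_eq (hp : p.Prime)
    (hI : ∀ x : G, φ (φ x) - a₀ • φ x + l • x = 0)
    (hKB : ∀ n : ℤ, ∀ S : Finset G, (∀ x ∈ S, n • x + φ x = 0) →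
      (S.card : ℤ) ≤ n ^ 2 + n * a₀ + l)
    (hcard : ∀ j : ℕ, Nat.card (tor G (p ^ j)) = p ^ (2 * j))
    [Module.Free (ZMod (p ^ k)) (tor G (p ^ k))] [Module.Finite (ZMod (p ^ k)) (tor G (p ^ k))]
    (f : tor G (p ^ k) →ₗ[ZMod (p ^ k)] tor G (p ^ k))
    (hf : ∀ x : tor G (p ^ k), ((f x : tor G (p ^ k)) : G) = φ (x : G)) :
    f.charpoly = X ^ 2 - C ((a₀ : ℤ) : ZMod (p ^ k)) * X + C ((l : ℤ) : ZMod (p ^ k)) := by
  rcases subsingleton_or_nontrivial (ZMod (p ^ k)) with hs | hn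
  · have : Subsingleton (ZMod (p ^ k))[X] := Polynomial.subsingleton_iff_subsingleton.mpr hs
    exact Subsingleton.elim _ _
  · obtain ⟨B, hB1, hB2⟩ := exists_basis_toMatrix k φ a₀ l hp hI hKB hcard f hf
    rw [← LinearMap.charpoly_toMatrix f B, Matrix.charpoly_fin_two, hB1, hB2]

/-- **[EC-L], matrix form for ANY basis indexed by `Fin 2`.** -/
theorem charpoly_toMatrix_eq (hp : p.Prime)
    (hI : ∀ x : G, φ (φ x) - a₀ • φ x + l • x = 0)
    (hKB : ∀ n : ℤ, ∀ S : Finset G, (∀ x ∈ S, n • x + φ x = 0) →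
      (S.card : ℤ) ≤ n ^ 2 + n * a₀ + l)
    (hcard : ∀ j : ℕ, Nat.card (tor G (p ^ j)) = p ^ (2 * j))
    (B : Module.Basis (Fin 2) (ZMod (p ^ k)) (tor G (p ^ k)))
    (f : tor G (p ^ k) →ₗ[ZMod (p ^ k)] tor G (p ^ k))
    (hf : ∀ x : tor G (p ^ k), ((f x : tor G (p ^ k)) : G) = φ (x : G)) :
    (LinearMap.toMatrix B B f).charpoly
      = X ^ 2 - C ((a₀ : ℤ) : ZMod (p ^ k)) * X + C ((l : ℤ) : ZMod (p ^ k)) := by
  have : Module.Free (ZMod (p ^ k)) (tor G (p ^ k)) := Module.Free.of_basis B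
  have : Module.Finite (ZMod (p ^ k)) (tor G (p ^ k)) := Module.Finite.of_basis B
  rw [LinearMap.charpoly_toMatrix f B]
  exact charpoly_eq k φ a₀ l hp hI hKB hcard f hf

/-- **[EC-L], trace and determinant for ANY basis indexed by `Fin 2`.** -/
theorem trace_det_toMatrix_eq (hp : p.Prime)
    (hI : ∀ x : G, φ (φ x) - a₀ • φ x + l • x = 0)
    (hKB : ∀ n : ℤ, ∀ S : Finset G, (∀ x ∈ S, n • x + φ x = 0) →
      (S.card : ℤ) ≤ n ^ 2 + n * a₀ + l)
    (hcard : ∀ j : ℕ, Nat.card (tor G (p ^ j)) = p ^ (2 * j))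
    (B : Module.Basis (Fin 2) (ZMod (p ^ k)) (tor G (p ^ k)))
    (f : tor G (p ^ k) →ₗ[ZMod (p ^ k)] tor G (p ^ k))
    (hf : ∀ x : tor G (p ^ k), ((f x : tor G (p ^ k)) : G) = φ (x : G)) :
    (LinearMap.toMatrix B B f).trace = ((a₀ : ℤ) : ZMod (p ^ k)) ∧
      (LinearMap.toMatrix B B f).det = ((l : ℤ) : ZMod (p ^ k)) := by
  obtain ⟨B', hB1, hB2⟩ := exists_basis_toMatrix k φ a₀ l hp hI hKB hcard f hf
  constructor
  · rw [← LinearMap.trace_eq_matrix_trace (ZMod (p ^ k)) B f,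
      LinearMap.trace_eq_matrix_trace (ZMod (p ^ k)) B' f, hB1]
  · rw [LinearMap.det_toMatrix B f, ← LinearMap.det_toMatrix B' f, hB2]

/-- **[EC-L]**, `LinearMap.trace` / `LinearMap.det` form. -/
theorem linearMap_trace_det_eq (hp : p.Prime)
    (hI : ∀ x : G, φ (φ x) - a₀ • φ x + l • x = 0)
    (hKB : ∀ n : ℤ, ∀ S : Finset G, (∀ x ∈ S, n • x + φ x = 0) →
      (S.card : ℤ) ≤ n ^ 2 + n * a₀ + l)
    (hcard : ∀ j : ℕ, Nat.card (tor G (p ^ j)) = p ^ (2 * j))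
    (f : tor G (p ^ k) →ₗ[ZMod (p ^ k)] tor G (p ^ k))
    (hf : ∀ x : tor G (p ^ k), ((f x : tor G (p ^ k)) : G) = φ (x : G)) :
    LinearMap.trace (ZMod (p ^ k)) (tor G (p ^ k)) f = ((a₀ : ℤ) : ZMod (p ^ k)) ∧
      LinearMap.det f = ((l : ℤ) : ZMod (p ^ k)) := by
  obtain ⟨B', hB1, hB2⟩ := exists_basis_toMatrix k φ a₀ l hp hI hKB hcard f hf
  exact ⟨by rw [LinearMap.trace_eq_matrix_trace (ZMod (p ^ k)) B' f, hB1],
    by rw [← LinearMap.det_toMatrix B' f, hB2]⟩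

end Charpoly

section Restrict

/-- The additive endomorphism of the `N`-torsion induced by an additive endomorphism of `G`. -/
def torsionRestrict (φ : G →+ G) (N : ℕ) : tor G N →+ tor G N where
  toFun x := ⟨φ (x : G), mem_tor.mpr (by rw [← map_zsmul, mem_tor.mp x.2, map_zero])⟩
  map_zero' := Subtype.ext (map_zero φ)
  map_add' x y := Subtype.ext (map_add φ (x : G) (y : G))

@[simp] theorem coe_torsionRestrict (φ : G →+ G) (N : ℕ) (x : tor G N) :
    ((torsionRestrict φ N x : tor G N) : G) = φ (x : G) := rfl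

/-- The `ZMod N`-linear endomorphism of the `N`-torsion induced by `φ`, for any `ZMod N`-module
structure on the `N`-torsion. -/
def torsionLinear (φ : G →+ G) (N : ℕ) [Module (ZMod N) (tor G N)] :
    tor G N →ₗ[ZMod N] tor G N :=
  (torsionRestrict φ N).toZModLinearMap N

@[simp] theorem coe_torsionLinear (φ : G →+ G) (N : ℕ) [Module (ZMod N) (tor G N)] (x : tor G N) :
    ((torsionLinear φ N x : tor G N) : G) = φ (x : G) := rfl

end Restrict

section ECT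

variable {p : ℕ} (k : ℕ) (φ : G →+ G) (a₀ l : ℤ)
  [Module (ZMod (p ^ k)) (tor G (p ^ k))]

/-- **[EC-L]** with the hypotheses in the shape delivered by block EC-T (`exists_a0`), for the
canonical linear map `torsionLinear φ (p ^ k)`. -/
theorem charpoly_torsionLinear_of_ker (hp : p.Prime)
    (hI : ∀ x : G, φ (φ x) - a₀ • φ x + l • x = 0)
    (hker : ∀ r s : ℤ, (r, s) ≠ (0, 0) →
      Finite (r • AddMonoidHom.id G + s • φ).ker ∧
      (Nat.card (r • AddMonoidHom.id G + s • φ).ker : ℤ) ≤ r ^ 2 + r * s * a₀ + s ^ 2 * l)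
    (hcard : ∀ j : ℕ, Nat.card (tor G (p ^ j)) = p ^ (2 * j))
    [Module.Free (ZMod (p ^ k)) (tor G (p ^ k))] [Module.Finite (ZMod (p ^ k)) (tor G (p ^ k))] :
    (torsionLinear φ (p ^ k)).charpoly
      = X ^ 2 - C ((a₀ : ℤ) : ZMod (p ^ k)) * X + C ((l : ℤ) : ZMod (p ^ k)) :=
  charpoly_eq k φ a₀ l hp hI (kb_finset_of_ker φ a₀ l hker) hcard _ (fun _ => rfl)

/-- Same, matrix form for any basis. -/
theorem charpoly_toMatrix_torsionLinear_of_ker (hp : p.Prime)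
    (hI : ∀ x : G, φ (φ x) - a₀ • φ x + l • x = 0)
    (hker : ∀ r s : ℤ, (r, s) ≠ (0, 0) →
      Finite (r • AddMonoidHom.id G + s • φ).ker ∧
      (Nat.card (r • AddMonoidHom.id G + s • φ).ker : ℤ) ≤ r ^ 2 + r * s * a₀ + s ^ 2 * l)
    (hcard : ∀ j : ℕ, Nat.card (tor G (p ^ j)) = p ^ (2 * j))
    (B : Module.Basis (Fin 2) (ZMod (p ^ k)) (tor G (p ^ k))) :
    (LinearMap.toMatrix B B (torsionLinear φ (p ^ k))).charpoly
      = X ^ 2 - C ((a₀ : ℤ) : ZMod (p ^ k)) * X + C ((l : ℤ) : ZMod (p ^ k)) :=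
  charpoly_toMatrix_eq k φ a₀ l hp hI (kb_finset_of_ker φ a₀ l hker) hcard B _ (fun _ => rfl)

end ECT

end Fermat.Agent.S58.EC.FrobCharpoly
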