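/-
S58 / EC-Frob: the "downstairs" statement (EC3 of row 46), glue of the landed blocks
EC-C (`Count`, `CountAdapter`), EC-N (`TorsionBasis.card_torsionBy_prime_pow`) and EC-L
(`FrobCharpoly`), hypothesis-driven on the output `exists_a0` of block EC-T (board #1882 (4)).

`ℓ` prime, `W₀` a Weierstrass curve over `ZMod ℓ` with `Δ ≠ 0`, `κ` an algebraically closed
`ZMod ℓ`-algebra, `φ = frobPt W₀ f` the Frobenius endomorphism of `E(κ)`, `E = W₀⁄κ`; `p` an odd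
prime different from `ℓ`.  Then, for any `ZMod (p ^ k)`-module structure on `E(κ)[p ^ k]` and any
linear endomorphism `g` of it inducing `φ` on points:
 `charpoly g = X ^ 2 - (W₀.traceOfFrobenius) X + ℓ`, trace `= W₀.traceOfFrobenius`, det `= ℓ`.
(`W₀.traceOfFrobenius = ℓ + 1 - #W₀(𝔽_ℓ)`; for `W₀ = W.reductionMod ℓ` this is `W.apOfModel ℓ`.)
-/
import Fermat.Agent.S58.EC.CountAdapter
import Fermat.Agent.S58.EC.FrobCharpoly
import Fermat.Agent.S58.EC.TorsionBasis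

set_option autoImplicit false
set_option linter.unusedSectionVars false

namespace Fermat.Agent.S58.EC.FrobDownstairs

open WeierstrassCurve Polynomial
open Fermat.Agent.S58.EC.Count Fermat.Agent.S58.EC.CountAdapter
open Fermat.Agent.S58.EC.TorsionFree Fermat.Agent.S58.EC.FrobCharpoly

variable {ℓ : ℕ} [hℓ : Fact ℓ.Prime] (W₀ : WeierstrassCurve (ZMod ℓ))
  {κ : Type*} [Field κ] [Algebra (ZMod ℓ) κ] [IsAlgClosed κ] [DecidableEq κ]
  (f : κ →ₐ[ZMod ℓ] κ)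

/-- The output of block EC-T (board #1882 (4), verbatim), as a `Prop`. -/
def ECTOutput : Prop :=
  ∃ a0 : ℤ, a0 ^ 2 < 4 * ℓ ∧
    (∀ P : (EK W₀ κ).Point,
      frobPt W₀ f (frobPt W₀ f P) - a0 • frobPt W₀ f P + (ℓ : ℤ) • P = 0) ∧
    ∀ r s : ℤ, (r, s) ≠ (0, 0) →
      Finite ↥(AddMonoidHom.ker (r • AddMonoidHom.id (EK W₀ κ).Point + s • frobPt W₀ f)) ∧
      (Nat.card ↥(AddMonoidHom.ker (r • AddMonoidHom.id (EK W₀ κ).Point + s • frobPt W₀ f)) : ℤ) ≤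
        r ^ 2 + r * s * a0 + s ^ 2 * ℓ

variable (hΔ : W₀.Δ ≠ 0) (hf : ∀ z, f z = z ^ ℓ)

include hΔ hf in
/-- The output of EC-T holds with `a0 = W₀.traceOfFrobenius`. -/
theorem ectOutput_traceOfFrobenius (h : ECTOutput W₀ f) :
    (∀ P : (EK W₀ κ).Point, frobPt W₀ f (frobPt W₀ f P) -
        W₀.traceOfFrobenius • frobPt W₀ f P + (ℓ : ℤ) • P = 0) ∧
    ∀ r s : ℤ, (r, s) ≠ (0, 0) →
      Finite ↥(AddMonoidHom.ker (r • AddMonoidHom.id (EK W₀ κ).Point + s • frobPt W₀ f)) ∧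
      (Nat.card ↥(AddMonoidHom.ker (r • AddMonoidHom.id (EK W₀ κ).Point + s • frobPt W₀ f)) : ℤ) ≤
        r ^ 2 + r * s * W₀.traceOfFrobenius + s ^ 2 * ℓ := by
  obtain ⟨a0, -, h2, h3⟩ := h
  have e : a0 = W₀.traceOfFrobenius :=
    a0_eq_traceOfFrobenius_of_bound W₀ f hΔ hf a0 (fun r s hrs => (h3 r s hrs).2)
  rw [← e]
  exact ⟨h2, h3⟩

/-- `p ≠ ℓ` is invertible in `κ`. -/
theorem natCast_ne_zero_of_ne {p : ℕ} (hp : p.Prime) (hpℓ : p ≠ ℓ) : (p : κ) ≠ 0 := by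
  have : CharP κ ℓ := charP_of_algebra
  intro h0
  have hd : ℓ ∣ p := (CharP.cast_eq_zero_iff κ ℓ p).mp h0
  rcases (Nat.dvd_prime hp).mp hd with h1 | h1
  · exact hℓ.out.one_lt.ne' h1
  · exact hpℓ h1.symm

/-- `#E(κ)[p ^ j] = p ^ (2 j)`. -/
theorem card_tor {p : ℕ} (hp : p.Prime) (hp2 : p ≠ 2) (hpℓ : p ≠ ℓ) (hΔ : W₀.Δ ≠ 0) (j : ℕ) :
    Nat.card (tor (EK W₀ κ).Point (p ^ j)) = p ^ (2 * j) :=
  TorsionBasis.card_torsionBy_prime_pow (W := EK W₀ κ) (Count.Δ_ne_zero W₀ hΔ) hp hp2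
    (natCast_ne_zero_of_ne hp hpℓ) j

section Final

variable {p : ℕ} (hp : p.Prime) (hp2 : p ≠ 2) (hpℓ : p ≠ ℓ) (k : ℕ)
  [Module (ZMod (p ^ k)) (tor (EK W₀ κ).Point (p ^ k))]
  (g : tor (EK W₀ κ).Point (p ^ k) →ₗ[ZMod (p ^ k)] tor (EK W₀ κ).Point (p ^ k))
  (hg : ∀ x : tor (EK W₀ κ).Point (p ^ k),
    ((g x : tor (EK W₀ κ).Point (p ^ k)) : (EK W₀ κ).Point) = frobPt W₀ f (x : (EK W₀ κ).Point))

include hΔ hf hp hp2 hpℓ hg in
/-- **EC-Frob downstairs, matrix form for any basis.** -/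
theorem charpoly_toMatrix_frobPt (h : ECTOutput W₀ f)
    (B : Module.Basis (Fin 2) (ZMod (p ^ k)) (tor (EK W₀ κ).Point (p ^ k))) :
    (LinearMap.toMatrix B B g).charpoly =
      X ^ 2 - C ((W₀.traceOfFrobenius : ℤ) : ZMod (p ^ k)) * X + C ((ℓ : ℕ) : ZMod (p ^ k)) := by
  obtain ⟨hI, hker⟩ := ectOutput_traceOfFrobenius W₀ f hΔ hf h
  have := charpoly_toMatrix_eq k (frobPt W₀ f) W₀.traceOfFrobenius (ℓ : ℤ) hp hI
    (kb_finset_of_ker _ _ _ hker) (card_tor W₀ hp hp2 hpℓ hΔ) B g hg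
  rw [this, Int.cast_natCast]

include hΔ hf hp hp2 hpℓ hg in
/-- **EC-Frob downstairs, trace and determinant for any basis.** -/
theorem trace_det_toMatrix_frobPt (h : ECTOutput W₀ f)
    (B : Module.Basis (Fin 2) (ZMod (p ^ k)) (tor (EK W₀ κ).Point (p ^ k))) :
    (LinearMap.toMatrix B B g).trace = ((W₀.traceOfFrobenius : ℤ) : ZMod (p ^ k)) ∧
      (LinearMap.toMatrix B B g).det = ((ℓ : ℕ) : ZMod (p ^ k)) := by
  obtain ⟨hI, hker⟩ := ectOutput_traceOfFrobenius W₀ f hΔ hf h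
  have := trace_det_toMatrix_eq k (frobPt W₀ f) W₀.traceOfFrobenius (ℓ : ℤ) hp hI
    (kb_finset_of_ker _ _ _ hker) (card_tor W₀ hp hp2 hpℓ hΔ) B g hg
  rw [Int.cast_natCast] at this
  exact this

include hΔ hf hp hp2 hpℓ hg in
/-- **EC-Frob downstairs, `LinearMap.charpoly` form.** -/
theorem charpoly_frobPt (h : ECTOutput W₀ f)
    [Module.Free (ZMod (p ^ k)) (tor (EK W₀ κ).Point (p ^ k))]
    [Module.Finite (ZMod (p ^ k)) (tor (EK W₀ κ).Point (p ^ k))] :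
    g.charpoly =
      X ^ 2 - C ((W₀.traceOfFrobenius : ℤ) : ZMod (p ^ k)) * X + C ((ℓ : ℕ) : ZMod (p ^ k)) := by
  obtain ⟨hI, hker⟩ := ectOutput_traceOfFrobenius W₀ f hΔ hf h
  have := charpoly_eq k (frobPt W₀ f) W₀.traceOfFrobenius (ℓ : ℤ) hp hI
    (kb_finset_of_ker _ _ _ hker) (card_tor W₀ hp hp2 hpℓ hΔ) g hg
  rw [this, Int.cast_natCast]

include hΔ hf hp hp2 hpℓ hg in
/-- **EC-Frob downstairs, `LinearMap.trace` / `LinearMap.det` form.** -/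
theorem linearMap_trace_det_frobPt (h : ECTOutput W₀ f) :
    LinearMap.trace (ZMod (p ^ k)) (tor (EK W₀ κ).Point (p ^ k)) g
        = ((W₀.traceOfFrobenius : ℤ) : ZMod (p ^ k)) ∧
      LinearMap.det g = ((ℓ : ℕ) : ZMod (p ^ k)) := by
  obtain ⟨hI, hker⟩ := ectOutput_traceOfFrobenius W₀ f hΔ hf h
  have := linearMap_trace_det_eq k (frobPt W₀ f) W₀.traceOfFrobenius (ℓ : ℤ) hp hI
    (kb_finset_of_ker _ _ _ hker) (card_tor W₀ hp hp2 hpℓ hΔ) g hg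
  rw [Int.cast_natCast] at this
  exact this

end Final

/-- For `W₀ = W.reductionMod ℓ`, the trace of Frobenius is the prelude's `W.apOfModel ℓ`. -/
theorem traceOfFrobenius_reductionMod (W : WeierstrassCurve ℤ) :
    (W.reductionMod ℓ).traceOfFrobenius = W.apOfModel ℓ := rfl

end Fermat.Agent.S58.EC.FrobDownstairs
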