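/-
S58 / EC-Frob, block EC-T (helper10): **from the function field back to `E(κ)`**.

With the notation of `Mult.lean` (`W₀` over `𝔽_ℓ`, `κ` algebraically closed, `K = κ(E)` with its
data `FFData`, `e₀` the generic point, `a₀ = B(e₁, e₀)`), `φ` the Frobenius endomorphism of
`E(κ)` and `c : E(κ) → E(K)` the constant points:

* the point `Ξ = e₂ - a₀ e₁ + ℓ e₀` has height `0`, hence is a constant point;
* for `P₀ : E(κ)` the translation `τ = (e₀ + c P₀)^*` fixes constants, commutes with Frobenius and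
  sends `e₀ ↦ e₀ + c P₀`; applying it to `Ξ` gives `φ² P₀ - a₀ φ P₀ + ℓ P₀ = 0`;
* kernel bound: if `r P₀ + s φ P₀ = 0` then `τ` fixes `x(r e₀ + s e₁) = p(xK)/q(xK)`, so
  `x(e₀ + c P₀)` is a root of `p(T) - F q(T)`; `P₀ ↦ x(e₀ + c P₀)` is injective, hence at most
  `max (deg p) (deg q) = r² + r s a₀ + s² ℓ` such `P₀`.
-/
import Mathlib
import Fermat.Agent.S58.EC.Mult

set_option autoImplicit false
set_option linter.unusedSectionVars false

namespace Fermat.Agent.S58.EC.Translate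

open Polynomial WeierstrassCurve WeierstrassCurve.Affine
open Fermat.Agent.S05 Fermat.Agent.S58.EC.HtRep Fermat.Agent.S58.EC.Parallelogram
open Fermat.Agent.S58.EC.QuadForm Fermat.Agent.S58.EC.Mult

/-! ### Algebraically closed base -/

section AlgClosed

variable {κ : Type*} [Field κ] [IsAlgClosed κ] {K : Type*} [Field K] [Algebra κ K]

theorem mem_range_of_isAlgebraic {y : K} (hy : IsAlgebraic κ y) :
    ∃ d : κ, algebraMap κ K d = y := by
  have hint : IsIntegral κ y := hy.isIntegral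
  have h1 : (minpoly κ y).degree = 1 :=
    IsAlgClosed.degree_eq_one_of_irreducible κ (minpoly.irreducible hint)
  exact minpoly.mem_range_of_degree_eq_one κ y h1

theorem quad_ne_zero (b d : κ) : (X ^ 2 + C b * X - C d : κ[X]) ≠ 0 := by
  intro h0
  have := congrArg (fun p => p.coeff 2) h0
  simp [coeff_X_pow] at this

end AlgClosed

variable {ℓ : ℕ} [Fact ℓ.Prime] {W₀ : WeierstrassCurve (ZMod ℓ)}
  {κ : Type*} [Field κ] [DecidableEq κ] [Algebra (ZMod ℓ) κ]
  {K : Type*} [Field K] [DecidableEq K] [Algebra (ZMod ℓ) K] [Algebra κ K]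
  [IsScalarTower (ZMod ℓ) κ K] [Algebra κ[X] K] [IsScalarTower κ κ[X] K] [FaithfulSMul κ[X] K]

/-! ### Constant points -/

variable (W₀ κ K) in
/-- The constant points `E(κ) → E(K)`. -/
noncomputable def cst : (W₀⁄κ).Point →+ (W₀⁄K).Point := Point.baseChange (W' := W₀) κ K

theorem cst_injective : Function.Injective (cst W₀ κ K) := Point.map_injective _

theorem xc_cst (P : (W₀⁄κ).Point) : xc (cst W₀ κ K P) = algebraMap κ K (xc P) := by
  rw [cst, Point.baseChange, xc_map]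
  rfl

theorem algebraMap_eq_C (c : κ) : algebraMap κ K c = algebraMap κ[X] K (C c) := by
  rw [IsScalarTower.algebraMap_apply κ κ[X] K, Polynomial.algebraMap_apply,
    Algebra.algebraMap_self_apply]

theorem isRat_xc_cst (P : (W₀⁄κ).Point) : IsRat κ (xc (cst W₀ κ K P)) := by
  rw [xc_cst, algebraMap_eq_C]
  exact isRat_algebraMap _

theorem hgt_cst (P : (W₀⁄κ).Point) : hgt κ (cst W₀ κ K P) = 0 := by
  rw [hgt_eq_zero_iff (isRat_xc_cst P)]
  right
  exact ⟨xc P, by rw [xc_cst, algebraMap_eq_C]⟩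

theorem map_cst (σ : K →ₐ[κ] K) (P : (W₀⁄κ).Point) :
    Point.map (W' := W₀) σ (cst W₀ κ K P) = cst W₀ κ K P :=
  Point.map_baseChange σ P

theorem Fr_cst (f : κ →ₐ[ZMod ℓ] κ) (hf : ∀ z, f z = z ^ ℓ) (P : (W₀⁄κ).Point) :
    Fr W₀ K (cst W₀ κ K P) = cst W₀ κ K (Point.map (W' := W₀) f P) := by
  rcases P with _ | ⟨x, y, h⟩
  · rfl
  · simp only [Fr, cst, Point.baseChange, Point.map_some]
    rw [Point.some.injEq]
    simp only [frobAlg_apply, hf, Algebra.ofId_apply, map_pow, and_self]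

/-- A point with constant `x`-coordinate is constant (`κ` algebraically closed). -/
theorem mem_range_cst [IsAlgClosed κ] {P : (W₀⁄K).Point} (hP : P ≠ 0) {c : κ}
    (hc : xc P = algebraMap κ K c) : ∃ Q : (W₀⁄κ).Point, cst W₀ κ K Q = P := by
  obtain ⟨x, y, h, rfl⟩ := exists_some_of_ne_zero hP
  rw [xc_some] at hc
  subst hc
  -- `y` is algebraic over `κ`
  have hy : IsAlgebraic κ y := by
    have heq := (equation_iff _ _).mp h.1
    refine ⟨X ^ 2 + C ((W₀⁄κ).a₁ * c + (W₀⁄κ).a₃) * X -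
      C (c ^ 3 + (W₀⁄κ).a₂ * c ^ 2 + (W₀⁄κ).a₄ * c + (W₀⁄κ).a₆), ?_, ?_⟩
    · exact quad_ne_zero _ _
    · have e : ∀ a : ZMod ℓ, algebraMap (ZMod ℓ) K a = algebraMap κ K (algebraMap (ZMod ℓ) κ a) :=
        fun a => IsScalarTower.algebraMap_apply (ZMod ℓ) κ K a
      simp only [WeierstrassCurve.Affine.baseChange, WeierstrassCurve.baseChange,
        WeierstrassCurve.map_a₁, WeierstrassCurve.map_a₂, WeierstrassCurve.map_a₃,
        WeierstrassCurve.map_a₄, WeierstrassCurve.map_a₆, e] at heq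
      simp only [WeierstrassCurve.Affine.baseChange, WeierstrassCurve.baseChange,
        WeierstrassCurve.map_a₁, WeierstrassCurve.map_a₂, WeierstrassCurve.map_a₃,
        WeierstrassCurve.map_a₄, WeierstrassCurve.map_a₆, map_sub, map_add, map_mul, map_pow,
        aeval_X, aeval_C]
      linear_combination heq
  obtain ⟨d, rfl⟩ := mem_range_of_isAlgebraic hy
  have hκ : (W₀⁄κ).Nonsingular c d :=
    (Affine.baseChange_nonsingular W₀ (Algebra.ofId κ K).injective c d).mp h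
  exact ⟨Point.some c d hκ, map_some_eq hκ _ h rfl rfl⟩

variable {yK : K} {iotaK : K →ₐ[κ] K} (D : FFData W₀ κ K yK iotaK)
include D

/-- Points of height `0` in `G⁻` are constant. -/
theorem mem_range_cst_of_hgt_eq_zero [IsAlgClosed κ] {P : (W₀⁄K).Point}
    (hP : P ∈ Gminus W₀ iotaK) (h : hgt κ P = 0) : ∃ Q : (W₀⁄κ).Point, cst W₀ κ K Q = P := by
  rcases (hgt_eq_zero_iff (isRat_xc_of_mem D hP)).mp h with h0 | ⟨c, hc⟩
  · exact ⟨0, by rw [h0, map_zero]⟩
  · by_cases h0 : P = 0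
    · exact ⟨0, by rw [h0, map_zero]⟩
    · exact mem_range_cst h0 (by rw [hc, ← algebraMap_eq_C])

theorem e0_not_mem_range_cst (Q : (W₀⁄κ).Point) : cst W₀ κ K Q ≠ e0 D := by
  intro h
  have h1 := hgt_cst (W₀ := W₀) (K := K) Q
  rw [h, hgt_e0] at h1
  exact one_ne_zero h1

/-! ### Translations -/

theorem translate_not_const (P₀ Q : (W₀⁄κ).Point) : cst W₀ κ K Q ≠ e0 D + cst W₀ κ K P₀ := by
  intro h
  apply e0_not_mem_range_cst D (Q - P₀)
  rw [map_sub, h]
  abel

theorem translate_ne_zero (P₀ : (W₀⁄κ).Point) : e0 D + cst W₀ κ K P₀ ≠ 0 := by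
  intro h
  exact translate_not_const D P₀ 0 (by rw [map_zero, h])

theorem transcendental_xc_translate [IsAlgClosed κ] (P₀ : (W₀⁄κ).Point) :
    Transcendental κ (xc (e0 D + cst W₀ κ K P₀)) := by
  intro halg
  obtain ⟨c, hc⟩ := mem_range_of_isAlgebraic halg
  obtain ⟨Q, hQ⟩ := mem_range_cst (translate_ne_zero D P₀) hc.symm
  exact translate_not_const D P₀ Q hQ

/-- The translation by a constant point, as a substitution. -/
theorem exists_translate [IsAlgClosed κ] (P₀ : (W₀⁄κ).Point) :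
    ∃ τ : K →ₐ[κ] K, Point.map (W' := W₀) τ (e0 D) = e0 D + cst W₀ κ K P₀ ∧
      τ (algebraMap κ[X] K X) = xc (e0 D + cst W₀ κ K P₀) :=
  exists_subst_point D (translate_ne_zero D P₀) (transcendental_xc_translate D P₀)

/-- The effect of a translation on `r e₀ + s e₁ + t e₂`. -/
theorem map_translate_comb (f : κ →ₐ[ZMod ℓ] κ) (hf : ∀ z, f z = z ^ ℓ)
    {τ : K →ₐ[κ] K} {P₀ : (W₀⁄κ).Point}
    (hτ : Point.map (W' := W₀) τ (e0 D) = e0 D + cst W₀ κ K P₀) (r s t : ℤ) :
    Point.map (W' := W₀) τ (r • e0 D + s • Fr W₀ K (e0 D) + t • Fr W₀ K (Fr W₀ K (e0 D))) =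
      (r • e0 D + s • Fr W₀ K (e0 D) + t • Fr W₀ K (Fr W₀ K (e0 D))) +
        cst W₀ κ K (r • P₀ + s • Point.map (W' := W₀) f P₀ +
          t • Point.map (W' := W₀) f (Point.map (W' := W₀) f P₀)) := by
  simp only [map_add, map_zsmul, map_Fr, hτ, Fr_cst f hf]
  simp only [smul_add]
  abel

/-! ### The Frobenius relation on `E(κ)` -/

theorem coe_Xi :
    ((e2m D - a0 D • e1m D + (ℓ : ℤ) • e0m D : Gminus W₀ iotaK) : (W₀⁄K).Point) =
      (ℓ : ℤ) • e0 D + (-a0 D) • Fr W₀ K (e0 D) + (1 : ℤ) • Fr W₀ K (Fr W₀ K (e0 D)) := by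
  simp only [AddSubgroup.coe_add, AddSubgroup.coe_sub, AddSubgroup.coe_zsmul, e2m, e1m, coe_Frm,
    e0m, one_smul, neg_smul]
  abel

/-- **The Frobenius relation** `φ² - a₀ φ + ℓ = 0` on `E(κ)`. -/
theorem frob_relation [IsAlgClosed κ] (hΔ : W₀.Δ ≠ 0) (f : κ →ₐ[ZMod ℓ] κ)
    (hf : ∀ z, f z = z ^ ℓ) (P₀ : (W₀⁄κ).Point) :
    Point.map (W' := W₀) f (Point.map (W' := W₀) f P₀) - a0 D • Point.map (W' := W₀) f P₀ +
      (ℓ : ℤ) • P₀ = 0 := by
  obtain ⟨Q, hQ⟩ := mem_range_cst_of_hgt_eq_zero D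
    (e2m D - a0 D • e1m D + (ℓ : ℤ) • e0m D).2 (hm_Xi D hΔ)
  rw [coe_Xi] at hQ
  obtain ⟨τ, hτ, -⟩ := exists_translate D P₀
  have h1 := map_translate_comb D f hf hτ (ℓ : ℤ) (-a0 D) 1
  rw [← hQ, map_cst] at h1
  have h2 : cst W₀ κ K ((ℓ : ℤ) • P₀ + (-a0 D) • Point.map (W' := W₀) f P₀ +
      (1 : ℤ) • Point.map (W' := W₀) f (Point.map (W' := W₀) f P₀)) = 0 := by
    have := h1
    rwa [left_eq_add] at this
  have h3 := cst_injective (W₀ := W₀) (κ := κ) (K := K) (h2.trans (map_zero _).symm)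
  rw [← h3]
  simp only [one_smul, neg_smul]
  abel

/-! ### The kernel bound -/

theorem xc_translate_injective (hΔ : W₀.Δ ≠ 0) :
    Function.Injective (fun P₀ : (W₀⁄κ).Point => xc (e0 D + cst W₀ κ K P₀)) := by
  intro P₀ P₁ h
  have h' : xc (e0 D + cst W₀ κ K P₀) = xc (e0 D + cst W₀ κ K P₁) := h
  rcases (xc_eq_iff (translate_ne_zero D P₀) (translate_ne_zero D P₁)).mp h' with h1 | h1
  · exact cst_injective (add_left_cancel h1)
  · exfalso
    -- `2 e₀` would be constant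
    have h2 : e0 D + e0 D = cst W₀ κ K (-(P₀ + P₁)) := by
      rw [map_neg, map_add]
      have : e0 D + cst W₀ κ K P₀ + (e0 D + cst W₀ κ K P₁) = 0 := by
        rw [h1]
        abel
      rw [eq_neg_iff_add_eq_zero, ← this]
      abel
    have h3 := hgt_add_self (map_Δ_ne_zero κ hΔ) (curve_eq W₀ κ K)
      (isRat_xc_of_mem D (e0_mem D))
    rw [h2, hgt_cst, hgt_e0] at h3
    norm_num at h3

/-- **The kernel bound**, finset form: at most `r² + r s a₀ + s² ℓ` points `P₀ : E(κ)` satisfy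
`r P₀ + s φ P₀ = 0`. -/
theorem card_le [IsAlgClosed κ] (hΔ : W₀.Δ ≠ 0) (f : κ →ₐ[ZMod ℓ] κ) (hf : ∀ z, f z = z ^ ℓ)
    {r s : ℤ} (hrs : (r, s) ≠ (0, 0)) (S : Finset (W₀⁄κ).Point)
    (hS : ∀ P₀ ∈ S, r • P₀ + s • Point.map (W' := W₀) f P₀ = 0) :
    (S.card : ℤ) ≤ r ^ 2 + r * s * a0 D + s ^ 2 * (ℓ : ℤ) := by
  classical
  set β : Gminus W₀ iotaK := r • e0m D + s • e1m D with hβdef
  have hβ : hm D β = r ^ 2 + r * s * a0 D + s ^ 2 * (ℓ : ℤ) := hm_lin D hΔ r s
  have hpos : 0 < hm D β := by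
    rw [hβ]
    exact norm_form_pos (a0_sq_lt D hΔ) hrs
  have hβcoe : (β : (W₀⁄K).Point) =
      r • e0 D + s • Fr W₀ K (e0 D) + (0 : ℤ) • Fr W₀ K (Fr W₀ K (e0 D)) := by
    simp only [hβdef, AddSubgroup.coe_add, AddSubgroup.coe_zsmul, e1m, coe_Frm, e0m, zero_smul,
      add_zero]
  have hβ0 : (β : (W₀⁄K).Point) ≠ 0 := by
    intro h
    have : hm D β = 0 := by
      change hgt κ (β : (W₀⁄K).Point) = 0
      rw [h]
      rfl
    omega
  have hrat : IsRat κ (xc (β : (W₀⁄K).Point)) := isRat_xc_of_mem D β.2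
  obtain ⟨p, q, hrep⟩ := hrat.exists_isRep
  have hht : hm D β = ((max p.natDegree q.natDegree : ℕ) : ℤ) := by
    change hgt κ (β : (W₀⁄K).Point) = _
    rw [hgt_of_ne_zero hβ0, ht_eq hrep]
  set F : K := xc (β : (W₀⁄K).Point) with hF
  -- the polynomial `p(T) - F q(T)`
  set Pol : K[X] := p.map (algebraMap κ K) - C F * q.map (algebraMap κ K) with hPol
  have hPol0 : Pol ≠ 0 := by
    intro h0
    have hq0 : q.coeff q.natDegree ≠ 0 := by
      rw [coeff_natDegree]
      exact leadingCoeff_ne_zero.mpr hrep.ne_zero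
    have h1 := congrArg (fun P => P.coeff q.natDegree) h0
    simp only [hPol, coeff_sub, coeff_C_mul, coeff_map, coeff_zero] at h1
    -- `F = p_i / q_i`
    have hq0' : algebraMap κ K (q.coeff q.natDegree) ≠ 0 :=
      (_root_.map_ne_zero _).mpr hq0
    have hFc : F = algebraMap κ[X] K (C (p.coeff q.natDegree / q.coeff q.natDegree)) := by
      rw [← algebraMap_eq_C, map_div₀]
      rw [eq_div_iff hq0']
      linear_combination -h1
    have : ht κ F = 0 := (ht_eq_zero_iff hrat).mpr ⟨_, hFc⟩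
    have h2 : hm D β = 0 := by
      change hgt κ (β : (W₀⁄K).Point) = 0
      rw [hgt_of_ne_zero hβ0, ← hF, this]
      rfl
    omega
  have hdeg : Pol.natDegree ≤ max p.natDegree q.natDegree := by
    refine (natDegree_sub_le _ _).trans (max_le_max ?_ ?_)
    · exact natDegree_map_le
    · exact (natDegree_C_mul_le _ _).trans natDegree_map_le
  -- the points of `S` give roots of `Pol`
  have hroot : ∀ P₀ ∈ S, xc (e0 D + cst W₀ κ K P₀) ∈ Pol.roots.toFinset := by
    intro P₀ hP₀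
    rw [Multiset.mem_toFinset, mem_roots hPol0, IsRoot.def]
    obtain ⟨τ, hτ, hτx⟩ := exists_translate D P₀
    have h1 := map_translate_comb D f hf hτ r s 0
    rw [← hβcoe] at h1
    have h2 : r • P₀ + s • Point.map (W' := W₀) f P₀ +
        (0 : ℤ) • Point.map (W' := W₀) f (Point.map (W' := W₀) f P₀) = 0 := by
      rw [zero_smul, add_zero]
      exact hS P₀ hP₀
    rw [h2, map_zero, add_zero] at h1
    have h3 : τ F = F := by
      rw [hF, ← xc_map, h1]
    have h4 := congrArg τ hrep.eq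
    rw [map_mul, h3, algHom_algebraMap τ q, algHom_algebraMap τ p, hτx] at h4
    rw [hPol, eval_sub, eval_mul, eval_C, eval_map_algebraMap, eval_map_algebraMap, ← h4]
    ring
  -- counting
  have hinj := xc_translate_injective D hΔ
  have hcard : S.card ≤ Pol.roots.toFinset.card :=
    Finset.card_le_card_of_injOn (fun P₀ => xc (e0 D + cst W₀ κ K P₀)) hroot
      (fun a _ b _ hab => hinj hab)
  have h5 : Pol.roots.toFinset.card ≤ max p.natDegree q.natDegree :=
    (Multiset.toFinset_card_le _).trans ((card_roots' Pol).trans hdeg)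
  rw [← hβ, hht]
  exact_mod_cast hcard.trans h5

end Fermat.Agent.S58.EC.Translate
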