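/-
S58 / EC-Frob, block EC-T, part 2 (helper10): **`a₀ = trace of Frobenius`**, and the `K`-free
conclusion of the heart.

From `Translate.frob_relation` / `Translate.card_le` and the counting block `Count` (helper12):
`a₀ = W₀.traceOfFrobenius = ℓ + 1 - #W₀(𝔽_ℓ)`, so for the Frobenius endomorphism `φ` of `E(κ)`
(`κ` algebraically closed of characteristic `ℓ`), with `t = W₀.traceOfFrobenius`:

* `t ^ 2 < 4 ℓ` (Hasse);
* `φ² - t φ + ℓ = 0` on `E(κ)`;
* for `(r, s) ≠ (0, 0)`, at most `r² + r s t + s² ℓ` points satisfy `r P + s φ P = 0`.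

This is `FrobConclusion W₀ κ f`; `frobConclusion_of_ffData` derives it from the function-field data
`Mult.FFData`.
-/
import Mathlib
import Fermat.Agent.S58.EC.Translate
import Fermat.Agent.S58.EC.Count

set_option autoImplicit false
set_option linter.unusedSectionVars false

namespace Fermat.Agent.S58.EC.FrobTrace

open Polynomial WeierstrassCurve WeierstrassCurve.Affine
open Fermat.Agent.S58.EC.Mult Fermat.Agent.S58.EC.Translate

/-! ### From finset bounds to `Nat.card` bounds -/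

theorem finite_and_natCard_le {α : Type*} (s : Set α) (N : ℕ)
    (h : ∀ S : Finset α, (↑S ⊆ s) → S.card ≤ N) : s.Finite ∧ Nat.card s ≤ N := by
  have hfin : s.Finite := by
    by_contra hinf
    obtain ⟨t, hts, htc⟩ := Set.Infinite.exists_subset_card_eq hinf (N + 1)
    have := h t hts
    omega
  refine ⟨hfin, ?_⟩
  have h1 := h hfin.toFinset (by simp)
  rwa [← Set.ncard_eq_toFinset_card s hfin, ← Nat.card_coe_set_eq] at h1

variable {ℓ : ℕ} [Fact ℓ.Prime] (W₀ : WeierstrassCurve (ZMod ℓ))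
  (κ : Type*) [Field κ] [DecidableEq κ] [Algebra (ZMod ℓ) κ]

/-- **The conclusion of the heart** (free of the function field): Hasse, the Frobenius relation
with the trace of Frobenius, and the kernel bound. -/
def FrobConclusion (f : κ →ₐ[ZMod ℓ] κ) : Prop :=
  W₀.traceOfFrobenius ^ 2 < 4 * (ℓ : ℤ) ∧
  (∀ P : (W₀⁄κ).Point,
    Point.map (W' := W₀) f (Point.map (W' := W₀) f P) -
      W₀.traceOfFrobenius • Point.map (W' := W₀) f P + (ℓ : ℤ) • P = 0) ∧
  ∀ r s : ℤ, (r, s) ≠ (0, 0) → ∀ S : Finset (W₀⁄κ).Point,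
    (∀ P ∈ S, r • P + s • Point.map (W' := W₀) f P = 0) →
      (S.card : ℤ) ≤ r ^ 2 + r * s * W₀.traceOfFrobenius + s ^ 2 * (ℓ : ℤ)

variable {W₀ κ}
variable {K : Type*} [Field K] [DecidableEq K] [Algebra (ZMod ℓ) K] [Algebra κ K]
  [IsScalarTower (ZMod ℓ) κ K] [Algebra κ[X] K] [IsScalarTower κ κ[X] K] [FaithfulSMul κ[X] K]
  {yK : K} {iotaK : K →ₐ[κ] K}

/-- `Nat.card` form of the kernel bound, for any subgroup of solutions of `r P + s φ P = 0`. -/
theorem natCard_le [IsAlgClosed κ] (D : FFData W₀ κ K yK iotaK) (hΔ : W₀.Δ ≠ 0)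
    (f : κ →ₐ[ZMod ℓ] κ) (hf : ∀ z, f z = z ^ ℓ) {r s : ℤ} (hrs : (r, s) ≠ (0, 0))
    (s' : Set (W₀⁄κ).Point) (hs' : ∀ P ∈ s', r • P + s • Point.map (W' := W₀) f P = 0) :
    s'.Finite ∧ (Nat.card s' : ℤ) ≤ r ^ 2 + r * s * a0 D + s ^ 2 * (ℓ : ℤ) := by
  have hpos := norm_form_pos (a0_sq_lt D hΔ) hrs
  have key := finite_and_natCard_le s' (r ^ 2 + r * s * a0 D + s ^ 2 * (ℓ : ℤ)).toNat
    (fun S hS => by
      have := card_le D hΔ f hf hrs S (fun P hP => hs' P (hS hP))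
      omega)
  refine ⟨key.1, ?_⟩
  have := key.2
  omega

/-- **`a₀` is the trace of Frobenius.** -/
theorem a0_eq_traceOfFrobenius [IsAlgClosed κ] (D : FFData W₀ κ K yK iotaK) (hΔ : W₀.Δ ≠ 0)
    (f : κ →ₐ[ZMod ℓ] κ) (hf : ∀ z, f z = z ^ ℓ) : a0 D = W₀.traceOfFrobenius := by
  apply Count.a0_eq_traceOfFrobenius_ker W₀ hΔ f hf
  · have h := (natCard_le D hΔ f hf (r := -1) (s := 1) (by simp)
      (AddMonoidHom.ker (Count.frobPt W₀ f - AddMonoidHom.id (Count.EK W₀ κ).Point) : Set _)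
      (fun P hP => by
        have h1 : Count.frobPt W₀ f P - P = 0 := hP
        rw [neg_one_zsmul, one_zsmul, neg_add_eq_sub]
        exact h1)).2
    have e : (-1 : ℤ) ^ 2 + -1 * 1 * a0 D + 1 ^ 2 * (ℓ : ℤ) = 1 - a0 D + ℓ := by ring
    rw [e] at h
    exact h
  · have h := (natCard_le D hΔ f hf (r := 1) (s := 1) (by simp)
      (AddMonoidHom.ker (Count.frobPt W₀ f + AddMonoidHom.id (Count.EK W₀ κ).Point) : Set _)
      (fun P hP => by
        have h1 : Count.frobPt W₀ f P + P = 0 := hP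
        rw [one_zsmul, one_zsmul, add_comm]
        exact h1)).2
    have e : (1 : ℤ) ^ 2 + 1 * 1 * a0 D + 1 ^ 2 * (ℓ : ℤ) = 1 + a0 D + ℓ := by ring
    rw [e] at h
    exact h

/-- **The heart**: from the function-field data to the `K`-free conclusion. -/
theorem frobConclusion_of_ffData [IsAlgClosed κ] (D : FFData W₀ κ K yK iotaK) (hΔ : W₀.Δ ≠ 0)
    (f : κ →ₐ[ZMod ℓ] κ) (hf : ∀ z, f z = z ^ ℓ) : FrobConclusion W₀ κ f := by
  have ht := a0_eq_traceOfFrobenius D hΔ f hf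
  refine ⟨?_, ?_, ?_⟩
  · rw [← ht]
    exact a0_sq_lt D hΔ
  · intro P
    rw [← ht]
    exact frob_relation D hΔ f hf P
  · intro r s hrs S hS
    rw [← ht]
    exact card_le D hΔ f hf hrs S hS

end Fermat.Agent.S58.EC.FrobTrace
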