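/-
S58 / EC-Frob, the heart, final form (helper10): **the Frobenius relation and the kernel bound on
`E(κ)`, `κ` algebraically closed of characteristic `ℓ`, with NO hypothesis left.**

`Mult`/`Translate`/`FrobTrace` (the quadratic form `deg x` on `E(κ(E))`) instantiated at the
function field `K = (W₀⁄κ).FunctionField` through helper18's `FFDataK.ffData_of_Δ_ne_zero`.

* `frobConclusion W₀ f hΔ hf : FrobTrace.FrobConclusion W₀ κ f` (Hasse, `φ² - t φ + ℓ = 0` with
  `t = W₀.traceOfFrobenius`, finset form of the kernel bound);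
* `ectOutput W₀ f hΔ hf : FrobDownstairs.ECTOutput W₀ f` (= the hypothesis of helper9's
  `FrobDownstairs.charpoly_toMatrix_frobPt` etc.);
* `charpoly_toMatrix_frobPt'`, `linearMap_trace_det_frobPt'`: EC-Frob downstairs, unconditional.
-/
import Mathlib
import Fermat.Agent.S58.EC.FrobTrace
import Fermat.Agent.S58.EC.FFDataK
import Fermat.Agent.S58.EC.FrobDownstairs

set_option autoImplicit false
set_option linter.unusedSectionVars false

namespace Fermat.Agent.S58.EC.FrobFinal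

open Polynomial WeierstrassCurve WeierstrassCurve.Affine
open Fermat.Agent.S58.EC.Mult Fermat.Agent.S58.EC.Translate Fermat.Agent.S58.EC.FrobTrace
open Fermat.Agent.S58.EC.Count Fermat.Agent.S58.EC.TorsionFree

variable {ℓ : ℕ} [hℓ : Fact ℓ.Prime] (W₀ : WeierstrassCurve (ZMod ℓ))
  {κ : Type*} [Field κ] [Algebra (ZMod ℓ) κ] [IsAlgClosed κ] [DecidableEq κ]
  (f : κ →ₐ[ZMod ℓ] κ)

/-- **The heart, unconditional**: Hasse, the Frobenius relation with the trace of Frobenius and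
the kernel bound, for the Frobenius endomorphism of `E(κ)`. -/
theorem frobConclusion (hΔ : W₀.Δ ≠ 0) (hf : ∀ z, f z = z ^ ℓ) : FrobConclusion W₀ κ f := by
  classical
  exact frobConclusion_of_ffData (FFDataK.ffData_of_Δ_ne_zero W₀ κ hΔ) hΔ f hf

/-- **The output of block EC-T** in the shape consumed by `FrobDownstairs`. -/
theorem ectOutput (hΔ : W₀.Δ ≠ 0) (hf : ∀ z, f z = z ^ ℓ) : FrobDownstairs.ECTOutput W₀ f := by
  classical
  have D := FFDataK.ffData_of_Δ_ne_zero W₀ κ hΔ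
  refine ⟨a0 D, a0_sq_lt D hΔ, frob_relation D hΔ f hf, fun r s hrs => ?_⟩
  have h := natCard_le D hΔ f hf hrs
    (AddMonoidHom.ker (r • AddMonoidHom.id (EK W₀ κ).Point + s • frobPt W₀ f) : Set _)
    (fun P hP => by
      have h1 : (r • AddMonoidHom.id (EK W₀ κ).Point + s • frobPt W₀ f) P = 0 := hP
      simpa using h1)
  exact ⟨h.1.to_subtype, h.2⟩

section Downstairs

variable {p : ℕ} (hp : p.Prime) (hp2 : p ≠ 2) (hpℓ : p ≠ ℓ) (k : ℕ)
  [Module (ZMod (p ^ k)) (tor (EK W₀ κ).Point (p ^ k))]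
  (g : tor (EK W₀ κ).Point (p ^ k) →ₗ[ZMod (p ^ k)] tor (EK W₀ κ).Point (p ^ k))
  (hg : ∀ x, ((g x : tor (EK W₀ κ).Point (p ^ k)) : (EK W₀ κ).Point) = frobPt W₀ f x)

include hp hp2 hpℓ hg in
/-- **EC-Frob downstairs, unconditional, matrix form.** -/
theorem charpoly_toMatrix_frobPt' (hΔ : W₀.Δ ≠ 0) (hf : ∀ z, f z = z ^ ℓ)
    (B : Module.Basis (Fin 2) (ZMod (p ^ k)) (tor (EK W₀ κ).Point (p ^ k))) :
    (LinearMap.toMatrix B B g).charpoly =
      X ^ 2 - C ((W₀.traceOfFrobenius : ℤ) : ZMod (p ^ k)) * X + C ((ℓ : ℕ) : ZMod (p ^ k)) :=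
  FrobDownstairs.charpoly_toMatrix_frobPt W₀ f hΔ hf hp hp2 hpℓ k g hg (ectOutput W₀ f hΔ hf) B

include hp hp2 hpℓ hg in
/-- **EC-Frob downstairs, unconditional, trace/det form.** -/
theorem linearMap_trace_det_frobPt' (hΔ : W₀.Δ ≠ 0) (hf : ∀ z, f z = z ^ ℓ) :
    LinearMap.trace (ZMod (p ^ k)) (tor (EK W₀ κ).Point (p ^ k)) g
        = ((W₀.traceOfFrobenius : ℤ) : ZMod (p ^ k)) ∧
      LinearMap.det g = ((ℓ : ℕ) : ZMod (p ^ k)) :=
  FrobDownstairs.linearMap_trace_det_frobPt W₀ f hΔ hf hp hp2 hpℓ k g hg (ectOutput W₀ f hΔ hf)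

end Downstairs

end Fermat.Agent.S58.EC.FrobFinal
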