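/-
S58 / EC block [EC-C], companion (helper12; assignment (R4) of board #1896): the trivial point-count
bounds over a finite field.

For a Weierstrass curve `W` over a finite field `F` with `q` elements (no hypothesis on `Δ`; Mathlib's
points are the nonsingular ones): `1 ≤ #W(F) ≤ 2 q + 1`, hence `|q + 1 - #W(F)| ≤ q`; in particular
`W.traceOfFrobenius ≠ ± (q + 1)` and, for `W : WeierstrassCurve ℤ` and a prime `ℓ`,
`W.apOfModel ℓ ≠ ± (ℓ + 1)`.
-/
import Mathlib
import Fermat.Prelude.Def_FLTPrelim_Modularity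

set_option autoImplicit false
set_option linter.style.haveILetI false

namespace Fermat.Agent.S58.EC.CardBound

open WeierstrassCurve

section Field

variable {F : Type*} [Field F] [Fintype F] [DecidableEq F] (W : WeierstrassCurve F)

/-- The `y`-coordinates over a given `x`. -/
def fibre (x : F) : Finset F :=
  Finset.univ.filter fun y =>
    y ^ 2 + W.a₁ * x * y + W.a₃ * y = x ^ 3 + W.a₂ * x ^ 2 + W.a₄ * x + W.a₆

theorem mem_fibre_iff (x y : F) : y ∈ fibre W x ↔ W.toAffine.Equation x y := by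
  rw [fibre, Finset.mem_filter, Affine.equation_iff]
  simp

theorem card_fibre_le (x : F) : (fibre W x).card ≤ 2 := by
  rcases Finset.eq_empty_or_nonempty (fibre W x) with h | ⟨y₁, hy₁⟩
  · rw [h]; simp
  · have h1 : W.toAffine.Equation x y₁ := (mem_fibre_iff W x y₁).mp hy₁
    rw [Affine.equation_iff] at h1
    have hsub : fibre W x ⊆ {y₁, -y₁ - W.a₁ * x - W.a₃} := by
      intro y hy
      have h2 : W.toAffine.Equation x y := (mem_fibre_iff W x y).mp hy
      rw [Affine.equation_iff] at h2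
      have e : (y - y₁) * (y - (-y₁ - W.a₁ * x - W.a₃)) = 0 := by
        linear_combination h2 - h1
      rw [Finset.mem_insert, Finset.mem_singleton]
      rcases mul_eq_zero.mp e with e | e
      · exact Or.inl (sub_eq_zero.mp e)
      · exact Or.inr (sub_eq_zero.mp e)
    exact (Finset.card_le_card hsub).trans Finset.card_le_two

/-- Points as elements of a finite type of size `≤ 2 q + 1`. -/
def toOpt : W.toAffine.Point → Option (Σ x : F, {y : F // y ∈ fibre W x})
  | Affine.Point.zero => none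
  | Affine.Point.some x y h => some ⟨x, y, (mem_fibre_iff W x y).mpr h.1⟩

theorem toOpt_injective : Function.Injective (toOpt W) := by
  rintro (_ | ⟨x, y, h⟩) (_ | ⟨x', y', h'⟩) hP
  · rfl
  · simp [toOpt] at hP
  · simp [toOpt] at hP
  · simp only [toOpt, Option.some.injEq, Sigma.mk.injEq] at hP
    obtain ⟨rfl, h2⟩ := hP
    have h3 : y = y' := by
      have := eq_of_heq h2
      exact congrArg Subtype.val this
    subst h3
    rfl

/-- `#W(F) ≤ 2 q + 1`. -/
theorem card_point_le : Nat.card W.toAffine.Point ≤ 2 * Fintype.card F + 1 := by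
  have h1 : Nat.card W.toAffine.Point ≤ Nat.card (Option (Σ x : F, {y : F // y ∈ fibre W x})) :=
    Nat.card_le_card_of_injective _ (toOpt_injective W)
  rw [Nat.card_eq_fintype_card (α := Option (Σ x : F, {y : F // y ∈ fibre W x})),
    Fintype.card_option, Fintype.card_sigma] at h1
  have h2 : (∑ x : F, Fintype.card {y : F // y ∈ fibre W x}) ≤ 2 * Fintype.card F := by
    calc (∑ x : F, Fintype.card {y : F // y ∈ fibre W x})
        ≤ ∑ _x : F, 2 := Finset.sum_le_sum fun x _ => by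
          rw [Fintype.card_coe]; exact card_fibre_le W x
      _ = 2 * Fintype.card F := by
          rw [Finset.sum_const, Finset.card_univ, smul_eq_mul, mul_comm]
  omega

end Field

section Card

variable {F : Type*} [Field F] [Finite F] (W : WeierstrassCurve F)

/-- `1 ≤ #W(F)` (the point at infinity). -/
theorem one_le_card : 1 ≤ W.card := by
  rw [WeierstrassCurve.card]
  exact Nat.one_le_iff_ne_zero.mpr (Nat.card_ne_zero.mpr ⟨⟨0⟩, inferInstance⟩)

/-- `#W(F) ≤ 2 q + 1`. -/
theorem card_le : W.card ≤ 2 * Nat.card F + 1 := by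
  classical
  letI : Fintype F := Fintype.ofFinite F
  rw [WeierstrassCurve.card, Nat.card_eq_fintype_card (α := F)]
  exact card_point_le W

theorem traceOfFrobenius_le : W.traceOfFrobenius ≤ (Nat.card F : ℤ) := by
  have h := one_le_card W
  rw [WeierstrassCurve.traceOfFrobenius]
  omega

theorem neg_le_traceOfFrobenius : -(Nat.card F : ℤ) ≤ W.traceOfFrobenius := by
  have h := card_le W
  rw [WeierstrassCurve.traceOfFrobenius]
  omega

theorem abs_traceOfFrobenius_le : |W.traceOfFrobenius| ≤ (Nat.card F : ℤ) :=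
  abs_le.mpr ⟨neg_le_traceOfFrobenius W, traceOfFrobenius_le W⟩

theorem traceOfFrobenius_ne_add_one : W.traceOfFrobenius ≠ (Nat.card F : ℤ) + 1 := by
  have h := traceOfFrobenius_le W
  omega

theorem traceOfFrobenius_ne_neg_add_one : W.traceOfFrobenius ≠ -((Nat.card F : ℤ) + 1) := by
  have h := neg_le_traceOfFrobenius W
  omega

end Card

section Model

variable (W : WeierstrassCurve ℤ) (ℓ : ℕ) [hℓ : Fact ℓ.Prime]

theorem apOfModel_le : W.apOfModel ℓ ≤ (ℓ : ℤ) := by
  have h := traceOfFrobenius_le (W.reductionMod ℓ)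
  rwa [Nat.card_zmod] at h

theorem neg_le_apOfModel : -(ℓ : ℤ) ≤ W.apOfModel ℓ := by
  have h := neg_le_traceOfFrobenius (W.reductionMod ℓ)
  rwa [Nat.card_zmod] at h

theorem abs_apOfModel_le : |W.apOfModel ℓ| ≤ (ℓ : ℤ) :=
  abs_le.mpr ⟨neg_le_apOfModel W ℓ, apOfModel_le W ℓ⟩

/-- `a_ℓ(W) ≠ ℓ + 1`. -/
theorem apOfModel_ne_add_one : W.apOfModel ℓ ≠ (ℓ : ℤ) + 1 := by
  have h := apOfModel_le W ℓ
  omega

/-- `a_ℓ(W) ≠ -(ℓ + 1)`. -/
theorem apOfModel_ne_neg_add_one : W.apOfModel ℓ ≠ -((ℓ : ℤ) + 1) := by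
  have h := neg_le_apOfModel W ℓ
  omega

/-- Both signs at once (no `Fact` instance: `ℓ.Prime` as an explicit hypothesis). -/
theorem apOfModel_ne (W : WeierstrassCurve ℤ) {ℓ : ℕ} (hℓ : ℓ.Prime) :
    W.apOfModel ℓ ≠ (ℓ : ℤ) + 1 ∧ W.apOfModel ℓ ≠ -((ℓ : ℤ) + 1) :=
  haveI : Fact ℓ.Prime := ⟨hℓ⟩
  ⟨apOfModel_ne_add_one W ℓ, apOfModel_ne_neg_add_one W ℓ⟩

/-- The square form: `a_ℓ(W)² ≠ (ℓ + 1)²`. -/
theorem apOfModel_sq_ne (W : WeierstrassCurve ℤ) {ℓ : ℕ} (hℓ : ℓ.Prime) :
    W.apOfModel ℓ ^ 2 ≠ ((ℓ : ℤ) + 1) ^ 2 := by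
  obtain ⟨h1, h2⟩ := apOfModel_ne W hℓ
  intro h
  rcases sq_eq_sq_iff_eq_or_eq_neg.mp h with h | h
  · exact h1 h
  · exact h2 h

end Model

end Fermat.Agent.S58.EC.CardBound
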