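/-
S58, block [EC-H] (helper8): **the height of a rational function** `ht f = max (deg num) (deg denom)`
over a field `κ`.

* `ht_C`, `ht_X`, `ht_eq_zero_iff` (`ht f = 0 ↔ f` constant), `ht_div` (coprime fraction),
  `ht_inv`, `ht_pow`, `finrank_eq_ht` (`[κ(X) : κ(f)] = ht f`, Mathlib);
* `homog φ P n s t = ∑ i ≤ n, φ (P_i) s ^ i t ^ (n - i)` (the degree-`n` homogenisation of `P`
  evaluated at `(s, t)`), its functoriality, its values for `t ≠ 0` / `t = 0`, its top coefficient;
* `homog_ne_zero_or` : coprime `a, b`, `n = max (deg a) (deg b)`, `(s, t) ≠ (0, 0)` in a field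
  ⇒ `(a*(s,t), b*(s,t)) ≠ (0, 0)`;
* `ht_comp` : **`ht (a(g) / b(g)) = max (deg a) (deg b) * ht g`** for coprime `a, b`, `g` nonconstant;
  `ht_aeval`, `ht_C_mul_add_C`, `ht_C_mul`, `ht_add_C`, `ht_neg`;
* `max_natDegree_eq_ht_add_ht` : **Gauss for a triple**: if `(A, B, C)` is a coprime triple of
  polynomials with `u + w = B / A`, `u w = C / A`, then `max (deg A, deg B, deg C) = ht u + ht w`.
-/
import Mathlib

set_option autoImplicit false

open Polynomial

namespace Fermat.Agent.S58.EC.Height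

variable {κ : Type*} [Field κ]

/-- The height of a rational function. -/
noncomputable def ht (f : RatFunc κ) : ℕ := max f.num.natDegree f.denom.natDegree

@[simp] theorem ht_C (c : κ) : ht (RatFunc.C c) = 0 := by simp [ht]

@[simp] theorem ht_zero : ht (0 : RatFunc κ) = 0 := by simp [ht]

@[simp] theorem ht_one : ht (1 : RatFunc κ) = 0 := by simp [ht]

@[simp] theorem ht_X : ht (RatFunc.X : RatFunc κ) = 1 := by simp [ht]

theorem ht_eq_zero_iff (f : RatFunc κ) : ht f = 0 ↔ ∃ c, f = RatFunc.C c := by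
  rw [RatFunc.eq_C_iff, ht, Nat.max_eq_zero_iff]

theorem finrank_eq_ht (f : RatFunc κ) :
    Module.finrank (IntermediateField.adjoin κ {f}) (RatFunc κ) = ht f :=
  RatFunc.finrank_eq_max_natDegree f

/-! ### Coprime fractions -/

/-- Two coprime representations of the same fraction have the same degrees. -/
theorem natDegree_eq_of_mul_eq {p q p' q' : κ[X]} (h : p * q' = p' * q) (hc : IsCoprime p q)
    (hc' : IsCoprime p' q') : p.natDegree = p'.natDegree ∧ q.natDegree = q'.natDegree := by
  have h1 : p ∣ p' := hc.dvd_of_dvd_mul_right ⟨q', h.symm⟩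
  have h2 : p' ∣ p := hc'.dvd_of_dvd_mul_right ⟨q, h⟩
  have h3 : q ∣ q' := hc.symm.dvd_of_dvd_mul_left ⟨p', by rw [h]; ring⟩
  have h4 : q' ∣ q := hc'.symm.dvd_of_dvd_mul_left ⟨p, by rw [← h]; ring⟩
  exact ⟨natDegree_eq_of_degree_eq (degree_eq_degree_of_associated (associated_of_dvd_dvd h1 h2)),
    natDegree_eq_of_degree_eq (degree_eq_degree_of_associated (associated_of_dvd_dvd h3 h4))⟩

theorem natDegree_num_denom_div {p q : κ[X]} (hq : q ≠ 0) (hc : IsCoprime p q) :
    (algebraMap κ[X] (RatFunc κ) p / algebraMap κ[X] (RatFunc κ) q).num.natDegree = p.natDegree ∧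
    (algebraMap κ[X] (RatFunc κ) p / algebraMap κ[X] (RatFunc κ) q).denom.natDegree =
      q.natDegree := by
  set x := algebraMap κ[X] (RatFunc κ) p / algebraMap κ[X] (RatFunc κ) q with hx
  have h1 : x.num * q = p * x.denom := (RatFunc.num_mul_eq_mul_denom_iff hq).2 hx
  exact natDegree_eq_of_mul_eq h1 (RatFunc.isCoprime_num_denom x) hc

/-- The height of a coprime fraction. -/
theorem ht_div {p q : κ[X]} (hq : q ≠ 0) (hc : IsCoprime p q) :
    ht (algebraMap κ[X] (RatFunc κ) p / algebraMap κ[X] (RatFunc κ) q) =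
      max p.natDegree q.natDegree := by
  obtain ⟨h1, h2⟩ := natDegree_num_denom_div hq hc
  rw [ht, h1, h2]

theorem ht_inv (f : RatFunc κ) : ht f⁻¹ = ht f := by
  by_cases hf : f = 0
  · rw [hf, inv_zero]
  have h1 : f⁻¹ = algebraMap κ[X] (RatFunc κ) f.denom / algebraMap κ[X] (RatFunc κ) f.num := by
    conv_lhs => rw [← RatFunc.num_div_denom f]
    rw [inv_div]
  rw [h1, ht_div (RatFunc.num_ne_zero hf) (RatFunc.isCoprime_num_denom f).symm, ht, max_comm]

theorem ht_pow (f : RatFunc κ) (n : ℕ) : ht (f ^ n) = n * ht f := by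
  have h1 : f ^ n =
      algebraMap κ[X] (RatFunc κ) (f.num ^ n) / algebraMap κ[X] (RatFunc κ) (f.denom ^ n) := by
    conv_lhs => rw [← RatFunc.num_div_denom f]
    rw [div_pow, map_pow, map_pow]
  rw [h1, ht_div (pow_ne_zero n (RatFunc.denom_ne_zero f))
    ((RatFunc.isCoprime_num_denom f).pow), natDegree_pow, natDegree_pow, ht,
    Nat.mul_max_mul_left]

/-! ### Homogenisation -/

section Homog

variable {R : Type*} [CommRing R]

/-- The degree-`n` homogenisation of `P` evaluated at `(s, t)`. -/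
noncomputable def homog (φ : κ →+* R) (P : κ[X]) (n : ℕ) (s t : R) : R :=
  ∑ i ∈ Finset.range (n + 1), φ (P.coeff i) * s ^ i * t ^ (n - i)

theorem map_homog {R' : Type*} [CommRing R'] (ψ : R →+* R') (φ : κ →+* R) (P : κ[X]) (n : ℕ)
    (s t : R) : ψ (homog φ P n s t) = homog (ψ.comp φ) P n (ψ s) (ψ t) := by
  simp only [homog, map_sum, map_mul, map_pow, RingHom.comp_apply]

/-- `t = 0`. -/
theorem homog_zero_right (φ : κ →+* R) (P : κ[X]) (n : ℕ) (s : R) :
    homog φ P n s 0 = φ (P.coeff n) * s ^ n := by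
  rw [homog, Finset.sum_eq_single n]
  · rw [Nat.sub_self, pow_zero, mul_one]
  · intro i hi hin
    have : n - i ≠ 0 := by
      have := Finset.mem_range.1 hi
      omega
    rw [zero_pow this, mul_zero]
  · intro h
    exact absurd (Finset.mem_range.2 (Nat.lt_succ_self n)) h

end Homog

section HomogField

variable {L : Type*} [Field L]

/-- `t ≠ 0`. -/
theorem homog_eq_mul_eval₂ (φ : κ →+* L) {P : κ[X]} {n : ℕ} (hP : P.natDegree ≤ n) (s : L)
    {t : L} (ht : t ≠ 0) : homog φ P n s t = t ^ n * P.eval₂ φ (s / t) := by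
  rw [eval₂_eq_sum_range' φ (Nat.lt_succ_of_le hP), Finset.mul_sum, homog]
  refine Finset.sum_congr rfl fun i hi => ?_
  have hin : i ≤ n := Nat.lt_succ_iff.1 (Finset.mem_range.1 hi)
  have h1 : t ^ n = t ^ i * t ^ (n - i) := by rw [← pow_add, Nat.add_sub_cancel' hin]
  rw [h1, div_pow]
  field_simp

/-- Coprime `a, b` with `n = max (deg a) (deg b)` have no common zero on the projective line. -/
theorem homog_ne_zero_or (φ : κ →+* L) {a b : κ[X]} (hc : IsCoprime a b) {s t : L}
    (hst : s ≠ 0 ∨ t ≠ 0) :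
    homog φ a (max a.natDegree b.natDegree) s t ≠ 0 ∨
      homog φ b (max a.natDegree b.natDegree) s t ≠ 0 := by
  by_contra hcon
  rw [not_or, not_not, not_not] at hcon
  obtain ⟨h1, h2⟩ := hcon
  by_cases ht : t = 0
  · subst ht
    have hs : s ≠ 0 := hst.resolve_right (by simp)
    rw [homog_zero_right, mul_eq_zero, or_iff_left (pow_ne_zero _ hs),
      map_eq_zero] at h1 h2
    -- both top coefficients vanish
    rcases le_total a.natDegree b.natDegree with hab | hab
    · rw [max_eq_right hab] at h1 h2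
      have hb : b = 0 := leadingCoeff_eq_zero.1 h2
      rw [hb, natDegree_zero, Nat.le_zero] at hab
      have ha : a = 0 := by
        rw [hb, natDegree_zero] at h1
        rw [eq_C_of_natDegree_eq_zero hab, h1, map_zero]
      rw [ha, hb] at hc
      exact not_isCoprime_zero_zero hc
    · rw [max_eq_left hab] at h1 h2
      have ha : a = 0 := leadingCoeff_eq_zero.1 h1
      rw [ha, natDegree_zero, Nat.le_zero] at hab
      have hb : b = 0 := by
        rw [ha, natDegree_zero] at h2
        rw [eq_C_of_natDegree_eq_zero hab, h2, map_zero]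
      rw [ha, hb] at hc
      exact not_isCoprime_zero_zero hc
  · rw [homog_eq_mul_eval₂ φ (le_max_left _ _) s ht, mul_eq_zero,
      or_iff_right (pow_ne_zero _ ht)] at h1
    rw [homog_eq_mul_eval₂ φ (le_max_right _ _) s ht, mul_eq_zero,
      or_iff_right (pow_ne_zero _ ht)] at h2
    obtain ⟨u, v, huv⟩ := hc
    have := congrArg (eval₂ φ (s / t)) huv
    rw [eval₂_add, eval₂_mul, eval₂_mul, h1, h2, mul_zero, mul_zero, add_zero, eval₂_one] at this
    exact zero_ne_one this

end HomogField

/-! ### The top coefficient of a homogenisation evaluated at polynomials -/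

section Top

theorem natDegree_homog_le (P : κ[X]) (n : ℕ) {c d : κ[X]} {m : ℕ} (hc : c.natDegree ≤ m)
    (hd : d.natDegree ≤ m) : (homog (C : κ →+* κ[X]) P n c d).natDegree ≤ n * m := by
  rw [homog]
  refine natDegree_sum_le_of_forall_le _ _ fun i hi => ?_
  have hin : i ≤ n := Nat.lt_succ_iff.1 (Finset.mem_range.1 hi)
  have h1 : (c ^ i).natDegree ≤ i * m := natDegree_pow_le_of_le i hc
  have h2 : (d ^ (n - i)).natDegree ≤ (n - i) * m := natDegree_pow_le_of_le (n - i) hd
  have h3 : i * m + (n - i) * m = n * m := by rw [← Nat.add_mul, Nat.add_sub_cancel' hin]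
  calc (C (P.coeff i) * c ^ i * d ^ (n - i)).natDegree
      ≤ (C (P.coeff i) * c ^ i).natDegree + (d ^ (n - i)).natDegree := natDegree_mul_le
    _ ≤ (c ^ i).natDegree + (d ^ (n - i)).natDegree :=
        Nat.add_le_add_right (natDegree_C_mul_le _ _) _
    _ ≤ i * m + (n - i) * m := Nat.add_le_add h1 h2
    _ = n * m := h3

theorem coeff_homog (P : κ[X]) (n : ℕ) {c d : κ[X]} {m : ℕ} (hc : c.natDegree ≤ m)
    (hd : d.natDegree ≤ m) :
    (homog (C : κ →+* κ[X]) P n c d).coeff (n * m) =
      homog (RingHom.id κ) P n (c.coeff m) (d.coeff m) := by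
  rw [homog, homog, finsetSum_coeff]
  refine Finset.sum_congr rfl fun i hi => ?_
  have hin : i ≤ n := Nat.lt_succ_iff.1 (Finset.mem_range.1 hi)
  have h1 : (c ^ i).natDegree ≤ i * m := natDegree_pow_le_of_le i hc
  have h2 : (d ^ (n - i)).natDegree ≤ (n - i) * m := natDegree_pow_le_of_le (n - i) hd
  have h3 : n * m = i * m + (n - i) * m := by rw [← Nat.add_mul, Nat.add_sub_cancel' hin]
  rw [mul_assoc, coeff_C_mul, h3, coeff_mul_add_eq_of_natDegree_le h1 h2,
    coeff_pow_of_natDegree_le hc, coeff_pow_of_natDegree_le hd, RingHom.id_apply, mul_assoc]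

end Top

/-! ### Composition -/

section Comp

theorem aeval_eq_eval₂_comp (g : RatFunc κ) (P : κ[X]) :
    aeval g P = P.eval₂ ((algebraMap κ[X] (RatFunc κ)).comp C) g := by
  rw [aeval_def]
  rfl

/-- The top coefficients of numerator and denominator of a nonconstant rational function are not
both zero. -/
theorem coeff_ht_ne_zero_or (g : RatFunc κ) :
    g.num.coeff (ht g) ≠ 0 ∨ g.denom.coeff (ht g) ≠ 0 := by
  rcases le_total g.num.natDegree g.denom.natDegree with h | h
  · right
    rw [ht, max_eq_right h, coeff_natDegree, (RatFunc.monic_denom g).leadingCoeff]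
    exact one_ne_zero
  · rcases h.lt_or_eq with h' | h'
    · left
      rw [ht, max_eq_left h, coeff_natDegree]
      intro h0
      rw [leadingCoeff_eq_zero] at h0
      rw [h0, natDegree_zero] at h'
      exact Nat.not_lt_zero _ h'
    · right
      rw [ht, max_eq_left h, ← h', coeff_natDegree, (RatFunc.monic_denom g).leadingCoeff]
      exact one_ne_zero

/-- **Height of a composition**: `ht (a(g) / b(g)) = max (deg a) (deg b) * ht g` for coprime `a, b`
and `g` nonconstant. -/
theorem ht_comp {a b : κ[X]} (hc : IsCoprime a b) {g : RatFunc κ} (hg : ht g ≠ 0) :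
    ht (aeval g a / aeval g b) = max a.natDegree b.natDegree * ht g := by
  classical
  by_cases hb : b = 0
  · subst hb
    have ha : IsUnit a := isCoprime_zero_right.1 hc
    rw [map_zero, div_zero, ht_zero, natDegree_zero, natDegree_eq_zero_of_isUnit ha]
    simp
  set n := max a.natDegree b.natDegree with hn
  set m := ht g with hm
  set c := g.num with hc'
  set d := g.denom with hd'
  have hd0 : d ≠ 0 := RatFunc.denom_ne_zero g
  have hcd : IsCoprime c d := RatFunc.isCoprime_num_denom g
  have hcm : c.natDegree ≤ m := le_max_left _ _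
  have hdm : d.natDegree ≤ m := le_max_right _ _
  set ψ := algebraMap κ[X] (RatFunc κ) with hψ
  set A := homog (C : κ →+* κ[X]) a n c d with hA
  set B := homog (C : κ →+* κ[X]) b n c d with hB
  have hψd : ψ d ≠ 0 := RatFunc.algebraMap_ne_zero hd0
  have hgcd : ψ c / ψ d = g := RatFunc.num_div_denom g
  -- Step 1: `ψ A = (ψ d)^n a(g)`, `ψ B = (ψ d)^n b(g)`
  have hψA : ψ A = ψ d ^ n * aeval g a := by
    rw [hA, map_homog, homog_eq_mul_eval₂ _ (le_max_left _ _) _ hψd, hgcd, aeval_eq_eval₂_comp]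
  have hψB : ψ B = ψ d ^ n * aeval g b := by
    rw [hB, map_homog, homog_eq_mul_eval₂ _ (le_max_right _ _) _ hψd, hgcd, aeval_eq_eval₂_comp]
  have hfrac : aeval g a / aeval g b = ψ A / ψ B := by
    rw [hψA, hψB, mul_div_mul_left _ _ (pow_ne_zero n hψd)]
  -- Step 4: top coefficients
  have hst : c.coeff m ≠ 0 ∨ d.coeff m ≠ 0 := coeff_ht_ne_zero_or g
  have htop := homog_ne_zero_or (RingHom.id κ) hc hst
  rw [← hn, ← coeff_homog a n hcm hdm, ← coeff_homog b n hcm hdm] at htop
  change A.coeff (n * m) ≠ 0 ∨ B.coeff (n * m) ≠ 0 at htop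
  have hAle : A.natDegree ≤ n * m := natDegree_homog_le a n hcm hdm
  have hBle : B.natDegree ≤ n * m := natDegree_homog_le b n hcm hdm
  have hmax : max A.natDegree B.natDegree = n * m := by
    apply le_antisymm (max_le hAle hBle)
    rcases htop with h | h
    · exact (le_natDegree_of_ne_zero h).trans (le_max_left _ _)
    · exact (le_natDegree_of_ne_zero h).trans (le_max_right _ _)
  -- Step 3: coprimality
  have hnz : ¬(A = 0 ∧ B = 0) := by
    rintro ⟨h1, h2⟩
    rcases htop with h | h
    · rw [h1, coeff_zero] at h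
      exact h rfl
    · rw [h2, coeff_zero] at h
      exact h rfl
  have hAB : IsCoprime A B := by
    refine isCoprime_of_irreducible_dvd hnz fun π hπ hπA hπB => ?_
    have : Fact (Irreducible π) := ⟨hπ⟩
    have h1 : AdjoinRoot.mk π A = 0 := AdjoinRoot.mk_eq_zero.2 hπA
    have h2 : AdjoinRoot.mk π B = 0 := AdjoinRoot.mk_eq_zero.2 hπB
    rw [hA, map_homog] at h1
    rw [hB, map_homog] at h2
    have hst' : AdjoinRoot.mk π c ≠ 0 ∨ AdjoinRoot.mk π d ≠ 0 := by
      by_contra hcon
      rw [not_or, not_not, not_not, AdjoinRoot.mk_eq_zero, AdjoinRoot.mk_eq_zero] at hcon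
      obtain ⟨u, v, huv⟩ := hcd
      have : π ∣ 1 := by
        rw [← huv]
        exact dvd_add (Dvd.dvd.mul_left hcon.1 u) (Dvd.dvd.mul_left hcon.2 v)
      exact hπ.not_isUnit (isUnit_of_dvd_one this)
    rcases homog_ne_zero_or ((AdjoinRoot.mk π).comp C) hc hst' with h | h
    · exact h h1
    · exact h h2
  -- Step 5: `B ≠ 0`
  have hB0 : B ≠ 0 := by
    intro hB0
    rw [hB0, isCoprime_zero_right] at hAB
    rw [hB0, natDegree_zero, natDegree_eq_zero_of_isUnit hAB, max_self] at hmax
    have hn0 : n = 0 := by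
      rcases Nat.eq_zero_or_pos n with h | h
      · exact h
      · exact absurd hmax.symm (Nat.mul_ne_zero (Nat.pos_iff_ne_zero.1 h) hg)
    have hbdeg : b.natDegree = 0 := Nat.le_zero.1 (hn0 ▸ le_max_right a.natDegree b.natDegree)
    have : B = C (b.coeff 0) := by
      rw [hB, hn0, homog]
      simp
    rw [hB0] at this
    apply hb
    rw [eq_C_of_natDegree_eq_zero hbdeg, ← this]
  rw [hfrac, ht_div hB0 hAB, hmax]

/-- Height of a polynomial in `g`. -/
theorem ht_aeval (a : κ[X]) {g : RatFunc κ} (hg : ht g ≠ 0) :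
    ht (aeval g a) = a.natDegree * ht g := by
  have h := ht_comp (a := a) (b := 1) isCoprime_one_right hg
  rwa [map_one, div_one, natDegree_one, max_eq_left (Nat.zero_le _)] at h

/-- The height is invariant under affine substitutions in the target. -/
theorem ht_C_mul_add_C {a : κ} (ha : a ≠ 0) (b : κ) (g : RatFunc κ) :
    ht (RatFunc.C a * g + RatFunc.C b) = ht g := by
  by_cases hg : ht g = 0
  · obtain ⟨c, rfl⟩ := (ht_eq_zero_iff g).1 hg
    rw [← map_mul, ← map_add, ht_C, ht_C]
  · have h := ht_aeval (C a * X + C b) hg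
    rw [natDegree_linear ha, one_mul, map_add, map_mul, aeval_C, aeval_C, aeval_X,
      RatFunc.algebraMap_eq_C] at h
    exact h

theorem ht_C_mul {a : κ} (ha : a ≠ 0) (g : RatFunc κ) : ht (RatFunc.C a * g) = ht g := by
  have := ht_C_mul_add_C ha 0 g
  rwa [map_zero, add_zero] at this

theorem ht_add_C (b : κ) (g : RatFunc κ) : ht (g + RatFunc.C b) = ht g := by
  have := ht_C_mul_add_C (one_ne_zero) b g
  rwa [map_one, one_mul] at this

theorem ht_neg (g : RatFunc κ) : ht (-g) = ht g := by
  have := ht_C_mul (neg_ne_zero.2 (one_ne_zero (α := κ))) g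
  rwa [map_neg, map_one, neg_one_mul] at this

end Comp

/-! ### Gauss for a triple -/

section Triple

/-- In `κ[X]`, a triple with no common irreducible factor and a nonzero member generates the unit
ideal. -/
theorem exists_bezout_of_no_common_irreducible {A B C₁ : κ[X]} (hA : A ≠ 0)
    (h : ∀ π : κ[X], Irreducible π → π ∣ A → π ∣ B → π ∣ C₁ → False) :
    ∃ x y z : κ[X], x * A + y * B + z * C₁ = 1 := by
  set I : Ideal κ[X] := Ideal.span {A, B, C₁} with hI
  obtain ⟨g, hg⟩ : ∃ g, I = Ideal.span {g} := (IsPrincipalIdealRing.principal I).principal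
  have hAI : A ∈ I := Ideal.subset_span (by simp)
  have hBI : B ∈ I := Ideal.subset_span (by simp)
  have hCI : C₁ ∈ I := Ideal.subset_span (by simp)
  rw [hg, Ideal.mem_span_singleton] at hAI hBI hCI
  have hg0 : g ≠ 0 := by
    rintro rfl
    exact hA (zero_dvd_iff.1 hAI)
  have hgu : IsUnit g := by
    by_contra hnu
    obtain ⟨π, hπ, hπg⟩ := WfDvdMonoid.exists_irreducible_factor hnu hg0
    exact h π hπ (hπg.trans hAI) (hπg.trans hBI) (hπg.trans hCI)
  have h1 : (1 : κ[X]) ∈ I := by
    rw [hg, Ideal.mem_span_singleton]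
    exact hgu.dvd
  rw [hI, Ideal.mem_span_insert] at h1
  obtain ⟨x, w, hw, h1⟩ := h1
  rw [Ideal.mem_span_pair] at hw
  obtain ⟨y, z, rfl⟩ := hw
  exact ⟨x, y, z, by rw [h1]; ring⟩

/-- Two coprime triples representing the same point of the projective plane over `κ(X)` have
associated entries. -/
theorem associated_of_triples {A B C₁ A' B' C₁' : κ[X]} (hA : A ≠ 0)
    (hbez : ∃ x y z : κ[X], x * A + y * B + z * C₁ = 1)
    (hbez' : ∃ x y z : κ[X], x * A' + y * B' + z * C₁' = 1)
    (hB : A * B' = A' * B) (hC : A * C₁' = A' * C₁) :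
    Associated A A' ∧ Associated B B' ∧ Associated C₁ C₁' := by
  obtain ⟨x, y, z, h1⟩ := hbez
  obtain ⟨x', y', z', h1'⟩ := hbez'
  have hd1 : A ∣ A' := ⟨x * A' + y * B' + z * C₁', by
    calc A' = A' * (x * A + y * B + z * C₁) := by rw [h1, mul_one]
      _ = x * (A * A') + y * (A' * B) + z * (A' * C₁) := by ring
      _ = x * (A * A') + y * (A * B') + z * (A * C₁') := by rw [hB, hC]
      _ = A * (x * A' + y * B' + z * C₁') := by ring⟩
  have hd2 : A' ∣ A := ⟨x' * A + y' * B + z' * C₁, by
    calc A = A * (x' * A' + y' * B' + z' * C₁') := by rw [h1', mul_one]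
      _ = x' * (A * A') + y' * (A * B') + z' * (A * C₁') := by ring
      _ = x' * (A * A') + y' * (A' * B) + z' * (A' * C₁) := by rw [hB, hC]
      _ = A' * (x' * A + y' * B + z' * C₁) := by ring⟩
  have hass : Associated A A' := associated_of_dvd_dvd hd1 hd2
  obtain ⟨u, hu⟩ := hass
  refine ⟨⟨u, hu⟩, ⟨u, ?_⟩, ⟨u, ?_⟩⟩
  · apply mul_left_cancel₀ hA
    rw [hB, ← hu]
    ring
  · apply mul_left_cancel₀ hA
    rw [hC, ← hu]
    ring

/-- The explicit triple `(b d, a d + b c, a c)` of `u = a / b`, `w = c / d`. -/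
theorem max_natDegree_explicit (u w : RatFunc κ) :
    max (max (u.denom * w.denom).natDegree (u.num * w.denom + u.denom * w.num).natDegree)
      (u.num * w.num).natDegree = ht u + ht w := by
  set a := u.num
  set b := u.denom
  set c := w.num
  set d := w.denom
  set n₁ := ht u with hn₁
  set n₂ := ht w with hn₂
  have ha : a.natDegree ≤ n₁ := le_max_left _ _
  have hb : b.natDegree ≤ n₁ := le_max_right _ _
  have hc : c.natDegree ≤ n₂ := le_max_left _ _
  have hd : d.natDegree ≤ n₂ := le_max_right _ _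
  have h1 : (b * d).natDegree ≤ n₁ + n₂ := natDegree_mul_le_of_le hb hd
  have h2 : (a * d + b * c).natDegree ≤ n₁ + n₂ :=
    (natDegree_add_le _ _).trans
      (max_le (natDegree_mul_le_of_le ha hd) (natDegree_mul_le_of_le hb hc))
  have h3 : (a * c).natDegree ≤ n₁ + n₂ := natDegree_mul_le_of_le ha hc
  apply le_antisymm (max_le (max_le h1 h2) h3)
  have c1 : (b * d).coeff (n₁ + n₂) = b.coeff n₁ * d.coeff n₂ :=
    coeff_mul_add_eq_of_natDegree_le hb hd
  have c2 : (a * d + b * c).coeff (n₁ + n₂) = a.coeff n₁ * d.coeff n₂ + b.coeff n₁ * c.coeff n₂ := by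
    rw [coeff_add, coeff_mul_add_eq_of_natDegree_le ha hd, coeff_mul_add_eq_of_natDegree_le hb hc]
  have c3 : (a * c).coeff (n₁ + n₂) = a.coeff n₁ * c.coeff n₂ :=
    coeff_mul_add_eq_of_natDegree_le ha hc
  have hu := coeff_ht_ne_zero_or u
  have hw := coeff_ht_ne_zero_or w
  by_cases e1 : (b * d).coeff (n₁ + n₂) = 0
  · by_cases e3 : (a * c).coeff (n₁ + n₂) = 0
    · have e2 : (a * d + b * c).coeff (n₁ + n₂) ≠ 0 := by
        rw [c2]
        rw [c1, mul_eq_zero] at e1
        rw [c3, mul_eq_zero] at e3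
        rcases e1 with e1 | e1
        · have ha0 : a.coeff n₁ ≠ 0 := hu.resolve_right (not_not.2 e1)
          have hc0 : c.coeff n₂ = 0 := e3.resolve_left ha0
          have hd0 : d.coeff n₂ ≠ 0 := hw.resolve_left (not_not.2 hc0)
          rw [e1, zero_mul, add_zero]
          exact mul_ne_zero ha0 hd0
        · have hc0 : c.coeff n₂ ≠ 0 := hw.resolve_right (not_not.2 e1)
          have ha0 : a.coeff n₁ = 0 := e3.resolve_right hc0
          have hb0 : b.coeff n₁ ≠ 0 := hu.resolve_left (not_not.2 ha0)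
          rw [ha0, zero_mul, zero_add]
          exact mul_ne_zero hb0 hc0
      exact (le_natDegree_of_ne_zero e2).trans ((le_max_right _ _).trans (le_max_left _ _))
    · exact (le_natDegree_of_ne_zero e3).trans (le_max_right _ _)
  · exact (le_natDegree_of_ne_zero e1).trans ((le_max_left _ _).trans (le_max_left _ _))

/-- The explicit triple is coprime. -/
theorem no_common_irreducible_explicit (u w : RatFunc κ) (π : κ[X]) (hπ : Irreducible π)
    (h1 : π ∣ u.denom * w.denom) (h2 : π ∣ u.num * w.denom + u.denom * w.num)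
    (h3 : π ∣ u.num * w.num) : False := by
  have hp : Prime π := hπ.prime
  have hu : ¬(π ∣ u.num ∧ π ∣ u.denom) := by
    rintro ⟨ha, hb⟩
    obtain ⟨x, y, hxy⟩ := RatFunc.isCoprime_num_denom u
    have : π ∣ 1 := by
      rw [← hxy]
      exact dvd_add (Dvd.dvd.mul_left ha x) (Dvd.dvd.mul_left hb y)
    exact hπ.not_isUnit (isUnit_of_dvd_one this)
  have hw : ¬(π ∣ w.num ∧ π ∣ w.denom) := by
    rintro ⟨ha, hb⟩
    obtain ⟨x, y, hxy⟩ := RatFunc.isCoprime_num_denom w
    have : π ∣ 1 := by
      rw [← hxy]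
      exact dvd_add (Dvd.dvd.mul_left ha x) (Dvd.dvd.mul_left hb y)
    exact hπ.not_isUnit (isUnit_of_dvd_one this)
  rcases hp.dvd_or_dvd h1 with hb | hd
  · have ha : ¬ π ∣ u.num := fun ha => hu ⟨ha, hb⟩
    have hc : π ∣ w.num := (hp.dvd_or_dvd h3).resolve_left ha
    have h4 : π ∣ u.num * w.denom := by
      have := dvd_sub h2 (Dvd.dvd.mul_left hc u.denom)
      rwa [add_sub_cancel_right] at this
    exact hw ⟨hc, (hp.dvd_or_dvd h4).resolve_left ha⟩
  · have hc : ¬ π ∣ w.num := fun hc => hw ⟨hc, hd⟩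
    have ha : π ∣ u.num := (hp.dvd_or_dvd h3).resolve_right hc
    have h4 : π ∣ u.denom * w.num := by
      have := dvd_sub h2 (Dvd.dvd.mul_right ha w.denom)
      rwa [add_sub_cancel_left] at this
    exact hu ⟨ha, (hp.dvd_or_dvd h4).resolve_right hc⟩

/-- **Gauss for a triple** (Bezout form). -/
theorem max_natDegree_eq_ht_add_ht {u w : RatFunc κ} {A B C₁ : κ[X]} (hA : A ≠ 0)
    (hbez : ∃ x y z : κ[X], x * A + y * B + z * C₁ = 1)
    (h1 : u + w = algebraMap κ[X] (RatFunc κ) B / algebraMap κ[X] (RatFunc κ) A)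
    (h2 : u * w = algebraMap κ[X] (RatFunc κ) C₁ / algebraMap κ[X] (RatFunc κ) A) :
    max (max A.natDegree B.natDegree) C₁.natDegree = ht u + ht w := by
  set ψ := algebraMap κ[X] (RatFunc κ) with hψ
  have hinj : Function.Injective ψ := RatFunc.algebraMap_injective κ
  set a := u.num
  set b := u.denom
  set c := w.num
  set d := w.denom
  have hb0 : b ≠ 0 := RatFunc.denom_ne_zero u
  have hd0 : d ≠ 0 := RatFunc.denom_ne_zero w
  have hψA : ψ A ≠ 0 := RatFunc.algebraMap_ne_zero hA
  have hψb : ψ b ≠ 0 := RatFunc.algebraMap_ne_zero hb0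
  have hψd : ψ d ≠ 0 := RatFunc.algebraMap_ne_zero hd0
  have hu : u = ψ a / ψ b := (RatFunc.num_div_denom u).symm
  have hw : w = ψ c / ψ d := (RatFunc.num_div_denom w).symm
  have hA' : b * d ≠ 0 := mul_ne_zero hb0 hd0
  -- the two cross relations
  have hB : A * (a * d + b * c) = (b * d) * B := by
    apply hinj
    have : (ψ a / ψ b + ψ c / ψ d) = ψ B / ψ A := by rw [← hu, ← hw, h1]
    simp only [map_mul, map_add]
    field_simp at this
    linear_combination this
  have hC : A * (a * c) = (b * d) * C₁ := by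
    apply hinj
    have : (ψ a / ψ b * (ψ c / ψ d)) = ψ C₁ / ψ A := by rw [← hu, ← hw, h2]
    simp only [map_mul]
    field_simp at this
    linear_combination this
  have hbez' := exists_bezout_of_no_common_irreducible hA'
    (no_common_irreducible_explicit u w)
  obtain ⟨e1, e2, e3⟩ := associated_of_triples hA hbez hbez' hB hC
  rw [natDegree_eq_of_degree_eq (degree_eq_degree_of_associated e1),
    natDegree_eq_of_degree_eq (degree_eq_degree_of_associated e2),
    natDegree_eq_of_degree_eq (degree_eq_degree_of_associated e3)]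
  exact max_natDegree_explicit u w

/-- **Gauss for a triple** (no common irreducible factor). -/
theorem max_natDegree_eq_ht_add_ht' {u w : RatFunc κ} {A B C₁ : κ[X]} (hA : A ≠ 0)
    (hcop : ∀ π : κ[X], Irreducible π → π ∣ A → π ∣ B → π ∣ C₁ → False)
    (h1 : u + w = algebraMap κ[X] (RatFunc κ) B / algebraMap κ[X] (RatFunc κ) A)
    (h2 : u * w = algebraMap κ[X] (RatFunc κ) C₁ / algebraMap κ[X] (RatFunc κ) A) :
    max (max A.natDegree B.natDegree) C₁.natDegree = ht u + ht w :=
  max_natDegree_eq_ht_add_ht hA (exists_bezout_of_no_common_irreducible hA hcop) h1 h2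

end Triple

end Fermat.Agent.S58.EC.Height
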