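/-
S58 / EC-U2 (helper14): a Weierstrass curve over an algebraically closed field with `Δ = 0`,
`c₄ ≠ 0` (a nodal cubic) has a nonsingular point of exact order `n` for every `n` invertible
in the field.  Route: move the node to `(0,0)` (rational formulas for the node, valid in every
characteristic), then the explicit injective homomorphism `kˣ → W.Point`,
`u ↦ (uδ²/(u-1)², (uα'-α)uδ²/(u-1)³)`, where `α, α'` are the two tangent slopes at the node.
-/
import Mathlib
import Fermat.Agent.S05.Transfer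

set_option autoImplicit false

open WeierstrassCurve WeierstrassCurve.Affine

namespace Fermat.Agent.S58.EC.Nodal

variable {k : Type*} [Field k]

/-! ## The normal form `y² - (α+α')xy = x³ - αα'x²` -/

/-- `W` is the nodal cubic `(y - αx)(y - α'x) = x³` with distinct tangent slopes. -/
structure NodeForm (W : Affine k) (α α' : k) : Prop where
  a₁ : W.a₁ = -(α + α')
  a₂ : W.a₂ = -(α * α')
  a₃ : W.a₃ = 0
  a₄ : W.a₄ = 0
  a₆ : W.a₆ = 0
  ne : α ≠ α'

/-- `x`-coordinate of the point with parameter `u`. -/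
def px (α α' u : k) : k := u * (α' - α) ^ 2 / (u - 1) ^ 2

/-- `y`-coordinate of the point with parameter `u`. -/
def py (α α' u : k) : k := (u * α' - α) * u * (α' - α) ^ 2 / (u - 1) ^ 3

variable {W : Affine k} {α α' : k}

lemma px_ne_zero (hne : α ≠ α') {u : k} (hu0 : u ≠ 0) (hu1 : u ≠ 1) : px α α' u ≠ 0 := by
  have h1 : u - 1 ≠ 0 := sub_ne_zero.mpr hu1
  have h2 : α' - α ≠ 0 := sub_ne_zero.mpr (Ne.symm hne)
  unfold px
  exact div_ne_zero (mul_ne_zero hu0 (pow_ne_zero _ h2)) (pow_ne_zero _ h1)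

lemma equation_px_py (hW : NodeForm W α α') {u : k} (hu1 : u ≠ 1) :
    W.Equation (px α α' u) (py α α' u) := by
  have h1 : u - 1 ≠ 0 := sub_ne_zero.mpr hu1
  rw [equation_iff, hW.a₁, hW.a₂, hW.a₃, hW.a₄, hW.a₆]
  unfold px py
  field_simp
  ring

/-- On a curve in node form every point of the curve other than the node is nonsingular
(Euler identity `x F_x + y F_y = 2F - x³`). -/
lemma nonsingular_of_equation (hW : NodeForm W α α') {x y : k} (h : W.Equation x y)
    (hx : x ≠ 0) : W.Nonsingular x y := by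
  rw [nonsingular_iff']
  refine ⟨h, ?_⟩
  by_contra hcon
  rw [not_or, not_not, not_not] at hcon
  obtain ⟨h1, h2⟩ := hcon
  rw [equation_iff] at h
  rw [hW.a₁, hW.a₂, hW.a₃, hW.a₄, hW.a₆] at h
  rw [hW.a₁, hW.a₂, hW.a₄] at h1
  rw [hW.a₁, hW.a₃] at h2
  have : x ^ 3 = 0 := by linear_combination 2 * h - x * h1 - y * h2
  exact hx (pow_eq_zero_iff (by norm_num) |>.mp this)

lemma nonsingular_px_py (hW : NodeForm W α α') {u : k} (hu0 : u ≠ 0) (hu1 : u ≠ 1) :
    W.Nonsingular (px α α' u) (py α α' u) :=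
  nonsingular_of_equation hW (equation_px_py hW hu1) (px_ne_zero hW.ne hu0 hu1)

lemma px_sub_px {u v : k} (hu1 : u ≠ 1) (hv1 : v ≠ 1) :
    px α α' u - px α α' v = (α' - α) ^ 2 * (u - v) * (1 - u * v) / ((u - 1) ^ 2 * (v - 1) ^ 2) := by
  have h1 : u - 1 ≠ 0 := sub_ne_zero.mpr hu1
  have h2 : v - 1 ≠ 0 := sub_ne_zero.mpr hv1
  unfold px
  field_simp
  ring

lemma px_ne_px (hne : α ≠ α') {u v : k} (hu1 : u ≠ 1) (hv1 : v ≠ 1) (huv : u ≠ v)
    (huv1 : u * v ≠ 1) : px α α' u ≠ px α α' v := by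
  have h1 : u - 1 ≠ 0 := sub_ne_zero.mpr hu1
  have h2 : v - 1 ≠ 0 := sub_ne_zero.mpr hv1
  have h3 : α' - α ≠ 0 := sub_ne_zero.mpr (Ne.symm hne)
  rw [← sub_ne_zero, px_sub_px hu1 hv1]
  refine div_ne_zero (mul_ne_zero (mul_ne_zero (pow_ne_zero _ h3) (sub_ne_zero.mpr huv)) ?_)
    (mul_ne_zero (pow_ne_zero _ h1) (pow_ne_zero _ h2))
  exact sub_ne_zero.mpr (Ne.symm huv1)

/-! ## The addition law in the parameter -/

variable [DecidableEq k]

/-- generic case: `P(u) + P(v) = P(uv)` when `u ≠ v`, `uv ≠ 1`. -/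
lemma add_generic (hW : NodeForm W α α') {u v : k} (hu0 : u ≠ 0) (hv0 : v ≠ 0) (hu1 : u ≠ 1)
    (hv1 : v ≠ 1) (huv : u ≠ v) (huv1 : u * v ≠ 1) :
    Point.some _ _ (nonsingular_px_py hW hu0 hu1) + Point.some _ _ (nonsingular_px_py hW hv0 hv1)
      = Point.some _ _ (nonsingular_px_py hW (mul_ne_zero hu0 hv0) huv1) := by
  have hx : px α α' u ≠ px α α' v := px_ne_px hW.ne hu1 hv1 huv huv1
  rw [Point.add_of_X_ne hx]
  have h1 : u - 1 ≠ 0 := sub_ne_zero.mpr hu1
  have h2 : v - 1 ≠ 0 := sub_ne_zero.mpr hv1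
  have h3 : α' - α ≠ 0 := sub_ne_zero.mpr (Ne.symm hW.ne)
  have h4 : u * v - 1 ≠ 0 := sub_ne_zero.mpr huv1
  have h5 : u - v ≠ 0 := sub_ne_zero.mpr huv
  have hsl : W.slope (px α α' u) (px α α' v) (py α α' u) (py α α' v)
      = α' + (α' - α) * ((u - 1) ^ 2 + (u - 1) * (v - 1) + (v - 1) ^ 2
          + (u - 1) * (v - 1) * (u + v - 2)) / ((u - 1) * (v - 1) * (u * v - 1)) := by
    rw [slope_of_X_ne hx, div_eq_iff (sub_ne_zero.mpr hx), px_sub_px hu1 hv1]
    unfold py
    field_simp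
    ring
  refine Fermat.Agent.S05.Transfer.some_congr _ _ ?_ ?_
  · rw [hsl]
    unfold addX
    rw [hW.a₁, hW.a₂]
    unfold px
    field_simp
    ring
  · rw [hsl]
    unfold addY negAddY negY addX
    rw [hW.a₁, hW.a₂, hW.a₃]
    unfold px py
    field_simp
    ring

omit [DecidableEq k] in
lemma py_sub_negY (hW : NodeForm W α α') {u : k} (hu1 : u ≠ 1) :
    py α α' u - W.negY (px α α' u) (py α α' u)
      = u * (u + 1) * (α' - α) ^ 3 / (u - 1) ^ 3 := by
  have h1 : u - 1 ≠ 0 := sub_ne_zero.mpr hu1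
  unfold negY
  rw [hW.a₁, hW.a₃]
  unfold px py
  field_simp
  ring

/-- doubling: `P(u) + P(u) = P(u²)` when `u² ≠ 1`. -/
lemma add_double (hW : NodeForm W α α') {u : k} (hu0 : u ≠ 0) (hu1 : u ≠ 1)
    (huu : u * u ≠ 1) :
    Point.some _ _ (nonsingular_px_py hW hu0 hu1) + Point.some _ _ (nonsingular_px_py hW hu0 hu1)
      = Point.some _ _ (nonsingular_px_py hW (mul_ne_zero hu0 hu0) huu) := by
  have h1 : u - 1 ≠ 0 := sub_ne_zero.mpr hu1
  have h3 : α' - α ≠ 0 := sub_ne_zero.mpr (Ne.symm hW.ne)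
  have h4 : u * u - 1 ≠ 0 := sub_ne_zero.mpr huu
  have e : u * u - 1 = (u - 1) * (u + 1) := by ring
  have h5 : u + 1 ≠ 0 := by
    intro h
    apply h4
    have : u = -1 := eq_neg_of_add_eq_zero_left h
    rw [this]; ring
  have hy : py α α' u ≠ W.negY (px α α' u) (py α α' u) := by
    rw [← sub_ne_zero, py_sub_negY hW hu1]
    exact div_ne_zero (mul_ne_zero (mul_ne_zero hu0 h5) (pow_ne_zero _ h3)) (pow_ne_zero _ h1)
  rw [Point.add_self_of_Y_ne hy]
  have hsl : W.slope (px α α' u) (px α α' u) (py α α' u) (py α α' u)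
      = α' + (α' - α) * (2 * u + 1) / ((u - 1) * (u + 1)) := by
    rw [slope_of_Y_ne rfl hy, div_eq_iff (sub_ne_zero.mpr hy), py_sub_negY hW hu1,
      hW.a₁, hW.a₂, hW.a₄]
    unfold px py
    field_simp
    ring
  refine Fermat.Agent.S05.Transfer.some_congr _ _ ?_ ?_
  · rw [hsl]
    unfold addX
    rw [hW.a₁, hW.a₂]
    unfold px
    rw [e]
    field_simp
    ring
  · rw [hsl]
    unfold addY negAddY negY addX
    rw [hW.a₁, hW.a₂, hW.a₃]
    unfold px py
    rw [e]
    field_simp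
    ring

/-- inverse: `P(u) + P(u⁻¹) = 0`. -/
lemma add_inv (hW : NodeForm W α α') {u v : k} (hu0 : u ≠ 0) (hv0 : v ≠ 0) (hu1 : u ≠ 1)
    (hv1 : v ≠ 1) (huv1 : u * v = 1) :
    Point.some _ _ (nonsingular_px_py hW hu0 hu1) + Point.some _ _ (nonsingular_px_py hW hv0 hv1)
      = 0 := by
  have h1 : u - 1 ≠ 0 := sub_ne_zero.mpr hu1
  have hv : v = u⁻¹ := eq_inv_of_mul_eq_one_right huv1
  subst hv
  have h2 : 1 - u ≠ 0 := sub_ne_zero.mpr (Ne.symm hu1)
  refine Point.add_of_Y_eq ?_ ?_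
  · unfold px
    field_simp
    ring
  · unfold negY
    rw [hW.a₁, hW.a₃]
    unfold px py
    field_simp
    ring

/-! ## The homomorphism `kˣ → W.Point` -/

/-- The nonsingular point with parameter `u ∈ kˣ` (`u = 1 ↦ 0`). -/
noncomputable def toPoint (hW : NodeForm W α α') (u : kˣ) : W.Point :=
  if h : (u : k) = 1 then 0 else Point.some _ _ (nonsingular_px_py hW u.ne_zero h)

lemma toPoint_of_eq (hW : NodeForm W α α') {u : kˣ} (h : (u : k) = 1) : toPoint hW u = 0 := by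
  rw [toPoint, dif_pos h]

lemma toPoint_of_ne (hW : NodeForm W α α') {u : kˣ} (h : (u : k) ≠ 1) :
    toPoint hW u = Point.some _ _ (nonsingular_px_py hW u.ne_zero h) := by
  rw [toPoint, dif_neg h]

lemma toPoint_eq_zero_iff (hW : NodeForm W α α') {u : kˣ} : toPoint hW u = 0 ↔ u = 1 := by
  constructor
  · intro h
    by_contra hu
    have hu' : (u : k) ≠ 1 := fun e => hu (Units.ext e)
    rw [toPoint_of_ne hW hu'] at h
    exact Point.some_ne_zero _ h
  · rintro rfl
    exact toPoint_of_eq hW Units.val_one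

lemma toPoint_mul (hW : NodeForm W α α') (u v : kˣ) :
    toPoint hW (u * v) = toPoint hW u + toPoint hW v := by
  by_cases hu : (u : k) = 1
  · have : u = 1 := Units.ext hu
    subst this
    rw [one_mul, toPoint_of_eq hW (u := 1) Units.val_one, zero_add]
  by_cases hv : (v : k) = 1
  · have : v = 1 := Units.ext hv
    subst this
    rw [mul_one, toPoint_of_eq hW (u := 1) Units.val_one, add_zero]
  rw [toPoint_of_ne hW hu, toPoint_of_ne hW hv]
  by_cases huv1 : (u : k) * (v : k) = 1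
  · rw [toPoint_of_eq hW (by rw [Units.val_mul]; exact huv1)]
    exact (add_inv hW u.ne_zero v.ne_zero hu hv huv1).symm
  have huv1' : ((u * v : kˣ) : k) ≠ 1 := by rw [Units.val_mul]; exact huv1
  rw [toPoint_of_ne hW huv1']
  by_cases huv : u = v
  · subst huv
    rw [add_double hW u.ne_zero hu huv1]
    exact Fermat.Agent.S05.Transfer.some_congr _ _ (by rw [Units.val_mul]) (by rw [Units.val_mul])
  · have huv' : (u : k) ≠ (v : k) := fun e => huv (Units.ext e)
    rw [add_generic hW u.ne_zero v.ne_zero hu hv huv' huv1]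
    exact Fermat.Agent.S05.Transfer.some_congr _ _ (by rw [Units.val_mul]) (by rw [Units.val_mul])

/-- `toPoint` as an additive homomorphism from `Additive kˣ`. -/
noncomputable def toPointHom (hW : NodeForm W α α') : Additive kˣ →+ W.Point where
  toFun u := toPoint hW u.toMul
  map_zero' := toPoint_of_eq hW (u := 1) Units.val_one
  map_add' u v := toPoint_mul hW u.toMul v.toMul

lemma toPointHom_injective (hW : NodeForm W α α') : Function.Injective (toPointHom hW) := by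
  rw [injective_iff_map_eq_zero]
  intro u hu
  have : u.toMul = 1 := (toPoint_eq_zero_iff hW).mp hu
  exact this

/-- In node form there is a point of exact order `n` whenever `k` has a primitive `n`-th root
of unity. -/
theorem exists_addOrderOf_eq_of_nodeForm (hW : NodeForm W α α') {n : ℕ} {ζ : k}
    (hζ : IsPrimitiveRoot ζ n) (hn : n ≠ 0) : ∃ P : W.Point, addOrderOf P = n := by
  have hζ0 : ζ ≠ 0 := hζ.ne_zero hn
  refine ⟨toPointHom hW (Additive.ofMul (Units.mk0 ζ hζ0)), ?_⟩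
  rw [addOrderOf_injective (toPointHom hW) (toPointHom_injective hW), addOrderOf_ofMul_eq_orderOf]
  have h2 : orderOf (Units.mk0 ζ hζ0) = orderOf ζ := by
    rw [← orderOf_units, Units.val_mk0]
  rw [h2, ← hζ.eq_orderOf]

/-! ## The node of a singular Weierstrass cubic with `c₄ ≠ 0`, in every characteristic -/

section Universal

variable {R : Type*} [CommRing R] (V : WeierstrassCurve R)

/-- numerator of the `x`-coordinate of the node (`x₀ = nodeX / c₄`). -/
def nodeX : R := 18 * V.b₆ - V.b₂ * V.b₄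

/-- numerator of the `y`-coordinate of the node (`y₀ = nodeY / c₄`). -/
def nodeY : R :=
  V.b₂ * (V.a₁ * V.a₄ - 2 * V.a₂ * V.a₃) + 3 * (V.a₁ * (V.a₃ ^ 2 - 12 * V.a₆) + 8 * V.a₃ * V.a₄)

lemma node_polyY : 2 * nodeY V + V.a₁ * nodeX V + V.a₃ * V.c₄ = 0 := by
  simp only [nodeX, nodeY, WeierstrassCurve.c₄, WeierstrassCurve.b₂, WeierstrassCurve.b₄,
    WeierstrassCurve.b₆]
  ring

lemma node_polyX :
    V.a₁ * nodeY V * V.c₄ - (3 * nodeX V ^ 2 + 2 * V.a₂ * nodeX V * V.c₄ + V.a₄ * V.c₄ ^ 2)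
      = 36 * V.Δ := by
  simp only [nodeX, nodeY, WeierstrassCurve.Δ, WeierstrassCurve.c₄, WeierstrassCurve.b₂,
    WeierstrassCurve.b₄, WeierstrassCurve.b₆, WeierstrassCurve.b₈]
  ring

lemma node_poly :
    nodeY V ^ 2 * V.c₄ + V.a₁ * nodeX V * nodeY V * V.c₄ + V.a₃ * nodeY V * V.c₄ ^ 2
      - (nodeX V ^ 3 + V.a₂ * nodeX V ^ 2 * V.c₄ + V.a₄ * nodeX V * V.c₄ ^ 2 + V.a₆ * V.c₄ ^ 3)
      = -V.c₆ * V.Δ := by
  simp only [nodeX, nodeY, WeierstrassCurve.Δ, WeierstrassCurve.c₄, WeierstrassCurve.c₆,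
    WeierstrassCurve.b₂, WeierstrassCurve.b₄, WeierstrassCurve.b₆, WeierstrassCurve.b₈]
  ring

end Universal

omit [DecidableEq k] in
/-- If `Δ = 0` and `c₄ ≠ 0`, the point `(nodeX / c₄, nodeY / c₄)` lies on the curve and is
singular. -/
lemma node_equation_and_singular (V : WeierstrassCurve k) (hΔ : V.Δ = 0) (hc₄ : V.c₄ ≠ 0) :
    V.toAffine.Equation (nodeX V / V.c₄) (nodeY V / V.c₄) ∧
      ¬ V.toAffine.Nonsingular (nodeX V / V.c₄) (nodeY V / V.c₄) := by
  have hE : V.toAffine.Equation (nodeX V / V.c₄) (nodeY V / V.c₄) := by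
    rw [equation_iff']
    have h := node_poly V
    rw [hΔ, mul_zero] at h
    have h' : (nodeY V / V.c₄) ^ 2 + V.a₁ * (nodeX V / V.c₄) * (nodeY V / V.c₄)
        + V.a₃ * (nodeY V / V.c₄) - ((nodeX V / V.c₄) ^ 3 + V.a₂ * (nodeX V / V.c₄) ^ 2
        + V.a₄ * (nodeX V / V.c₄) + V.a₆) = (nodeY V ^ 2 * V.c₄ + V.a₁ * nodeX V * nodeY V * V.c₄
        + V.a₃ * nodeY V * V.c₄ ^ 2 - (nodeX V ^ 3 + V.a₂ * nodeX V ^ 2 * V.c₄
        + V.a₄ * nodeX V * V.c₄ ^ 2 + V.a₆ * V.c₄ ^ 3)) / V.c₄ ^ 3 := by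
      field_simp
    rw [h', h, zero_div]
  refine ⟨hE, ?_⟩
  rw [nonsingular_iff']
  rintro ⟨-, h | h⟩
  · apply h
    have h1 := node_polyX V
    rw [hΔ, mul_zero] at h1
    have h' : V.a₁ * (nodeY V / V.c₄) - (3 * (nodeX V / V.c₄) ^ 2 + 2 * V.a₂ * (nodeX V / V.c₄)
        + V.a₄) = (V.a₁ * nodeY V * V.c₄ - (3 * nodeX V ^ 2 + 2 * V.a₂ * nodeX V * V.c₄
        + V.a₄ * V.c₄ ^ 2)) / V.c₄ ^ 2 := by
      field_simp
    rw [h', h1, zero_div]
  · apply h
    have h1 := node_polyY V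
    have h' : 2 * (nodeY V / V.c₄) + V.a₁ * (nodeX V / V.c₄) + V.a₃
        = (2 * nodeY V + V.a₁ * nodeX V + V.a₃ * V.c₄) / V.c₄ := by
      field_simp
    rw [h', h1, zero_div]

omit [DecidableEq k] in
/-- A singular Weierstrass cubic with `c₄ ≠ 0` over an algebraically closed field can be brought
into node form by a translation. -/
lemma exists_nodeForm [IsAlgClosed k] (V : WeierstrassCurve k) (hΔ : V.Δ = 0) (hc₄ : V.c₄ ≠ 0) :
    ∃ (C : VariableChange k) (α α' : k), NodeForm (C • V).toAffine α α' := by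
  obtain ⟨hE, hS⟩ := node_equation_and_singular V hΔ hc₄
  set x₀ := nodeX V / V.c₄
  set y₀ := nodeY V / V.c₄
  set C : VariableChange k := VariableChange.mk 1 x₀ 0 y₀ with hC
  have h6 : (C • V).a₆ = 0 := by
    have := (equation_iff_variableChange (W := V.toAffine) x₀ y₀).mp hE
    exact (equation_zero (W := (C • V).toAffine)).mp this
  have h34 : (C • V).a₃ = 0 ∧ (C • V).a₄ = 0 := by
    have hns : ¬ (C • V).toAffine.Nonsingular 0 0 := fun h =>
      hS ((nonsingular_iff_variableChange (W := V.toAffine) x₀ y₀).mpr h)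
    rw [nonsingular_zero] at hns
    by_contra hcon
    apply hns
    refine ⟨h6, ?_⟩
    by_contra h'
    rw [not_or, not_not, not_not] at h'
    exact hcon h'
  obtain ⟨h3, h4⟩ := h34
  have hc₄' : (C • V).c₄ = V.c₄ := by
    rw [variableChange_c₄, hC]
    simp
  have hb₂ : (C • V).b₂ ≠ 0 := by
    intro h
    apply hc₄
    rw [← hc₄', WeierstrassCurve.c₄, WeierstrassCurve.b₄, h, h3, h4]
    ring
  -- a root of `X² + a₁ X - a₂`
  obtain ⟨α, hα⟩ : ∃ α : k, α ^ 2 + (C • V).a₁ * α - (C • V).a₂ = 0 := by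
    have hdeg : (Polynomial.C (1 : k) * Polynomial.X ^ 2 + Polynomial.C (C • V).a₁ * Polynomial.X
        + Polynomial.C (-(C • V).a₂)).degree ≠ 0 := by
      rw [Polynomial.degree_quadratic one_ne_zero]
      norm_num
    obtain ⟨α, hα⟩ := IsAlgClosed.exists_root _ hdeg
    refine ⟨α, ?_⟩
    simp only [Polynomial.IsRoot.def, Polynomial.eval_add, Polynomial.eval_mul, Polynomial.eval_C,
      Polynomial.eval_pow, Polynomial.eval_X] at hα
    linear_combination hα
  refine ⟨C, α, -(C • V).a₁ - α, ⟨by ring, by linear_combination -hα, h3, h4, h6, ?_⟩⟩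
  intro h
  apply hb₂
  rw [WeierstrassCurve.b₂]
  have h1 : (C • V).a₁ = -2 * α := by linear_combination h
  rw [h1] at hα ⊢
  linear_combination -4 * hα

/-- **EC-U2.** A Weierstrass cubic over an algebraically closed field with `Δ = 0` and `c₄ ≠ 0`
(nodal cubic) has a nonsingular point of exact order `n`, for every `n` invertible in `k`. -/
theorem exists_addOrderOf_eq [IsAlgClosed k] (V : WeierstrassCurve k) (hΔ : V.Δ = 0)
    (hc₄ : V.c₄ ≠ 0) (n : ℕ) (hn : (n : k) ≠ 0) :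
    ∃ P : V.toAffine.Point, addOrderOf P = n := by
  obtain ⟨C, α, α', hW⟩ := exists_nodeForm V hΔ hc₄
  have : NeZero (n : k) := ⟨hn⟩
  have hn0 : n ≠ 0 := by
    rintro rfl
    exact hn Nat.cast_zero
  obtain ⟨ζ, hζ⟩ := HasEnoughRootsOfUnity.exists_primitiveRoot k n
  obtain ⟨P, hP⟩ := exists_addOrderOf_eq_of_nodeForm hW hζ hn0
  refine ⟨Fermat.Agent.S05.Transfer.pointEquiv C rfl P, ?_⟩
  rw [← hP]
  exact addOrderOf_injective (Fermat.Agent.S05.Transfer.pointEquiv C rfl).toAddMonoidHom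
    (Fermat.Agent.S05.Transfer.pointEquiv C rfl).injective P

end Fermat.Agent.S58.EC.Nodal
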