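/-
S58 / EC-U, abstract part (helper14).  Mathlib only.

* `exists_lift_addOrderOf`, `apply_eq_of_red_eq`: the group-theoretic core of "inertia fixes a
  point of exact order `m` with nonsingular reduction" (row 46, (U1)+(U3)).
* `charpoly_eq_sub_one_sq`: an endomorphism of determinant `1` of a free rank-two module which
  fixes a vector with trivial annihilator has characteristic polynomial `(X - 1)²`
  (Cayley–Hamilton applied to the vector; no basis extension).
* `smul_eq_zero_imp_of_addOrderOf`: a point of exact order `n` has trivial annihilator in any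
  `ZMod n`-module.
-/
import Mathlib

set_option autoImplicit false

open Polynomial

namespace Fermat.Agent.S58.EC.UnipotentAbs

section Group

variable {E G : Type*} [AddCommGroup E] [AddCommGroup G] (E0 : AddSubgroup E) (red : E0 →+ G)

/-- If the kernel of `red` is `m`-divisible, an element of order `m` in the range of `red` lifts
to an element of `E0` of exact order `m`. -/
theorem exists_lift_addOrderOf {m : ℕ}
    (hdiv : ∀ T : E0, red T = 0 → ∃ R : E0, red R = 0 ∧ m • R = T)
    {Q : G} (hQ : addOrderOf Q = m) (hQr : Q ∈ red.range) :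
    ∃ P : E0, red P = Q ∧ m • P = 0 ∧ addOrderOf (P : E) = m := by
  obtain ⟨P', hP'⟩ := hQr
  have h1 : red (m • P') = 0 := by
    rw [map_nsmul, hP', ← hQ, addOrderOf_nsmul_eq_zero]
  obtain ⟨R, hR0, hR⟩ := hdiv (m • P') h1
  refine ⟨P' - R, by rw [map_sub, hP', hR0, sub_zero], by rw [smul_sub, hR, sub_self], ?_⟩
  have hred : red (P' - R) = Q := by rw [map_sub, hP', hR0, sub_zero]
  have hm0 : m • (P' - R) = 0 := by rw [smul_sub, hR, sub_self]
  have hcoe : addOrderOf ((P' - R : E0) : E) = addOrderOf (P' - R : E0) :=
    addOrderOf_injective E0.subtype E0.subtype_injective (P' - R)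
  rw [hcoe]
  apply Nat.dvd_antisymm
  · exact addOrderOf_dvd_of_nsmul_eq_zero hm0
  · rw [← hQ, ← hred]
    apply addOrderOf_dvd_of_nsmul_eq_zero
    rw [← map_nsmul, addOrderOf_nsmul_eq_zero, map_zero]

/-- If the kernel of `red` has no `m`-torsion, an endomorphism `σ` preserving `E0` and compatible
with `red` fixes every `m`-torsion element of `E0`. -/
theorem apply_eq_of_red_eq {m : ℕ}
    (htf : ∀ T : E0, red T = 0 → m • T = 0 → T = 0)
    (σ : E →+ E) (hσ0 : ∀ T ∈ E0, σ T ∈ E0)
    (hσr : ∀ T : E0, red ⟨σ T, hσ0 T T.2⟩ = red T)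
    (P : E0) (hP : m • P = 0) : σ (P : E) = P := by
  set D : E0 := ⟨σ P, hσ0 P P.2⟩ - P with hD
  have h1 : red D = 0 := by rw [hD, map_sub, hσr, sub_self]
  have h2 : m • D = 0 := by
    rw [hD, smul_sub, hP, sub_zero]
    apply Subtype.ext
    have : ((m • P : E0) : E) = 0 := by rw [hP]; rfl
    rw [AddSubgroup.coe_nsmul] at this
    rw [AddSubgroup.coe_nsmul, AddSubgroup.coe_mk, ← map_nsmul, this, map_zero]
    rfl
  have h3 := htf D h1 h2
  have h4 : ((D : E0) : E) = 0 := by rw [h3]; rfl
  rw [hD, AddSubgroup.coe_sub, AddSubgroup.coe_mk, sub_eq_zero] at h4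
  exact h4

end Group

section Linear

variable {R M : Type*} [CommRing R] [Nontrivial R] [AddCommGroup M] [Module R M]
  [Module.Free R M] [Module.Finite R M]

/-- The characteristic polynomial in rank two. -/
theorem charpoly_eq_of_finrank_two (h2 : Module.finrank R M = 2) (f : Module.End R M) :
    LinearMap.charpoly f = X ^ 2 - C (LinearMap.trace R M f) * X + C (LinearMap.det f) := by
  classical
  let bs : Module.Basis (Fin 2) R M := Module.finBasisOfFinrankEq R M h2
  rw [← LinearMap.charpoly_toMatrix f bs, Matrix.charpoly_fin_two,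
    ← LinearMap.trace_eq_matrix_trace R bs, LinearMap.det_toMatrix]

/-- An endomorphism of determinant `1` of a free module of rank two fixing a vector with trivial
annihilator has characteristic polynomial `(X - 1)²`. -/
theorem charpoly_eq_sub_one_sq (h2 : Module.finrank R M = 2) (f : Module.End R M)
    (hdet : LinearMap.det f = 1) (P : M) (hfP : f P = P) (hP : ∀ r : R, r • P = 0 → r = 0) :
    LinearMap.charpoly f = (X - 1) ^ 2 := by
  have hcp := charpoly_eq_of_finrank_two h2 f
  have hCH := LinearMap.aeval_self_charpoly f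
  rw [hcp, hdet] at hCH
  have h3 := congrArg (fun g : Module.End R M => g P) hCH
  simp only [map_add, map_sub, map_pow, map_mul, aeval_X, aeval_C, LinearMap.add_apply,
    LinearMap.sub_apply, Module.End.mul_apply, LinearMap.zero_apply, Module.algebraMap_end_apply,
    Module.End.pow_apply, Function.iterate_succ, Function.iterate_zero, Function.comp_apply,
    id_eq, hfP, map_one, Module.End.one_apply] at h3
  have h4 : (2 - LinearMap.trace R M f) • P = 0 := by
    rw [sub_smul, two_smul]
    have e : P + P - LinearMap.trace R M f • P = P - LinearMap.trace R M f • P + P := by abel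
    rw [e, h3]
  have h5 := hP _ h4
  have h6 : LinearMap.trace R M f = 2 := (sub_eq_zero.mp h5).symm
  rw [hcp, hdet, h6]
  simp only [map_ofNat, map_one]
  ring

end Linear

/-- In a `ZMod n`-module a point of exact additive order `n` has trivial annihilator. -/
theorem smul_eq_zero_imp_of_addOrderOf {n : ℕ} [NeZero n] {M : Type*} [AddCommGroup M]
    [Module (ZMod n) M] {P : M} (hP : addOrderOf P = n) (r : ZMod n) (h : r • P = 0) : r = 0 := by
  have h1 : (r.val : ZMod n) • P = 0 := by rw [ZMod.natCast_zmod_val]; exact h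
  rw [Nat.cast_smul_eq_nsmul] at h1
  have h2 : n ∣ r.val := by
    have := addOrderOf_dvd_of_nsmul_eq_zero h1
    rwa [hP] at this
  have h3 : r.val = 0 := Nat.eq_zero_of_dvd_of_lt h2 (ZMod.val_lt r)
  exact (ZMod.val_eq_zero r).mp h3

end Fermat.Agent.S58.EC.UnipotentAbs
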