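/-
S58 / EC-U (helper14): unipotent inertia at a multiplicative prime, generic form.

`K` algebraically closed, `A` a valuation subring with a surjective `r : A → k` killing the
maximal ideal, `k` algebraically closed; the curve `W'⁄K` reduces to a nodal cubic `Wk`
(`Δ = 0`, `c₄ ≠ 0`).  Then for `m` invertible in `k`:

* `exists_fixed_point` : there is a point of exact order `m` fixed by the whole inertia group
  (it has nonsingular reduction; `E1` is `m`-divisible and `m`-torsion-free);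
* `charpoly_of_mem_inertia` : an inertia element of determinant `1` on `W'(K)[p^n]` has
  characteristic polynomial `(X - 1)²` there (prelude vocabulary `galoisRepModuleEnd`).
-/
import Mathlib
import Fermat.Agent.S58.EC.Red.Kernel
import Fermat.Agent.S58.EC.Red.Equivariant
import Fermat.Agent.S58.EC.Red.Lift
import Fermat.Agent.S58.EC.Nodal
import Fermat.Agent.S58.EC.UnipotentAbs
import Fermat.Agent.S58.EC.TorsionBasis
import Fermat.Prelude.Def_EllipticCurve_FrobeniusTrace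

set_option autoImplicit false

open WeierstrassCurve WeierstrassCurve.Affine WeierstrassCurve.Affine.Point Polynomial
open Fermat.Agent.S58.EC.Red.Basic Fermat.Agent.S58.EC.Red.Add Fermat.Agent.S05

namespace Fermat.Agent.S58.EC.Unipotent

variable {R : Type*} [CommRing R] {W' : Affine R} {F K : Type*} [Field F] [Field K]
  [DecidableEq K] [IsAlgClosed K] [Algebra R F] [Algebra R K] [Algebra F K] [IsScalarTower R F K]
  {A : ValuationSubring K} {k : Type*} [Field k] [DecidableEq k] [IsAlgClosed k]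
  {r : ↥A →+* k} {Wk : Affine k}

/-- **(U1)+(U2)+(U3).** A point of exact order `m` fixed by inertia. -/
theorem exists_fixed_point (hr : KillsMax r) (hsurj : Function.Surjective r)
    (hW : CurveRed A r (W'⁄K) Wk) (hΔ : (W'⁄K).Δ ≠ 0) (hΔk : Wk.Δ = 0) (hc₄k : Wk.c₄ ≠ 0)
    {m : ℕ} (hm : (m : k) ≠ 0) :
    ∃ P : (W'⁄K).Point, m • P = 0 ∧ addOrderOf P = m ∧
      ∀ σ : K ≃ₐ[F] K, σ ∈ A.inertiaSubgroupIn F → σ • P = P := by
  have hm0 : 0 < m := Nat.pos_of_ne_zero (by rintro rfl; exact hm Nat.cast_zero)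
  have hmu : IsUnit ((m : ℕ) : ↥A) := Red.Kernel.isUnit_natCast_of_ne_zero hr hm
  obtain ⟨Q, hQ⟩ := Nodal.exists_addOrderOf_eq Wk hΔk hc₄k m hm
  have hdiv : ∀ T : E0 hr hW, red hr hW T = 0 → ∃ R' : E0 hr hW, red hr hW R' = 0 ∧ m • R' = T := by
    intro T hT
    have hT1 : Asm.InE1 A (T : (W'⁄K).Point) := (red_eq_zero_iff hr hW T).mp hT
    obtain ⟨R', hR1, hR⟩ := Red.Kernel.exists_inE1_nsmul_eq hW hΔ hm0 hmu hT1
    refine ⟨⟨R', inE0_of_inE1 hR1⟩, (red_eq_zero_iff hr hW _).mpr hR1, Subtype.ext ?_⟩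
    rw [AddSubgroup.coe_nsmul]
    exact hR
  have htf : ∀ T : E0 hr hW, red hr hW T = 0 → m • T = 0 → T = 0 := by
    intro T hT hmT
    have hT1 : Asm.InE1 A (T : (W'⁄K).Point) := (red_eq_zero_iff hr hW T).mp hT
    have hmT' : m • (T : (W'⁄K).Point) = 0 := by
      rw [← AddSubgroup.coe_nsmul, hmT]; rfl
    exact Subtype.ext (Red.Kernel.eq_zero_of_inE1_of_nsmul_eq_zero hW hmu hT1 hmT')
  obtain ⟨P, -, hmP, hord⟩ := UnipotentAbs.exists_lift_addOrderOf (E0 hr hW) (red hr hW) hdiv hQ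
    (AddMonoidHom.mem_range.mpr (Red.Lift.red_surjective hr hsurj hW Q))
  have hmP' : m • (P : (W'⁄K).Point) = 0 := by
    rw [← AddSubgroup.coe_nsmul, hmP]; rfl
  refine ⟨P, hmP', hord, fun σ hσ => ?_⟩
  have hI := Red.Equivariant.induces_id_of_mem_inertia hr hσ
  exact UnipotentAbs.apply_eq_of_red_eq (E0 hr hW) (red hr hW) htf
    (DistribSMul.toAddMonoidHom (W'⁄K).Point σ)
    (fun T hT => (Red.Equivariant.inE0_smul_iff_of_id σ hI T).mpr hT)
    (fun T => Red.Equivariant.redFun_smul_of_id (W' := W') (Wk := Wk) σ hI (T : (W'⁄K).Point))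
    P hmP

omit [DecidableEq K] [IsAlgClosed K] [DecidableEq k] [IsAlgClosed k] in
/-- A natural number invertible in `k` is nonzero in `K`. -/
theorem natCast_ne_zero_of_map_ne_zero (r : ↥A →+* k) {m : ℕ} (hm : (m : k) ≠ 0) :
    (m : K) ≠ 0 := by
  intro h
  apply hm
  have h1 : ((m : ℕ) : ↥A) = 0 := Subtype.ext (by push_cast; exact h)
  rw [← map_natCast r, h1, _root_.map_zero]

/-- **EC-U, generic form (characteristic polynomial).** An inertia element acting with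
determinant `1` on `W'(K)[p^n]` has characteristic polynomial `(X - 1)²` there, when the curve
reduces to a nodal cubic and `p` is an odd prime invertible in the residue field. -/
theorem charpoly_of_mem_inertia (hr : KillsMax r) (hsurj : Function.Surjective r)
    (hW : CurveRed A r (W'⁄K) Wk) (hΔ : (W'⁄K).Δ ≠ 0) (hΔk : Wk.Δ = 0) (hc₄k : Wk.c₄ ≠ 0)
    {p : ℕ} (hp : p.Prime) (hp2 : p ≠ 2) (hpk : (p : k) ≠ 0) (n : ℕ)
    [Module.Free (ZMod (p ^ n)) (Submodule.torsionBy ℤ (W'⁄K).Point ((p ^ n : ℕ) : ℤ))]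
    [Module.Finite (ZMod (p ^ n)) (Submodule.torsionBy ℤ (W'⁄K).Point ((p ^ n : ℕ) : ℤ))]
    {σ : K ≃ₐ[F] K} (hσ : σ ∈ A.inertiaSubgroupIn F)
    (hdet : LinearMap.det (galoisRepModuleEnd F W' (p ^ n) σ) = 1) :
    LinearMap.charpoly (galoisRepModuleEnd F W' (p ^ n) σ) = (X - 1) ^ 2 := by
  rcases subsingleton_or_nontrivial (ZMod (p ^ n)) with hs | hnt
  · have : Subsingleton (ZMod (p ^ n))[X] := Polynomial.subsingleton_iff_subsingleton.mpr hs
    exact Subsingleton.elim _ _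
  have hpK : (p : K) ≠ 0 := natCast_ne_zero_of_map_ne_zero r hpk
  have hmk : ((p ^ n : ℕ) : k) ≠ 0 := by rw [Nat.cast_pow]; exact pow_ne_zero _ hpk
  have : NeZero (p ^ n) := ⟨pow_ne_zero _ hp.ne_zero⟩
  obtain ⟨b⟩ := TorsionBasis.nonempty_basis W' hΔ hp hp2 hpK n
  have h2 : Module.finrank (ZMod (p ^ n))
      (Submodule.torsionBy ℤ (W'⁄K).Point ((p ^ n : ℕ) : ℤ)) = 2 := by
    rw [Module.finrank_eq_card_basis b, Fintype.card_fin]
  obtain ⟨P, hmP, hord, hfix⟩ := exists_fixed_point (F := F) hr hsurj hW hΔ hΔk hc₄k hmk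
  have hPmem : P ∈ Submodule.torsionBy ℤ (W'⁄K).Point ((p ^ n : ℕ) : ℤ) := by
    rw [Submodule.mem_torsionBy_iff, natCast_zsmul]
    exact hmP
  have hordt : addOrderOf (⟨P, hPmem⟩ :
      Submodule.torsionBy ℤ (W'⁄K).Point ((p ^ n : ℕ) : ℤ)) = p ^ n := by
    have := addOrderOf_injective
      (Submodule.torsionBy ℤ (W'⁄K).Point ((p ^ n : ℕ) : ℤ)).subtype.toAddMonoidHom
      Subtype.val_injective ⟨P, hPmem⟩
    rw [← this]
    exact hord
  refine UnipotentAbs.charpoly_eq_sub_one_sq h2 _ hdet ⟨P, hPmem⟩ ?_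
    (UnipotentAbs.smul_eq_zero_imp_of_addOrderOf hordt)
  rw [galoisRepModuleEnd_apply]
  exact Subtype.ext (hfix σ hσ)

/-- **EC-U, generic form (trace).** Same hypotheses, instance-free statement: the trace is `2`. -/
theorem trace_of_mem_inertia (hr : KillsMax r) (hsurj : Function.Surjective r)
    (hW : CurveRed A r (W'⁄K) Wk) (hΔ : (W'⁄K).Δ ≠ 0) (hΔk : Wk.Δ = 0) (hc₄k : Wk.c₄ ≠ 0)
    {p : ℕ} (hp : p.Prime) (hp2 : p ≠ 2) (hpk : (p : k) ≠ 0) (n : ℕ)
    {σ : K ≃ₐ[F] K} (hσ : σ ∈ A.inertiaSubgroupIn F)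
    (hdet : LinearMap.det (galoisRepModuleEnd F W' (p ^ n) σ) = 1) :
    LinearMap.trace (ZMod (p ^ n)) (Submodule.torsionBy ℤ (W'⁄K).Point ((p ^ n : ℕ) : ℤ))
      (galoisRepModuleEnd F W' (p ^ n) σ) = 2 := by
  rcases subsingleton_or_nontrivial (ZMod (p ^ n)) with hs | hnt
  · exact Subsingleton.elim _ _
  have hpK : (p : K) ≠ 0 := natCast_ne_zero_of_map_ne_zero r hpk
  obtain ⟨b⟩ := TorsionBasis.nonempty_basis W' hΔ hp hp2 hpK n
  have : Module.Free (ZMod (p ^ n)) (Submodule.torsionBy ℤ (W'⁄K).Point ((p ^ n : ℕ) : ℤ)) :=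
    Module.Free.of_basis b
  have : Module.Finite (ZMod (p ^ n)) (Submodule.torsionBy ℤ (W'⁄K).Point ((p ^ n : ℕ) : ℤ)) :=
    Module.Finite.of_basis b
  have h2 : Module.finrank (ZMod (p ^ n))
      (Submodule.torsionBy ℤ (W'⁄K).Point ((p ^ n : ℕ) : ℤ)) = 2 := by
    rw [Module.finrank_eq_card_basis b, Fintype.card_fin]
  have h1 := charpoly_of_mem_inertia hr hsurj hW hΔ hΔk hc₄k hp hp2 hpk n hσ hdet
  rw [UnipotentAbs.charpoly_eq_of_finrank_two h2, hdet] at h1
  have h3 := congrArg (fun q : (ZMod (p ^ n))[X] => q.coeff 1) h1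
  have e : ((X : (ZMod (p ^ n))[X]) - 1) ^ 2 = X ^ 2 - C 2 * X + C 1 := by
    rw [map_ofNat, map_one]; ring
  simp only [e, coeff_add, coeff_sub, coeff_X_pow, coeff_C_mul, coeff_X_one, coeff_C,
    mul_one] at h3
  norm_num at h3
  exact h3

end Fermat.Agent.S58.EC.Unipotent
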